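import Fermat.Prelude.Def_GroupCohomology_ContinuousUnramified
import Fermat.Agent.GlobalDuality.Idele

/-!
# The global Euler characteristic defect

For a finite `𝔽_p[Γ]`-module `M` the Greenberg–Wiles inequality reduces to `0 ≤ eulerDefect S M`.
This file defines the defect, additive functions (`IsAdditive`), modules with a trace (`HasTrace`,
relative projectivity) and layers adapted to `S` (`IsAdapted`); the rest of the directory shows
that the defect vanishes over an adapted layer.
-/

set_option autoImplicit false

noncomputable section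

open CategoryTheory Module groupCohomology ExtCitation

namespace FLTAgent.GWEuler

variable {p : ℕ} [Fact p.Prime]

/-- Relative projectivity of a module of a finite group: the identity is a trace. -/
def HasTrace {G : Type} [Group G] [Finite G] (M : Rep (ZMod p) G) : Prop :=
  letI := Fintype.ofFinite G
  ∃ φ : M →ₗ[ZMod p] M, ∀ m : M, ∑ g : G, M.ρ g (φ (M.ρ g⁻¹ m)) = m

/-- An additive function on finite modules of a group. -/
def IsAdditive {G : Type} [Group G] (e : Rep (ZMod p) G → ℤ) : Prop :=
  ∀ (A B C : Rep (ZMod p) G) [FiniteDimensional (ZMod p) A] [FiniteDimensional (ZMod p) B]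
    [FiniteDimensional (ZMod p) C] (ι : A →ₗ[ZMod p] B) (π : B →ₗ[ZMod p] C),
    (∀ (g : G) (a : A), ι (A.ρ g a) = B.ρ g (ι a)) →
    (∀ (g : G) (b : B), π (B.ρ g b) = C.ρ g (π b)) →
    Function.Injective ι → Function.Surjective π → (∀ b, π b = 0 ↔ ∃ a, ι a = b) →
    e B = e A + e C

local notation "Γℚ" => AlgebraicClosure ℚ ≃ₐ[ℚ] AlgebraicClosure ℚ

/-- The part of the defect that only involves `H¹` of the dual twist and invariants. -/
def unitsDefect (S : Finset Nat.Primes) (M : Rep (ZMod p) Γℚ) : ℤ :=
  (finrank (ZMod p) (continuousH1S S (M.dualTwist (cycloChar p))) : ℤ)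
    + finrank (ZMod p) M.ρ.invariants
    - finrank (ZMod p) (M.dualTwist (cycloChar p)).ρ.invariants
    - ∑ v : extArithIndex S, (finrank (ZMod p) (Rep.res (extArithLoc S v) M).ρ.invariants : ℤ)

/-- The defect in the Greenberg–Wiles inequality for zero local conditions. -/
def eulerDefect (S : Finset Nat.Primes) (M : Rep (ZMod p) Γℚ) : ℤ :=
  unitsDefect S M - finrank (ZMod p) (sha₁ S M)

open FLTAgent.GlobalDuality FLTAgent.GalCoh

variable (p) in
/-- Up to factors prime to `p`, every idele of `L` is principal modulo ideles that are units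
outside `S`. -/
def ClassTrivial (L : Layer) (S : Finset Nat.Primes) : Prop :=
  ∀ x ∈ fixedPts L.sub Idele, ∃ (m : ℕ) (a : GU), ¬ p ∣ m ∧ a ∈ fixedPts L.sub GU ∧
    ∀ q, q ∉ S → ∀ σ, (m • x - principal a).at q σ ∈ unitsAt q

/-- A layer adapted to `S`: it contains `μ_p`, is unramified outside `S ∋ p`, and has no
`p`-class group outside `S`. -/
structure IsAdapted (L : Layer) (S : Finset Nat.Primes) : Prop where
  pmem : pPrime p ∈ S
  isS : L.IsS S
  mu : ∀ g ∈ L.sub, cycloChar p g = 1
  classTrivial : ClassTrivial p L S

end FLTAgent.GWEuler
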