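import Fermat.Agent.GWEuler.Pairing
import Fermat.Agent.GWEuler.Defs

/-!
# Monotonicity in the local conditions

`selmer_le`: the inequality for given local conditions follows from the one for zero conditions,
using that orthogonal images have total dimension at most that of the ambient space.
-/

set_option autoImplicit false

noncomputable section

open CategoryTheory groupCohomology Module ExtCitation

namespace FLTAgent.GWEuler

/-- Orthogonal images have total dimension at most that of the ambient space. -/
theorem finrank_range_add_le {k V W P : Type*} [Field k] [AddCommGroup V] [Module k V]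
    [AddCommGroup W] [Module k W] [AddCommGroup P] [Module k P] [FiniteDimensional k V]
    [FiniteDimensional k W] [FiniteDimensional k P]
    (a : V →ₗ[k] P) (b : W →ₗ[k] Dual k P) (h : ∀ x y, b y (a x) = 0) :
    finrank k V + finrank k W
      ≤ finrank k (LinearMap.ker a) + finrank k (LinearMap.ker b) + finrank k P := by
  have h1 : LinearMap.range b ≤ (LinearMap.range a).dualAnnihilator := by
    rintro _ ⟨y, rfl⟩
    rw [Submodule.mem_dualAnnihilator]
    rintro _ ⟨x, rfl⟩
    exact h x y
  have h2 := Submodule.finrank_mono h1
  have h3 := Subspace.finrank_add_finrank_dualAnnihilator_eq (LinearMap.range a)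
  have h4 := a.finrank_range_add_finrank_ker
  have h5 := b.finrank_range_add_finrank_ker
  omega

variable {p : ℕ} [Fact p.Prime] (R : Reciprocity p) (S : Finset Nat.Primes)

local notation "Γℚ" => AlgebraicClosure ℚ ≃ₐ[ℚ] AlgebraicClosure ℚ

/-- Monotonicity: the inequality for given local conditions follows from the one for the zero
conditions. -/
theorem selmer_le (hp2 : p ≠ 2) (hpS : pPrime p ∈ S) (M : Rep (ZMod p) Γℚ) (hM : SLevel S M)
    [Module.Finite (ZMod p) (continuousH1S S M)]
    [Module.Finite (ZMod p) (continuousH1S S (M.dualTwist (cycloChar p)))]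
    (L : ∀ v : extArithIndex S, Submodule (ZMod p) (H1 (Rep.res (extArithLoc S v) M)))
    (hL : ∀ v, Module.Finite (ZMod p) (L v)) :
    finrank (ZMod p) ↥(continuousH1S S M ⊓ selmer (extArithLoc S) M L) +
        finrank (ZMod p) (continuousH1S S (M.dualTwist (cycloChar p))) ≤
      finrank (ZMod p) ↥(continuousH1S S (M.dualTwist (cycloChar p)) ⊓
          selmer (extArithLoc S) (M.dualTwist (cycloChar p))
            (dualConditions (extArithLoc S) M (M.dualTwist (cycloChar p))
              (locPairing R S M hM) L)) +
        finrank (ZMod p) (sha₁ S M) + ∑ v, finrank (ZMod p) (L v) := by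
  classical
  have := hL
  set M' := M.dualTwist (cycloChar p)
  set V := continuousH1S S M ⊓ selmer (extArithLoc S) M L
  set W := continuousH1S S M'
  have : Module.Finite (ZMod p) V := Submodule.finiteDimensional_of_le inf_le_left
  let a : V →ₗ[ZMod p] ∀ v, L v := LinearMap.pi fun v =>
    ((locTotal (extArithLoc S) M).comp V.subtype |> (LinearMap.proj v).comp).codRestrict (L v)
      fun x => (mem_selmer_iff _ _ _ _).mp x.2.2 v
  let b : W →ₗ[ZMod p] Dual (ZMod p) (∀ v, L v) :=
    ∑ v, (LinearMap.proj (R := ZMod p) (φ := fun v => L v) v).dualMap ∘ₗ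
      (L v).subtype.dualMap ∘ₗ (locPairing R S M hM v).flip ∘ₗ
        LinearMap.proj v ∘ₗ (locTotal (extArithLoc S) M').comp W.subtype
  have hb : ∀ (y : W) (l : ∀ v, L v), b y l
      = ∑ v, locPairing R S M hM v (l v).1 (locTotal (extArithLoc S) M' y.1 v) := fun y l => by
    simp only [b, LinearMap.sum_apply]
    rfl
  have key := finrank_range_add_le a b fun x y => by
    rw [hb]
    exact totalPairing_eq_zero R S M hp2 hpS hM x.2.1 y.2
  have hka : finrank (ZMod p) (LinearMap.ker a) ≤ finrank (ZMod p) (sha₁ S M) := by
    have : Module.Finite (ZMod p) (sha₁ S M) := Submodule.finiteDimensional_of_le inf_le_left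
    let f : LinearMap.ker a →ₗ[ZMod p] sha₁ S M :=
      (V.subtype.comp (LinearMap.ker a).subtype).codRestrict (sha₁ S M) fun x =>
        ⟨x.1.2.1, funext fun v =>
          congrArg (fun u : ∀ v, L v => (u v).1) (LinearMap.mem_ker.mp x.2)⟩
    exact LinearMap.finrank_le_finrank_of_injective (f := f) fun x y hxy =>
      Subtype.ext (Subtype.ext (congrArg (fun u : sha₁ S M => u.1) hxy))
  have hkb : finrank (ZMod p) (LinearMap.ker b) ≤ finrank (ZMod p)
      ↥(W ⊓ selmer (extArithLoc S) M'
        (dualConditions (extArithLoc S) M M' (locPairing R S M hM) L)) := by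
    have : Module.Finite (ZMod p) ↥(W ⊓ selmer (extArithLoc S) M'
        (dualConditions (extArithLoc S) M M' (locPairing R S M hM) L)) :=
      Submodule.finiteDimensional_of_le inf_le_left
    let f : LinearMap.ker b →ₗ[ZMod p] ↥(W ⊓ selmer (extArithLoc S) M'
        (dualConditions (extArithLoc S) M M' (locPairing R S M hM) L)) :=
      (W.subtype.comp (LinearMap.ker b).subtype).codRestrict _ fun y => by
        refine ⟨y.1.2, (mem_selmer_iff _ _ _ _).mpr fun v => ?_⟩
        show _ ∈ orthogonal (locPairing R S M hM v) (L v)
        rw [mem_orthogonal_iff]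
        intro x hx
        have h0 := LinearMap.congr_fun (LinearMap.mem_ker.mp y.2) (Pi.single v ⟨x, hx⟩)
        rw [hb, LinearMap.zero_apply, Finset.sum_eq_single v
          (fun w _ hw => by rw [Pi.single_eq_of_ne hw, Submodule.coe_zero, map_zero,
            LinearMap.zero_apply])
          (fun hv => absurd (Finset.mem_univ v) hv), Pi.single_eq_same] at h0
        exact h0
    exact LinearMap.finrank_le_finrank_of_injective (f := f) fun x y hxy =>
      Subtype.ext (Subtype.ext (congrArg (fun u : ↥(W ⊓ selmer (extArithLoc S) M'
        (dualConditions (extArithLoc S) M M' (locPairing R S M hM) L)) => u.1) hxy))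
  rw [Module.finrank_pi_fintype] at key
  have key2 : finrank (ZMod p) V + finrank (ZMod p) W ≤ finrank (ZMod p)
      ↥(W ⊓ selmer (extArithLoc S) M'
        (dualConditions (extArithLoc S) M M' (locPairing R S M hM) L)) +
      finrank (ZMod p) (sha₁ S M) + ∑ v, finrank (ZMod p) (L v) :=
    (key.trans (Nat.add_le_add (Nat.add_le_add hka hkb) le_rfl)).trans (by
      rw [Nat.add_comm (finrank (ZMod p) (sha₁ S M))])
  exact key2

end FLTAgent.GWEuler
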