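import Fermat.Agent.GWEuler.UnramifiedLocal
import Fermat.Agent.GWEuler.Monotone
import Fermat.Agent.TWPrimes.Level

/-!
# The defect decreases when the set of primes grows

`eulerDefect_anti`: passing from `S` to a larger set lowers the defect, since classes unramified
outside `S` have level `S`.  This reduces the inequality to adapted sets of primes.
-/

set_option autoImplicit false

noncomputable section

open CategoryTheory groupCohomology Module ExtCitation
open scoped Pointwise

namespace FLTAgent.GWEuler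

open FLTAgent.Density FLTAgent.LocalDuality

local notation "Γℚ" => AlgebraicClosure ℚ ≃ₐ[ℚ] AlgebraicClosure ℚ

variable {p : ℕ} [Fact p.Prime] {S S' : Finset Nat.Primes}

/-- The local class of a level cocycle at a prime outside the level is unramified. -/
theorem locClass_mem_unrH1 (q : Nat.Primes) (hq : q ∉ S) (hSS : S ⊆ S') (A : Rep.{0} (ZMod p) Γℚ)
    (c : cocycles₁ A) (hc : IsLevelConstantS₁ S (c : Γℚ → A)) :
    locClass S' q A c (hc.mono hSS) ∈ unrH1 q (Rep.res (primeLocalToGlobal q) A) := by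
  refine Submodule.mem_map.mpr ⟨_, fun u hu => ?_, rfl⟩
  obtain ⟨F, hF, h⟩ := hc
  show (c : Γℚ → A) (primeLocalToGlobal q u) = 0
  have h1 := h 1 _ (hF.2 q hq _ (primeLocalPlace_liesOverPrime q) hu)
  rw [one_mul] at h1
  have h0 := (mem_cocycles₁_iff (c : Γℚ → A)).mp c.2 1 1
  rw [one_mul, map_one A.ρ, Module.End.one_apply, left_eq_add] at h0
  rw [h1, h0]

/-- A class of level `S'` that is unramified at the primes outside `S` has level `S`. -/
theorem mem_continuousH1S_of_unramified (A : Rep.{0} (ZMod p) Γℚ) (hA : SLevel S A)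
    (b : cocycles₁ A) (hb : IsLevelConstantS₁ S' (b : Γℚ → A))
    (h : ∀ q ∈ S', q ∉ S → locClass S' q A b hb ∈ unrH1 q (Rep.res (primeLocalToGlobal q) A)) :
    (H1π A).hom b ∈ continuousH1S S A := by
  have hcoc := (mem_cocycles₁_iff (b : Γℚ → A)).mp b.2
  have hone : (b : Γℚ → A) 1 = 0 := by
    have h0 := hcoc 1 1
    rw [one_mul, map_one A.ρ, Module.End.one_apply, left_eq_add] at h0
    exact h0
  refine (mem_continuousH1S_iff S A _).2 ⟨b, ?_, rfl⟩
  obtain ⟨F, hF, hFA⟩ := hA
  refine TWPrimes.isLevelConstantS₁_of_inertia S (r := A.ρ.asGroupHom)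
    ⟨F, hF.1, fun σ hσ => Units.ext (by
      rw [Representation.asGroupHom_apply, Units.val_one]
      exact hFA σ ((IntermediateField.mem_fixingSubgroup_iff _ _).mpr hσ))⟩
    (fun g => (A.ρ g).toAddMonoidHom) (fun g hg => AddMonoidHom.ext fun x => by
      show A.ρ g x = x
      rw [← Representation.asGroupHom_apply A.ρ g, hg, Units.val_one, Module.End.one_apply])
    (fun g h => by rw [hcoc g h, add_comm]; rfl) hb.isLevelConstant₁
    fun q hq B hB σ hσ => ?_
  have hone' : ∀ {τ : Γℚ} {C : ValuationSubring (AlgebraicClosure ℚ)}, C.LiesOverPrime (q : ℕ) →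
      τ ∈ C.inertiaSubgroupIn ℚ → A.ρ τ = 1 := fun hC hτ => hFA _ (hF.2 q hq _ hC hτ)
  refine ⟨Units.ext (by rw [Representation.asGroupHom_apply, Units.val_one]; exact hone' hB hσ), ?_⟩
  by_cases hq' : q ∈ S'
  · have : Fact (q : ℕ).Prime := ⟨q.2⟩
    have hP := primeLocalPlace_liesOverPrime q
    obtain ⟨τ, rfl⟩ := exists_smul_eq_of_liesOverPrime q.2 hP hB
    have hσ' := mem_inertiaSubgroupIn_smul hσ τ⁻¹
    rw [inv_smul_smul] at hσ'
    obtain ⟨u, hu⟩ := TWPrimes.exists_toGlobal (q : ℕ)
      (inertiaSubgroupIn_le_decompositionSubgroup _ hσ')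
    have hu' : primeLocalToGlobal q u = τ⁻¹ * σ * τ⁻¹⁻¹ := hu
    have h2 : (b : Γℚ → A) (τ⁻¹ * σ * τ⁻¹⁻¹) = 0 := by
      have h3 := eq_zero_of_inert_of_cls (M := Rep.res (primeLocalToGlobal q) A)
        (fun w hw => hone' hP hw) (h q hq' hq) (u := u)
        (show primeLocalToGlobal q u ∈ _ by rw [hu']; exact hσ')
      rw [← hu']
      exact h3
    have h4 := hcoc (τ * (τ⁻¹ * σ * τ⁻¹⁻¹)) τ⁻¹
    rw [hcoc τ (τ⁻¹ * σ * τ⁻¹⁻¹), h2, map_zero, zero_add,
      show τ * (τ⁻¹ * σ * τ⁻¹⁻¹) = σ * τ by group, mul_inv_cancel_right, map_mul, hone' hB hσ,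
      one_mul] at h4
    rw [h4]
    have h5 := hcoc τ τ⁻¹
    rw [mul_inv_cancel, hone] at h5
    exact h5.symm
  · obtain ⟨F', hF', h'⟩ := hb
    have := h' 1 σ (hF'.2 q hq' B hB hσ)
    rwa [one_mul, hone] at this

/-- **The defect decreases when the set of primes grows.** -/
theorem eulerDefect_anti (R : Reciprocity p) (hp2 : p ≠ 2) (hpS : pPrime p ∈ S) (hSS : S ⊆ S')
    (M : Rep.{0} (ZMod p) Γℚ) [FiniteDimensional (ZMod p) M] (hM : SLevel S M)
    [Module.Finite (ZMod p) (continuousH1S S M)]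
    [Module.Finite (ZMod p) (continuousH1S S' M)]
    [Module.Finite (ZMod p) (continuousH1S S (M.dualTwist (cycloChar p)))]
    [Module.Finite (ZMod p) (continuousH1S S' (M.dualTwist (cycloChar p)))]
    (heul : ∀ q ∈ S', q ∉ S →
      Module.Finite (ZMod p)
        (continuousH1 (primeLocalToGlobal q) (Rep.res (primeLocalToGlobal q) M)) ∧
      finrank (ZMod p)
          (continuousH1 (primeLocalToGlobal q) (Rep.res (primeLocalToGlobal q) M))
        ≤ finrank (ZMod p) (Rep.res (primeLocalToGlobal q) M).ρ.invariants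
          + finrank (ZMod p)
              (Rep.res (primeLocalToGlobal q) (M.dualTwist (cycloChar p))).ρ.invariants) :
    eulerDefect S' M ≤ eulerDefect S M := by
  classical
  set M' := M.dualTwist (cycloChar p)
  have hpS' := hSS hpS
  have hM' := hM.mono hSS
  let U : ∀ q : Nat.Primes, Submodule (ZMod p) (H1 (Rep.res (primeLocalToGlobal q) M)) := fun q =>
    if q ∈ S then ⊥ else (unrH1 q (Rep.res (primeLocalToGlobal q) M)).map
      (continuousH1 (primeLocalToGlobal q) (Rep.res (primeLocalToGlobal q) M)).subtype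
  let L : ∀ v : extArithIndex S', Submodule (ZMod p) (H1 (Rep.res (extArithLoc S' v) M)) := fun v =>
    match v with
    | Sum.inl _ => ⊥
    | Sum.inr q => U q.1
  let h0 : Nat.Primes → ℕ := fun q =>
    finrank (ZMod p) (Rep.res (primeLocalToGlobal q) M).ρ.invariants
  have hU : ∀ q, Module.Finite (ZMod p) (U q) ∧
      finrank (ZMod p) (U q) = if q ∈ S then 0 else h0 q := fun q => by
    by_cases hq : q ∈ S
    · rw [show U q = ⊥ from if_pos hq, if_pos hq]
      exact ⟨inferInstance, finrank_bot _ _⟩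
    · have : FiniteDimensional (ZMod p) (Rep.res (primeLocalToGlobal q) M) :=
        inferInstanceAs (FiniteDimensional (ZMod p) M)
      obtain ⟨hf, hd⟩ := finrank_unrH1 (inertTrivial_loc hM hq) (hM.smooth_loc q)
      rw [show U q = (unrH1 q (Rep.res (primeLocalToGlobal q) M)).map
        (continuousH1 (primeLocalToGlobal q) (Rep.res (primeLocalToGlobal q) M)).subtype
        from if_neg hq, if_neg hq]
      refine ⟨Module.Finite.map _ _, ?_⟩
      rw [Submodule.finrank_map_subtype_eq]
      exact hd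
  have hL : ∀ v, Module.Finite (ZMod p) (L v) := fun v => by
    match v with
    | Sum.inl _ => exact inferInstanceAs (Module.Finite (ZMod p) (⊥ : Submodule (ZMod p) _))
    | Sum.inr q => exact (hU q.1).1
  have key := selmer_le R S' hp2 hpS' M hM' L hL
  -- classes of `sha₁` satisfy the conditions
  have : Module.Finite (ZMod p) ↥(continuousH1S S' M ⊓ selmer (extArithLoc S') M L) :=
    Submodule.finiteDimensional_of_le inf_le_left
  have h1 : sha₁ S M ≤ continuousH1S S' M ⊓ selmer (extArithLoc S') M L := by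
    rintro x ⟨hx, hx0⟩
    obtain ⟨c, hc, rfl⟩ := (mem_continuousH1S_iff S M x).1 hx
    have hloc := congrFun (LinearMap.mem_ker.mp hx0)
    refine ⟨(mem_continuousH1S_iff S' M _).2 ⟨c, hc.mono hSS, rfl⟩,
      (mem_selmer_iff _ _ _ _).mpr fun v => ?_⟩
    match v with
    | Sum.inl u => exact (Submodule.mem_bot _).mpr (hloc (Sum.inl u))
    | Sum.inr q =>
      show _ ∈ U q.1
      by_cases hq : q.1 ∈ S
      · simp only [U, if_pos hq]
        exact (Submodule.mem_bot _).mpr (hloc (Sum.inr ⟨q.1, hq⟩))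
      · simp only [U, if_neg hq]
        exact ⟨_, locClass_mem_unrH1 q.1 hq hSS M c hc, coe_locClass S' q.1 M c (hc.mono hSS)⟩
  -- orthogonal classes have level `S`
  have h2 : continuousH1S S' M' ⊓ selmer (extArithLoc S') M'
      (dualConditions (extArithLoc S') M M' (locPairing R S' M hM') L) ≤ continuousH1S S M' := by
    rintro y ⟨hy, hys⟩
    obtain ⟨b, hb, rfl⟩ := (mem_continuousH1S_iff S' M' y).1 hy
    refine mem_continuousH1S_of_unramified M' (sLevel_dualTwist hpS hM) b hb fun q hq hqS => ?_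
    obtain ⟨hf, he⟩ := heul q hq hqS
    refine mem_unrH1_of_orthogonal R hp2 M hpS hM hqS he fun x hx => ?_
    have h3 := (mem_selmer_iff _ _ _ _).mp hys (Sum.inr ⟨q, hq⟩)
    refine (locPairing_inr R S' M hM' ⟨q, hq⟩ x (locClass S' q M' b hb)).symm.trans ?_
    rw [coe_locClass]
    exact (mem_orthogonal_iff _ _ _).mp h3 x.1 (by
      show x.1 ∈ U q
      simp only [U, if_neg hqS]
      exact ⟨x, hx, rfl⟩)
  have h1' := Submodule.finrank_mono h1
  have h2' := Submodule.finrank_mono h2
  have hsum : ∑ v, finrank (ZMod p) (L v) + ∑ q ∈ S, h0 q = ∑ q ∈ S', h0 q := by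
    rw [show ∑ v, finrank (ZMod p) (L v) = ∑ q ∈ S', (if q ∈ S then 0 else h0 q) from ?_]
    · rw [Finset.sum_ite, Finset.sum_const_zero, zero_add, ← Finset.sdiff_eq_filter]
      exact Finset.sum_sdiff hSS
    · refine (Fintype.sum_sum_type _).trans ?_
      rw [Finset.sum_eq_zero fun (u : Unit) _ => finrank_bot (ZMod p) _, zero_add]
      exact (Finset.sum_congr rfl fun q _ => (hU q.1).2).trans
        (Finset.sum_coe_sort S' fun q => if q ∈ S then 0 else h0 q)
  have hloc : ∀ T : Finset Nat.Primes,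
      ∑ v : extArithIndex T,
        (finrank (ZMod p) (Rep.res (extArithLoc T v) M).ρ.invariants : ℤ)
      = finrank (ZMod p) (Rep.res archimedeanLoc M).ρ.invariants + ((∑ q ∈ T, h0 q : ℕ) : ℤ) :=
    fun T => by
      refine (Fintype.sum_sum_type _).trans ?_
      rw [Fintype.sum_unique, Nat.cast_sum]
      congr 1
      exact Finset.sum_coe_sort T fun q => (h0 q : ℤ)
  unfold eulerDefect unitsDefect
  rw [hloc, hloc, ← hsum]
  push_cast
  have e1 : (finrank (ZMod p) (sha₁ S M) : ℤ) ≤
      finrank (ZMod p) ↥(continuousH1S S' M ⊓ selmer (extArithLoc S') M L) := by exact_mod_cast h1'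
  have e2 := (Nat.cast_le (α := ℤ)).mpr key
  have e3 := (Nat.cast_le (α := ℤ)).mpr h2'
  push_cast at e2
  linarith

end FLTAgent.GWEuler
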