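import Fermat.Agent.GWEuler.Additive
import Mathlib.GroupTheory.PGroup
import Mathlib.GroupTheory.GroupAction.Quotient
import Mathlib.Algebra.Group.Action.Sigma

/-!
# Additive functions vanishing on relatively projective modules vanish

By reduction to commutative groups, coinduction, permutation lattices and Artin's identity, an
additive function on modules of a finite group vanishing on modules with a trace is zero
(`IsAdditive.eq_zero_of_hasTrace`).  Applied to the global and the local Euler defects.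
-/

set_option autoImplicit false

noncomputable section

open CategoryTheory Module

namespace FLTAgent.GWEuler

variable {p : ℕ} [Fact p.Prime] {G : Type} [Group G]

/-! ## Representations on functions -/

section FunRep

variable (X : Type) [MulAction G X]

/-- Functions on a `G`-set with values in a representation. -/
def mapRho (M : Rep.{0} (ZMod p) G) : Representation (ZMod p) G (X → M) where
  toFun g :=
    { toFun := fun f x => M.ρ g (f (g⁻¹ • x))
      map_add' := fun f₁ f₂ => funext fun x => map_add _ _ _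
      map_smul' := fun c f => funext fun x => map_smul _ _ _ }
  map_one' := LinearMap.ext fun f => funext fun x => by simp
  map_mul' g h := LinearMap.ext fun f => funext fun x => by simp [mul_smul]

/-- Functions on a `G`-set with values in a representation. -/
def mapRep (M : Rep.{0} (ZMod p) G) : Rep.{0} (ZMod p) G := Rep.of (mapRho X M)

theorem mapRep_apply (M : Rep.{0} (ZMod p) G) (g : G) (f : X → M) (x : X) :
    (mapRep X M).ρ g f x = M.ρ g (f (g⁻¹ • x)) := rfl

instance [Finite X] (M : Rep.{0} (ZMod p) G) [FiniteDimensional (ZMod p) M] :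
    FiniteDimensional (ZMod p) (mapRep X M) :=
  inferInstanceAs (FiniteDimensional (ZMod p) (X → M))

end FunRep

/-- Homomorphisms into a fixed representation. -/
def homRep (M R : Rep.{0} (ZMod p) G) : Rep.{0} (ZMod p) G := Rep.of (R.ρ.linHom M.ρ)

instance (M R : Rep.{0} (ZMod p) G) [FiniteDimensional (ZMod p) M] [FiniteDimensional (ZMod p) R] :
    FiniteDimensional (ZMod p) (homRep M R) :=
  inferInstanceAs (FiniteDimensional (ZMod p) (R →ₗ[ZMod p] M))

namespace IsAdditive

variable {e : Rep.{0} (ZMod p) G → ℤ}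

/-- Composition with `Hom(-, M)`. -/
theorem hom (he : IsAdditive e) (M : Rep.{0} (ZMod p) G) [FiniteDimensional (ZMod p) M] :
    IsAdditive fun R => e (homRep M R) := by
  intro A B C _ _ _ ι π hι hπ hinj hsurj hex
  let πL : (C →ₗ[ZMod p] M) →ₗ[ZMod p] (B →ₗ[ZMod p] M) := π.lcomp (ZMod p) M
  let ιL : (B →ₗ[ZMod p] M) →ₗ[ZMod p] (A →ₗ[ZMod p] M) := ι.lcomp (ZMod p) M
  have hπL : ∀ (g : G) (f : C →ₗ[ZMod p] M),
      πL (C.ρ.linHom M.ρ g f) = B.ρ.linHom M.ρ g (πL f) := fun g f => LinearMap.ext fun b => by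
    show M.ρ g (f (C.ρ g⁻¹ (π b))) = M.ρ g (f (π (B.ρ g⁻¹ b)))
    rw [hπ]
  have hιL : ∀ (g : G) (f : B →ₗ[ZMod p] M),
      ιL (B.ρ.linHom M.ρ g f) = A.ρ.linHom M.ρ g (ιL f) := fun g f => LinearMap.ext fun a => by
    show M.ρ g (f (B.ρ g⁻¹ (ι a))) = M.ρ g (f (ι (A.ρ g⁻¹ a)))
    rw [hι]
  have hinjL : Function.Injective πL := fun f₁ f₂ hf => LinearMap.ext fun c => by
    obtain ⟨b, rfl⟩ := hsurj c
    exact LinearMap.congr_fun hf b
  have hsurjL : Function.Surjective ιL := fun f => by
    obtain ⟨l, hl⟩ := ι.exists_leftInverse_of_injective (LinearMap.ker_eq_bot.mpr hinj)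
    exact ⟨f.comp l, LinearMap.ext fun a => congrArg f (LinearMap.congr_fun hl a)⟩
  have hexL : ∀ f, ιL f = 0 ↔ ∃ f', πL f' = f := fun f => by
    refine ⟨fun hf => ?_, ?_⟩
    · obtain ⟨s, hs⟩ := π.exists_rightInverse_of_surjective (LinearMap.range_eq_top.mpr hsurj)
      refine ⟨f.comp s, LinearMap.ext fun b => ?_⟩
      have h0 : π (s (π b) - b) = 0 := by
        rw [map_sub]; exact sub_eq_zero.mpr (LinearMap.congr_fun hs (π b))
      obtain ⟨a, ha⟩ := (hex _).mp h0
      have h1 : f (s (π b) - b) = 0 := ha ▸ LinearMap.congr_fun hf a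
      rw [map_sub, sub_eq_zero] at h1
      exact h1
    · rintro ⟨a, rfl⟩
      exact LinearMap.ext fun x => by
        show a (π (ι x)) = 0
        rw [(hex _).mpr ⟨x, rfl⟩, map_zero]
  have h := he (homRep M C) (homRep M B) (homRep M A) πL ιL hπL hιL hinjL hsurjL hexL
  show e (homRep M B) = e (homRep M A) + e (homRep M C)
  omega

/-- If a `p`-group acts through `R`, the class of `R` is a multiple of the trivial class. -/
theorem eq_finrank_mul_of_pGroup [Finite G] (he : IsAdditive e) (R : Rep.{0} (ZMod p) G)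
    [FiniteDimensional (ZMod p) R] (hR : ∀ g : G, ∃ k : ℕ, R.ρ (g ^ p ^ k) = 1) :
    e R = finrank (ZMod p) R * e (Rep.trivial (ZMod p) G (ZMod p)) := by
  have : FiniteDimensional (ZMod p) (Rep.trivial (ZMod p) G (ZMod p)) :=
    inferInstanceAs (FiniteDimensional (ZMod p) (ZMod p))
  induction hd : finrank (ZMod p) R using Nat.strong_induction_on generalizing R with
  | _ d ih =>
    rcases Nat.eq_zero_or_pos d with rfl | hpos
    · have : Subsingleton R := Module.finrank_zero_iff.mp hd
      rw [he.eq_zero_of_subsingleton R, Nat.cast_zero, zero_mul]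
    have : Finite R := Module.finite_of_finite (ZMod p)
    let φ : G →* Equiv.Perm R :=
      { toFun := fun g => ⟨R.ρ g, R.ρ g⁻¹, fun x => by simp, fun x => by simp⟩
        map_one' := Equiv.ext fun x => by simp
        map_mul' := fun g h => Equiv.ext fun x => by simp }
    have hP : IsPGroup p φ.range := by
      rintro ⟨_, g, rfl⟩
      obtain ⟨k, hk⟩ := hR g
      refine ⟨k, Subtype.ext ?_⟩
      show φ g ^ p ^ k = 1
      rw [← map_pow]
      exact Equiv.ext fun x => (LinearMap.congr_fun hk x).trans rfl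
    have hcard : p ∣ Nat.card R := by
      rw [Module.natCard_eq_pow_finrank (K := ZMod p) (V := R), Nat.card_zmod, hd]
      exact dvd_pow_self p hpos.ne'
    obtain ⟨v, hv, hv0⟩ := hP.exists_fixed_point_of_prime_dvd_card_of_fixed_point R hcard
      (a := (0 : R)) fun ⟨_, g, hg⟩ => by
        subst hg; exact map_zero (R.ρ g)
    have hfix : ∀ g, R.ρ g v = v := fun g => hv ⟨φ g, g, rfl⟩
    let ι : Rep.trivial (ZMod p) G (ZMod p) →ₗ[ZMod p] R := LinearMap.toSpanSingleton (ZMod p) R v
    let L : Submodule (ZMod p) R := LinearMap.range ι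
    have hι : ∀ (g : G) (c : ZMod p), R.ρ g (c • v) = c • v := fun g c => by rw [map_smul, hfix]
    let C : Rep.{0} (ZMod p) G := Rep.of (R.ρ.quotient L fun g x ⟨c, hc⟩ => ⟨c, by
      show c • v = R.ρ g x
      rw [← hc]; exact (hι g c).symm⟩)
    have : FiniteDimensional (ZMod p) C :=
      inferInstanceAs (FiniteDimensional (ZMod p) (R ⧸ L))
    have hinj : Function.Injective ι := smul_left_injective (ZMod p) (Ne.symm hv0)
    have h1 := he (Rep.trivial (ZMod p) G (ZMod p)) R C ι L.mkQ (fun g c => (hι g c).symm)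
      (fun _ _ => rfl) hinj L.mkQ_surjective fun b => Submodule.Quotient.mk_eq_zero L
    have h2 : finrank (ZMod p) C + 1 = d := by
      rw [← hd, ← L.finrank_quotient_add_finrank, LinearMap.finrank_range_of_inj hinj]
      congr 1
      exact (Module.finrank_self (ZMod p)).symm
    have h3 := ih (finrank (ZMod p) C) (by omega) C (fun g => by
      obtain ⟨k, hk⟩ := hR g
      refine ⟨k, LinearMap.ext fun c => ?_⟩
      obtain ⟨x, rfl⟩ := L.mkQ_surjective c
      exact congrArg L.mkQ (LinearMap.congr_fun hk x)) rfl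
    rw [h1, h3, ← h2]
    push_cast
    ring

/-- `Hom(F_p, M)` is `M`. -/
theorem hom_trivial (he : IsAdditive e) (M : Rep.{0} (ZMod p) G) [FiniteDimensional (ZMod p) M] :
    e (homRep M (Rep.trivial (ZMod p) G (ZMod p))) = e M := by
  have : FiniteDimensional (ZMod p) (Rep.trivial (ZMod p) G (ZMod p)) :=
    inferInstanceAs (FiniteDimensional (ZMod p) (ZMod p))
  exact he.eq_of_bijective _ _ (LinearMap.ringLmapEquivSelf (ZMod p) (ZMod p) M).toLinearMap
    (fun _ _ => rfl) (LinearEquiv.bijective _)

/-- `Hom(F_p[X], M)` is the module of functions on `X`. -/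
theorem hom_mapRep (he : IsAdditive e) (X : Type) [MulAction G X] [Finite X]
    (M : Rep.{0} (ZMod p) G)
    [FiniteDimensional (ZMod p) M] :
    e (homRep M (mapRep X (Rep.trivial (ZMod p) G (ZMod p)))) = e (mapRep X M) := by
  classical
  let := Fintype.ofFinite X
  have : FiniteDimensional (ZMod p) (Rep.trivial (ZMod p) G (ZMod p)) :=
    inferInstanceAs (FiniteDimensional (ZMod p) (ZMod p))
  let b := Pi.basisFun (ZMod p) X
  refine he.eq_of_bijective _ _ (b.constr (ZMod p) (M' := M)).symm.toLinearMap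
    (fun g F => funext fun x => ?_) (LinearEquiv.bijective _)
  let F' : (X → ZMod p) →ₗ[ZMod p] M := F
  show M.ρ g (F' fun y => b x (g⁻¹⁻¹ • y)) = M.ρ g (F' (b (g⁻¹ • x)))
  congr 2
  funext y
  rw [inv_inv, Pi.basisFun_apply, Pi.basisFun_apply, Pi.single_apply, Pi.single_apply]
  exact if_congr (eq_inv_smul_iff).symm rfl rfl

end IsAdditive

/-- An additive function on a commutative group vanishing on relatively projective modules is
zero. -/
theorem eq_zero_of_comm [Finite G] {e : Rep.{0} (ZMod p) G → ℤ} (he : IsAdditive e)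
    (hcomm : ∀ a b : G, a * b = b * a)
    (h0 : ∀ (M : Rep.{0} (ZMod p) G) [FiniteDimensional (ZMod p) M], HasTrace M → e M = 0)
    (M : Rep.{0} (ZMod p) G) [FiniteDimensional (ZMod p) M] : e M = 0 := by
  classical
  obtain ⟨a, m, hm, hG⟩ :=
    Nat.exists_eq_pow_mul_and_not_dvd (n := Nat.card G) Nat.card_pos.ne' p
      (Fact.out : p.Prime).ne_one
  let H : Subgroup G :=
    { carrier := {x | x ^ m = 1}
      one_mem' := one_pow m
      mul_mem' := fun {x y} (hx : x ^ m = 1) (hy : y ^ m = 1) => show (x * y) ^ m = 1 by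
        rw [Commute.mul_pow (hcomm x y), hx, hy, one_mul]
      inv_mem' := fun {x} (hx : x ^ m = 1) => show x⁻¹ ^ m = 1 by rw [inv_pow, hx, inv_one] }
  have hH : ¬ p ∣ Nat.card H := fun hd => by
    obtain ⟨⟨x, hxm⟩, hx⟩ := exists_prime_orderOf_dvd_card' (G := H) p hd
    rw [Subgroup.orderOf_mk] at hx
    exact hm (hx ▸ orderOf_dvd_of_pow_eq_one hxm)
  have hfix : ∀ h ∈ H, ∀ x : G ⧸ H, h • x = x := fun h hh x => by
    induction x using QuotientGroup.induction_on with
    | H y =>
      show ((h * y : G) : G ⧸ H) = y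
      refine QuotientGroup.eq.mpr ?_
      rw [mul_inv_rev, mul_assoc, hcomm h⁻¹ y, ← mul_assoc, inv_mul_cancel, one_mul]
      exact H.inv_mem hh
  have hpow : ∀ g : G, g ^ p ^ a ∈ H := fun g => by
    show (g ^ p ^ a) ^ m = 1
    rw [← pow_mul, ← hG, pow_card_eq_one']
  set X := G ⧸ H
  let F := mapRep X (Rep.trivial (ZMod p) G (ZMod p))
  have : FiniteDimensional (ZMod p) (Rep.trivial (ZMod p) G (ZMod p)) :=
    inferInstanceAs (FiniteDimensional (ZMod p) (ZMod p))
  have h1 := (he.hom M).eq_finrank_mul_of_pGroup F fun g => ⟨a, LinearMap.ext fun f =>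
    funext fun x => by
      show f ((g ^ p ^ a)⁻¹ • x) = f x
      rw [hfix _ (H.inv_mem (hpow g))]⟩
  rw [he.hom_mapRep, he.hom_trivial] at h1
  have htr : HasTrace (mapRep X M) := by
    let := Fintype.ofFinite G
    let x₀ : X := ((1 : G) : G ⧸ H)
    let δ : (X → M) →ₗ[ZMod p] (X → M) :=
      { toFun := fun f x => if x = x₀ then (Nat.card H : ZMod p)⁻¹ • f x else 0
        map_add' := fun f f' => funext fun x => by
          by_cases hx : x = x₀ <;> simp [hx]
        map_smul' := fun c f => funext fun x => by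
          simp only [Pi.smul_apply, RingHom.id_apply]
          by_cases hx : x = x₀
          · rw [if_pos hx, if_pos hx, smul_comm]
          · rw [if_neg hx, if_neg hx, smul_zero] }
    refine ⟨δ, fun f => funext fun x => ?_⟩
    have hterm : ∀ (f : X → M) (g : G), mapRho X M g (δ (mapRho X M g⁻¹ f)) x
        = if g • x₀ = x then (Nat.card H : ZMod p)⁻¹ • f x else 0 := fun f g => by
      show M.ρ g (if g⁻¹ • x = x₀ then (Nat.card H : ZMod p)⁻¹ • M.ρ g⁻¹ (f (g⁻¹⁻¹ • g⁻¹ • x))
        else 0) = _
      by_cases hx : g • x₀ = x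
      · have hx' : g⁻¹ • x = x₀ := inv_smul_eq_iff.mpr hx.symm
        rw [if_pos hx, if_pos hx', map_smul, inv_inv, smul_inv_smul, Representation.self_inv_apply]
      · have hx' : ¬ g⁻¹ • x = x₀ := fun h => hx (by rw [← h, smul_inv_smul])
        rw [if_neg hx, if_neg hx', map_zero]
    refine (Finset.sum_apply x _ _).trans
      ((Finset.sum_congr rfl fun g _ => hterm f g).trans ?_)
    rw [← Finset.sum_filter, Finset.sum_const]
    obtain ⟨y, rfl⟩ := QuotientGroup.mk_surjective x
    have hcount : (Finset.univ.filter fun g : G => g • x₀ = (y : G ⧸ H)).card = Nat.card H := by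
      rw [← Nat.card_eq_finsetCard]
      refine Nat.card_congr
        { toFun := fun g => ⟨y⁻¹ * g.1, ?_⟩
          invFun := fun h => ⟨y * h.1, ?_⟩
          left_inv := fun g => by simp
          right_inv := fun h => by simp }
      · have := (Finset.mem_filter.mp g.2).2
        exact QuotientGroup.eq.mp ((congrArg (fun u : G => (u : G ⧸ H)) (mul_one g.1)).symm.trans
          this).symm
      · refine Finset.mem_filter.mpr ⟨Finset.mem_univ _, ?_⟩
        show ((y * h.1 * 1 : G) : G ⧸ H) = y
        rw [mul_one]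
        exact (QuotientGroup.eq.mpr (by simp)).symm
    rw [hcount, ← Nat.cast_smul_eq_nsmul (ZMod p), smul_smul,
      mul_inv_cancel₀ (by rwa [ne_eq, ZMod.natCast_eq_zero_iff]), one_smul]
  have h2 := h0 (mapRep X M) htr
  rw [h2] at h1
  have h3 : finrank (ZMod p) F ≠ 0 := by
    let := Fintype.ofFinite X
    show finrank (ZMod p) (X → ZMod p) ≠ 0
    rw [Module.finrank_pi]
    exact Fintype.card_ne_zero
  exact (mul_eq_zero.mp h1.symm).resolve_left (Nat.cast_ne_zero.mpr h3)

/-! ## Coinduction -/

section Coind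

variable (H : Subgroup G) (N : Rep.{0} (ZMod p) H)

/-- The functions on `G` transforming by `N` under `H`. -/
def coindCarrier : Submodule (ZMod p) (G → N) where
  carrier := {f | ∀ (h : H) (x : G), f (h * x) = N.ρ h (f x)}
  add_mem' {f₁ f₂} h₁ h₂ := fun h x => by
    show f₁ _ + f₂ _ = N.ρ h (f₁ x + f₂ x)
    rw [h₁ h x, h₂ h x, map_add]
  zero_mem' := fun h x => (map_zero _).symm
  smul_mem' c f hf := fun h x => by
    show c • f _ = N.ρ h (c • f x)
    rw [hf h x, map_smul]

/-- Coinduction from a subgroup. -/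
def coindRep : Rep.{0} (ZMod p) G := Rep.of (X := coindCarrier H N)
  { toFun := fun g =>
      { toFun := fun f => ⟨fun x => f.1 (x * g), fun h x => by
          show f.1 (h * x * g) = _
          rw [mul_assoc]; exact f.2 h (x * g)⟩
        map_add' := fun _ _ => rfl
        map_smul' := fun _ _ => rfl }
    map_one' := LinearMap.ext fun f => Subtype.ext (funext fun x => by simp)
    map_mul' := fun g g' => LinearMap.ext fun f => Subtype.ext (funext fun x => by
      simp [mul_assoc]) }

instance [Finite G] [FiniteDimensional (ZMod p) N] : FiniteDimensional (ZMod p) (coindRep H N) :=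
  inferInstanceAs (FiniteDimensional (ZMod p) (coindCarrier H N))

end Coind

theorem IsAdditive.coind [Finite G] {e : Rep.{0} (ZMod p) G → ℤ} (he : IsAdditive e)
    (H : Subgroup G) :
    IsAdditive fun N => e (coindRep H N) := by
  classical
  intro A B C _ _ _ ι π hι hπ hinj hsurj hex
  let pushι : coindRep H A →ₗ[ZMod p] coindRep H B :=
    { toFun := fun f => ⟨fun x => ι (f.1 x), fun h x => by
        show ι _ = _; rw [f.2 h x, hι]⟩
      map_add' := fun f f' => Subtype.ext (funext fun x => map_add ι _ _)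
      map_smul' := fun c f => Subtype.ext (funext fun x => map_smul ι _ _) }
  let pushπ : coindRep H B →ₗ[ZMod p] coindRep H C :=
    { toFun := fun f => ⟨fun x => π (f.1 x), fun h x => by
        show π _ = _; rw [f.2 h x, hπ]⟩
      map_add' := fun f f' => Subtype.ext (funext fun x => map_add π _ _)
      map_smul' := fun c f => Subtype.ext (funext fun x => map_smul π _ _) }
  -- a set-theoretic transversal
  let q : G → H := fun x => ⟨x * (Quotient.out (Quotient.mk (QuotientGroup.rightRel H) x))⁻¹, by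
    have := Quotient.exact
      (Quotient.out_eq (Quotient.mk (QuotientGroup.rightRel H) x))
    exact QuotientGroup.rightRel_apply.mp this⟩
  let r : G → G := fun x => Quotient.out (Quotient.mk (QuotientGroup.rightRel H) x)
  have hr : ∀ (h : H) (x : G), r (h * x) = r x := fun h x => by
    show Quotient.out _ = Quotient.out _
    congr 1
    refine Quotient.sound (QuotientGroup.rightRel_apply.mpr ?_)
    rw [mul_inv_rev, ← mul_assoc, mul_inv_cancel, one_mul]
    exact H.inv_mem h.2
  have hq : ∀ (h : H) (x : G), q (h * x) = h * q x := fun h x => Subtype.ext (by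
    show (h : G) * x * (r (h * x))⁻¹ = h * (x * (r x)⁻¹)
    rw [hr, mul_assoc])
  refine he _ _ _ pushι pushπ (fun g f => rfl) (fun g f => rfl)
    (fun f f' hf => Subtype.ext (funext fun x => hinj (congrFun (congrArg Subtype.val hf) x)))
    (fun f => ?_) fun f => ⟨fun hf => ?_, fun ⟨a, ha⟩ => ?_⟩
  · choose s hs using hsurj
    refine ⟨⟨fun x => B.ρ (q x) (s (f.1 (r x))), fun h x => ?_⟩, Subtype.ext (funext fun x => ?_)⟩
    · show B.ρ (q (h * x)) _ = B.ρ h (B.ρ (q x) _)
      rw [hq, hr, map_mul]; rfl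
    · show π (B.ρ (q x) (s (f.1 (r x)))) = f.1 x
      rw [hπ, hs, ← f.2]
      exact congrArg f.1 (inv_mul_cancel_right x (r x))
  · choose a ha using fun x => (hex _).mp (congrFun (congrArg Subtype.val hf) x)
    exact ⟨⟨a, fun h x => hinj (by rw [hι, ha, ha]; exact f.2 h x)⟩, Subtype.ext (funext ha)⟩
  · exact Subtype.ext (funext fun x =>
      (hex _).mpr ⟨a.1 x, congrFun (congrArg Subtype.val ha) x⟩)

theorem hasTrace_coind [Finite G] (H : Subgroup G) (N : Rep.{0} (ZMod p) H) (hN : HasTrace N) :
    HasTrace (coindRep H N) := by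
  classical
  let := Fintype.ofFinite G
  obtain ⟨φ, hφ⟩ := hN
  let := Fintype.ofFinite H
  let c : (coindCarrier H N) → G → N := fun f x => if hx : x ∈ H then N.ρ ⟨x, hx⟩ (φ (f.1 1)) else 0
  have hc : ∀ f, c f ∈ coindCarrier H N := fun f h x => by
    by_cases hx : x ∈ H
    · show c f _ = N.ρ h (c f x)
      simp only [c, dif_pos hx, dif_pos (H.mul_mem h.2 hx)]
      rw [show (⟨(h : G) * x, H.mul_mem h.2 hx⟩ : H) = h * ⟨x, hx⟩ from rfl, map_mul]
      rfl
    · show c f _ = N.ρ h (c f x)
      have hx' : ¬ (h : G) * x ∈ H := fun hh =>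
        hx (by simpa using H.mul_mem (H.inv_mem h.2) hh)
      simp only [c, dif_neg hx, dif_neg hx', map_zero]
  let Φ : coindRep H N →ₗ[ZMod p] coindRep H N :=
    { toFun := fun f => ⟨c f, hc f⟩
      map_add' := fun f f' => Subtype.ext (funext fun x => by
        show c (f + f') x = c f x + c f' x
        by_cases hx : x ∈ H
        · simp only [c, dif_pos hx]
          exact (congrArg (N.ρ ⟨x, hx⟩) (map_add φ _ _)).trans (map_add _ _ _)
        · simp only [c, dif_neg hx, add_zero])
      map_smul' := fun a f => Subtype.ext (funext fun x => by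
        show c (a • f) x = a • c f x
        by_cases hx : x ∈ H
        · simp only [c, dif_pos hx]
          exact (congrArg (N.ρ ⟨x, hx⟩) (map_smul φ a _)).trans (map_smul _ _ _)
        · simp only [c, dif_neg hx, smul_zero]) }
  refine ⟨Φ, fun (f : coindCarrier H N) => Subtype.ext (funext fun x => ?_)⟩
  refine (congrFun (map_sum (coindCarrier H N).subtype _ _) x).trans ?_
  refine (Finset.sum_apply x _ _).trans ?_
  have hterm : ∀ g : G,
      ((coindRep H N).ρ g (Φ ((coindRep H N).ρ g⁻¹ f)) : coindCarrier H N).1 x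
      = if hx : x * g ∈ H then N.ρ ⟨x * g, hx⟩ (φ (f.1 g⁻¹)) else 0 := fun g => by
    show c ((coindRep H N).ρ g⁻¹ f) (x * g) = _
    simp only [c]
    refine dite_congr rfl (fun hx => ?_) fun _ => rfl
    congr 2
    exact congrArg f.1 (one_mul g⁻¹)
  refine (Finset.sum_congr rfl fun g _ => hterm g).trans ?_
  rw [← hφ (f.1 x), Finset.sum_dite, Finset.sum_const_zero, add_zero]
  refine Finset.sum_bij' (fun g _ => ⟨x * g.1, (Finset.mem_filter.mp g.2).2⟩)
    (fun h _ => ⟨x⁻¹ * h.1, Finset.mem_filter.mpr ⟨Finset.mem_univ _, by simp⟩⟩)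
    (fun g _ => Finset.mem_univ _) (fun h _ => Finset.mem_univ _)
    (fun g _ => Subtype.ext (by simp)) (fun h _ => Subtype.ext (by simp)) fun g _ => ?_
  congr 2
  rw [← f.2]
  exact congrArg f.1 (show g.1⁻¹ = (x * g.1)⁻¹ * x by rw [mul_inv_rev, inv_mul_cancel_right])

/-! ## Permutation lattices -/

section PermLat

variable (X : Type) [MulAction G X]

variable (G) in
/-- The lattice of integral functions on a `G`-set. -/
def PermLat (X : Type) [MulAction G X] : Type := X → ℤ

instance : AddCommGroup (PermLat G X) := inferInstanceAs (AddCommGroup (X → ℤ))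

instance : DistribMulAction G (PermLat G X) where
  smul g f := fun x => f (g⁻¹ • x)
  one_smul f := funext fun x => congrArg f (by rw [inv_one, one_smul])
  mul_smul g h f := funext fun x => congrArg f (by rw [mul_inv_rev, mul_smul])
  smul_zero _ := rfl
  smul_add _ _ _ := rfl

instance [Finite X] : Module.Free ℤ (PermLat G X) :=
  Module.Free.of_equiv (R := ℤ) (M := X → ℤ) (AddEquiv.refl _).toIntLinearEquiv

instance [Finite X] : Module.Finite ℤ (PermLat G X) :=
  Module.Finite.equiv (R := ℤ) (M := X → ℤ) (AddEquiv.refl _).toIntLinearEquiv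

theorem trace_permLat [Finite X] (g : G) :
    LinearMap.trace ℤ (PermLat G X) (actRep (PermLat G X) g) = Nat.card {x : X // g • x = x} := by
  classical
  let := Fintype.ofFinite X
  let b : Basis X ℤ (PermLat G X) :=
    (Pi.basisFun ℤ X).map (AddEquiv.refl (X → ℤ) : (X → ℤ) ≃+ PermLat G X).toIntLinearEquiv
  rw [LinearMap.trace_eq_matrix_trace ℤ b, Matrix.trace, Nat.card_eq_fintype_card,
    Fintype.card_subtype, ← Finset.sum_boole]
  refine Finset.sum_congr rfl fun x _ => ?_
  rw [Matrix.diag_apply, LinearMap.toMatrix_apply]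
  show (Pi.single x (1 : ℤ) : X → ℤ) (g⁻¹ • x) = _
  rw [Pi.single_apply]
  exact if_congr (inv_smul_eq_iff.trans eq_comm) rfl rfl

/-- The reduction of a permutation lattice. -/
theorem redMod_permLat [Finite X] {e : Rep.{0} (ZMod p) G → ℤ} (he : IsAdditive e) :
    e (redMod p G (PermLat G X)) = e (mapRep X (Rep.trivial (ZMod p) G (ZMod p))) := by
  have := finite_redMod (p := p) (G := G) (PermLat G X)
  have : FiniteDimensional (ZMod p) (Rep.trivial (ZMod p) G (ZMod p)) :=
    inferInstanceAs (FiniteDimensional (ZMod p) (ZMod p))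
  let r : PermLat G X →+ (X → ZMod p) :=
    { toFun := fun f x => ((show X → ℤ from f) x : ZMod p)
      map_zero' := funext fun _ => Int.cast_zero
      map_add' := fun _ _ => funext fun _ => Int.cast_add _ _ }
  let F : ModP (PermLat G X) p →+ (X → ZMod p) := QuotientAddGroup.lift _ r (by
    rintro _ ⟨f, rfl⟩
    exact funext fun x => by
      show ((p • (show X → ℤ from f) x : ℤ) : ZMod p) = 0
      rw [nsmul_eq_mul, Int.cast_mul, Int.cast_natCast, ZMod.natCast_self, zero_mul])
  refine he.eq_of_bijective _ _ (AddMonoidHom.toZModLinearMap p F) (fun g v => ?_) ⟨?_, fun v => ?_⟩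
  · obtain ⟨f, rfl⟩ := QuotientAddGroup.mk_surjective (show ModP (PermLat G X) p from v)
    rfl
  · refine (injective_iff_map_eq_zero F).mpr fun v hv => ?_
    obtain ⟨f, rfl⟩ := QuotientAddGroup.mk_surjective v
    choose c hc using fun x => (ZMod.intCast_zmod_eq_zero_iff_dvd _ p).mp (congrFun hv x)
    exact (QuotientAddGroup.eq_zero_iff _).mpr ⟨c, funext fun x => by
      show p • c x = (show X → ℤ from f) x
      rw [hc x, nsmul_eq_mul]⟩
  · exact ⟨QuotientAddGroup.mk (show PermLat G X from fun x => ((v x).val : ℤ)), funext fun x => by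
      show (((v x).val : ℤ) : ZMod p) = v x
      rw [Int.cast_natCast, ZMod.natCast_zmod_val]⟩

end PermLat

/-- `e` of the functions on a finite set depends only on the numbers of fixed points. -/
theorem IsAdditive.mapRep_eq_of_card [Finite G] {e : Rep.{0} (ZMod p) G → ℤ} (he : IsAdditive e)
    (X Y : Type) [MulAction G X] [MulAction G Y] [Finite X] [Finite Y] (M : Rep.{0} (ZMod p) G)
    [FiniteDimensional (ZMod p) M]
    (h : ∀ g : G, Nat.card {x : X // g • x = x} = Nat.card {y : Y // g • y = y}) :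
    e (mapRep X M) = e (mapRep Y M) := by
  have h1 := redMod_eq_of_trace (he.hom M) (A := PermLat G Y) (A' := PermLat G X) fun g => by
    rw [trace_permLat, trace_permLat, h]
  have hX := redMod_permLat (p := p) X (he.hom M)
  have hY := redMod_permLat (p := p) Y (he.hom M)
  have hX' := he.hom_mapRep X M
  have hY' := he.hom_mapRep Y M
  exact hX'.symm.trans (hX.symm.trans (h1.trans (hY.trans hY')))

/-- Functions on a disjoint union. -/
theorem IsAdditive.mapRep_sigma [Finite G] {e : Rep.{0} (ZMod p) G → ℤ} (he : IsAdditive e)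
    {ι : Type} [Fintype ι] (H : ι → Subgroup G) (M : Rep.{0} (ZMod p) G)
    [FiniteDimensional (ZMod p) M] :
    e (mapRep (Σ i, G ⧸ H i) M) = ∑ i, e (mapRep (G ⧸ H i) M) := by
  classical
  let V : Finset ι → Submodule (ZMod p) ((Σ i, G ⧸ H i) → M) := fun s =>
    { carrier := {f | ∀ z, z.1 ∉ s → f z = 0}
      add_mem' := fun {a b} ha hb z hz => by
        show a z + b z = 0
        rw [ha z hz, hb z hz, add_zero]
      zero_mem' := fun _ _ => rfl
      smul_mem' := fun c a ha z hz => by
        show c • a z = 0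
        rw [ha z hz, smul_zero] }
  let W : Finset ι → Rep.{0} (ZMod p) G := fun s =>
    Rep.of ((mapRho (Σ i, G ⧸ H i) M).subrepresentation (V s)
    fun g f hf z hz => by
      show M.ρ g (f (g⁻¹ • z)) = 0
      rw [hf _ (by exact hz), map_zero])
  have : ∀ s, FiniteDimensional (ZMod p) (W s) := fun s =>
    inferInstanceAs (FiniteDimensional (ZMod p) (V s))
  have key : ∀ s : Finset ι, e (W s) = ∑ i ∈ s, e (mapRep (G ⧸ H i) M) := fun s => by
    induction s using Finset.induction with
    | empty =>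
      have : Subsingleton (W ∅) := ⟨fun a b => Subtype.ext (funext fun z =>
        (a.2 z (Finset.notMem_empty _)).trans (b.2 z (Finset.notMem_empty _)).symm)⟩
      rw [he.eq_zero_of_subsingleton, Finset.sum_empty]
    | insert i s hi ih =>
      rw [Finset.sum_insert hi, ← ih, add_comm]
      let incl : W s →ₗ[ZMod p] W (insert i s) := Submodule.inclusion fun f hf z hz =>
        hf z fun h => hz (Finset.mem_insert_of_mem h)
      let res : W (insert i s) →ₗ[ZMod p] mapRep (G ⧸ H i) M :=
        { toFun := fun f x => f.1 ⟨i, x⟩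
          map_add' := fun _ _ => rfl
          map_smul' := fun _ _ => rfl }
      refine he _ _ _ incl res (fun _ _ => rfl) (fun _ _ => rfl)
        (Submodule.inclusion_injective _) (fun u => ?_) fun f => ⟨fun hf => ?_, fun ⟨a, ha⟩ => ?_⟩
      · let ext' : (Σ j, G ⧸ H j) → M := fun ⟨j, x⟩ =>
          if h : j = i then u (h ▸ x) else 0
        refine ⟨⟨ext', ?_⟩, funext fun x => dif_pos rfl⟩
        rintro ⟨j, x⟩ hz
        exact dif_neg fun h => hz (by subst h; exact Finset.mem_insert_self _ _)
      · refine ⟨⟨f.1, fun z hz => ?_⟩, rfl⟩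
        by_cases h : z.1 = i
        · obtain ⟨j, x⟩ := z
          subst h
          exact congrFun hf x
        · exact f.2 z fun hh => (Finset.mem_insert.mp hh).elim h hz
      · subst ha
        exact funext fun x => a.2 ⟨i, x⟩ hi
  rw [← key Finset.univ]
  let θ : W Finset.univ →ₗ[ZMod p] mapRep (Σ i, G ⧸ H i) M := (V Finset.univ).subtype
  have hθinj : Function.Injective θ := (V Finset.univ).injective_subtype
  have hθsurj : Function.Surjective θ := fun f =>
    ⟨(⟨f, fun z hz => absurd (Finset.mem_univ _) hz⟩ : V Finset.univ), rfl⟩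
  exact (he.eq_of_bijective _ _ θ (fun _ _ => rfl) ⟨hθinj, hθsurj⟩).symm

/-! ## Artin's identity -/

section Artin

variable [Finite G]

/-- The number of fixed points on `G/H`, as a rational number. -/
def fixCount (H : Subgroup G) (g : G) : ℚ := Nat.card {x : G ⧸ H // g • x = x}

omit [Finite G] in
theorem exists_conj_mem_of_fixCount_ne_zero {c g : G}
    (h : fixCount (Subgroup.zpowers c) g ≠ 0) :
    ∃ t : G, t⁻¹ * g * t ∈ Subgroup.zpowers c := by
  obtain ⟨⟨x, hx⟩⟩ := (Nat.card_ne_zero.mp fun h0 => h (by rw [fixCount, h0, Nat.cast_zero])).1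
  obtain ⟨t, rfl⟩ := QuotientGroup.mk_surjective x
  refine ⟨t, ?_⟩
  have h1 : t⁻¹ * (g * t) ∈ Subgroup.zpowers c := QuotientGroup.eq.mp hx.symm
  rwa [mul_assoc]

theorem fixCount_self_ne_zero (c : G) : fixCount (Subgroup.zpowers c) c ≠ 0 := by
  refine Nat.cast_ne_zero.mpr (Nat.card_ne_zero.mpr ⟨⟨⟨((1 : G) : G ⧸ _), ?_⟩⟩, inferInstance⟩)
  show ((c * 1 : G) : G ⧸ Subgroup.zpowers c) = _
  rw [mul_one]
  exact (QuotientGroup.eq.mpr (by simp)).symm

omit [Finite G] in
theorem fixCount_conj (H : Subgroup G) (t g : G) : fixCount H (t * g * t⁻¹) = fixCount H g := by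
  refine congrArg (Nat.cast : ℕ → ℚ) (Nat.card_congr ?_)
  refine Equiv.subtypeEquiv (MulAction.toPerm t⁻¹) fun x => ?_
  show (t * g * t⁻¹) • x = x ↔ g • t⁻¹ • x = t⁻¹ • x
  rw [mul_smul, mul_smul, smul_eq_iff_eq_inv_smul]

omit [Finite G] in
theorem fixCount_eq_of_zpowers_eq (H : Subgroup G) {g h : G}
    (hgh : Subgroup.zpowers g = Subgroup.zpowers h) : fixCount H g = fixCount H h := by
  refine congrArg (Nat.cast : ℕ → ℚ) (Nat.card_congr
    (Equiv.subtypeEquiv (Equiv.refl _) fun x => ?_))
  show g ∈ MulAction.stabilizer G x ↔ h ∈ MulAction.stabilizer G x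
  rw [← Subgroup.zpowers_le, hgh, Subgroup.zpowers_le]

/-- Functions of the conjugacy class of the generated cyclic subgroup are combinations of
fixed-point counts on `G/⟨c⟩`. -/
theorem mem_span_fixCount (F : G → ℚ)
    (hF : ∀ t g h : G, Subgroup.zpowers (t * g * t⁻¹) = Subgroup.zpowers h → F g = F h) :
    F ∈ Submodule.span ℚ (Set.range fun c : G => fixCount (Subgroup.zpowers c)) := by
  classical
  let := Fintype.ofFinite G
  suffices ∀ (N : ℕ) (F : G → ℚ),
      (∀ t g h : G, Subgroup.zpowers (t * g * t⁻¹) = Subgroup.zpowers h → F g = F h) →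
      (∀ g, N < orderOf g → F g = 0) →
      F ∈ Submodule.span ℚ (Set.range fun c : G => fixCount (Subgroup.zpowers c)) from
    this (Nat.card G) F hF fun g hg => absurd (orderOf_le_card) (not_le.mpr hg)
  intro N
  induction N with
  | zero =>
    intro F _ h
    convert Submodule.zero_mem _
    exact funext fun g => h g (orderOf_pos g)
  | succ N ih =>
    intro F hF h
    have hinv : ∀ c t g h : G, Subgroup.zpowers (t * g * t⁻¹) = Subgroup.zpowers h →
        fixCount (Subgroup.zpowers c) g = fixCount (Subgroup.zpowers c) h := fun c t g h hh =>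
      (fixCount_conj _ t g).symm.trans (fixCount_eq_of_zpowers_eq _ hh)
    let T : G → Finset G := fun g => Finset.univ.filter fun c =>
      orderOf c = N + 1 ∧ fixCount (Subgroup.zpowers c) g ≠ 0
    let a : G → ℚ := fun c =>
      if orderOf c = N + 1 then F c / (fixCount (Subgroup.zpowers c) c * (T c).card) else 0
    have key : ∀ g c, orderOf g = N + 1 → c ∈ T g →
        F g = F c ∧ T g = T c ∧
          fixCount (Subgroup.zpowers c) g = fixCount (Subgroup.zpowers c) c := fun g c hg hc => by
      obtain ⟨-, hoc, hne⟩ := Finset.mem_filter.mp hc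
      obtain ⟨t, ht⟩ := exists_conj_mem_of_fixCount_ne_zero hne
      have heq : Subgroup.zpowers (t⁻¹ * g * t⁻¹⁻¹) = Subgroup.zpowers c := by
        rw [inv_inv]
        refine Subgroup.eq_of_le_of_card_ge (Subgroup.zpowers_le.mpr ht) ?_
        rw [Nat.card_zpowers, Nat.card_zpowers]
        have : orderOf (t⁻¹ * g * t⁻¹⁻¹) = orderOf g :=
          (MulAut.conj t⁻¹).orderOf_eq g
        rw [inv_inv] at this
        rw [hoc, this, hg]
      exact ⟨hF _ _ _ heq, Finset.filter_congr fun d _ =>
        by rw [hinv d _ _ _ heq], hinv c _ _ _ heq⟩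
    let A : G → ℚ := ∑ c, a c • fixCount (Subgroup.zpowers c)
    have hA : A ∈ Submodule.span ℚ (Set.range fun c : G => fixCount (Subgroup.zpowers c)) :=
      Submodule.sum_mem _ fun c _ => Submodule.smul_mem _ _ (Submodule.subset_span ⟨c, rfl⟩)
    have hAg : ∀ g, A g = ∑ c ∈ T g, a c * fixCount (Subgroup.zpowers c) g := fun g => by
      refine (Finset.sum_apply g _ _).trans ?_
      refine (Finset.sum_subset (Finset.subset_univ _) fun c _ hc => ?_).symm
      rw [Pi.smul_apply, smul_eq_mul]
      by_cases ho : orderOf c = N + 1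
      · have : fixCount (Subgroup.zpowers c) g = 0 := by
          by_contra hne
          exact hc (Finset.mem_filter.mpr ⟨Finset.mem_univ _, ho, hne⟩)
        rw [this, mul_zero]
      · simp only [a, if_neg ho, zero_mul]
    have h2 := ih (F - A) (fun t g g' hh => ?_) (fun g hg => ?_)
    · simpa using Submodule.add_mem _ h2 hA
    · simp only [Pi.sub_apply, hF t g g' hh, A, Finset.sum_apply, Pi.smul_apply]
      congr 1
      exact Finset.sum_congr rfl fun c _ => by rw [hinv c t g g' hh]
    · rcases Nat.lt_or_ge (N + 1) (orderOf g) with hlt | hge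
      · have hT : T g = ∅ := Finset.eq_empty_of_forall_notMem fun c hc => by
          obtain ⟨-, hoc, hne⟩ := Finset.mem_filter.mp hc
          obtain ⟨t, ht⟩ := exists_conj_mem_of_fixCount_ne_zero hne
          have h1 := Nat.le_of_dvd (orderOf_pos c)
            (orderOf_dvd_of_mem_zpowers ht)
          have : orderOf (t⁻¹ * g * t⁻¹⁻¹) = orderOf g := (MulAut.conj t⁻¹).orderOf_eq g
          rw [inv_inv] at this
          omega
        rw [Pi.sub_apply, h g hlt, hAg, hT, Finset.sum_empty, sub_zero]
      · have hg' : orderOf g = N + 1 := by omega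
        have hpos : 0 < (T g).card :=
          Finset.card_pos.mpr ⟨g, Finset.mem_filter.mpr
            ⟨Finset.mem_univ _, hg', fixCount_self_ne_zero g⟩⟩
        rw [Pi.sub_apply, hAg, Finset.sum_congr rfl (g := fun _ => F g / ((T g).card : ℚ))
          fun c hc => ?_, Finset.sum_const, nsmul_eq_mul, mul_div_cancel₀ _ (by positivity),
          sub_self]
        obtain ⟨h1, h2, h3⟩ := key g c hg' hc
        simp only [a, if_pos (Finset.mem_filter.mp hc).2.1, h3, ← h1, ← h2]
        have := fixCount_self_ne_zero c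
        field_simp

end Artin

/-- An additive function vanishing on relatively projective modules is zero. -/
theorem IsAdditive.eq_zero_of_hasTrace [Finite G] {e : Rep.{0} (ZMod p) G → ℤ} (he : IsAdditive e)
    (h0 : ∀ (M : Rep.{0} (ZMod p) G) [FiniteDimensional (ZMod p) M], HasTrace M → e M = 0)
    (M : Rep.{0} (ZMod p) G) [FiniteDimensional (ZMod p) M] : e M = 0 := by
  classical
  let := Fintype.ofFinite G
  -- vanishing on functions on `G/⟨c⟩`
  have hcyc : ∀ c : G, e (mapRep (G ⧸ Subgroup.zpowers c) M) = 0 := fun c => by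
    set C := Subgroup.zpowers c
    let N : Rep.{0} (ZMod p) C := Rep.of (M.ρ.comp C.subtype)
    have : FiniteDimensional (ZMod p) N := inferInstanceAs (FiniteDimensional (ZMod p) M)
    have h1 := eq_zero_of_comm (he.coind C)
      (fun a b => Subtype.ext (by
        obtain ⟨i, hi⟩ := a.2
        obtain ⟨j, hj⟩ := b.2
        show (a : G) * b = b * a
        rw [← hi, ← hj, ← zpow_add, ← zpow_add, add_comm]))
      (fun P _ hP => h0 _ (hasTrace_coind C P hP)) N
    have hwd : ∀ (f : coindCarrier C N) (x y : G), (x : G ⧸ C) = y →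
        M.ρ x (f.1 x⁻¹) = M.ρ y (f.1 y⁻¹) := fun f x y hxy => by
      obtain ⟨k, hk, rfl⟩ : ∃ k : G, k ∈ C ∧ y = x * k :=
        ⟨x⁻¹ * y, QuotientGroup.eq.mp hxy, by group⟩
      rw [mul_inv_rev, show k⁻¹ * x⁻¹ = ((⟨k, hk⟩⁻¹ : C) : G) * x⁻¹ from rfl, f.2, map_mul]
      show _ = M.ρ x (M.ρ k (M.ρ k⁻¹ (f.1 x⁻¹)))
      rw [Representation.self_inv_apply]
    let θ : coindCarrier C N →ₗ[ZMod p] ((G ⧸ C) → M) :=
      { toFun := fun f z => M.ρ z.out (f.1 z.out⁻¹)
        map_add' := fun f f' => funext fun z => map_add (M.ρ z.out) _ _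
        map_smul' := fun a f => funext fun z => map_smul (M.ρ z.out) _ _ }
    have hθ : ∀ (f : coindCarrier C N) (x : G), θ f (x : G ⧸ C) = M.ρ x (f.1 x⁻¹) := fun f x =>
      hwd f _ _ (QuotientGroup.out_eq' _)
    have hequiv : ∀ (g : G) (f : coindCarrier C N),
        θ ((coindRep C N).ρ g f) = mapRho (G ⧸ C) M g (θ f) := fun g f => funext fun z => by
      obtain ⟨x, rfl⟩ := QuotientGroup.mk_surjective z
      refine (hθ _ x).trans ?_
      show M.ρ x (f.1 (x⁻¹ * g)) = M.ρ g (θ f ((g⁻¹ * x : G) : G ⧸ C))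
      rw [hθ, ← Module.End.mul_apply, ← map_mul, mul_inv_cancel_left, mul_inv_rev, inv_inv]
    have hinj : Function.Injective θ := fun f f' hf => Subtype.ext (funext fun x => by
      have := congrFun hf ((x⁻¹ : G) : G ⧸ C)
      rw [hθ, hθ, inv_inv] at this
      exact (M.ρ.apply_bijective _).1 this)
    have hsurj : Function.Surjective θ := fun u => by
      refine ⟨⟨fun x => M.ρ x (u ((x⁻¹ : G) : G ⧸ C)), fun h x => ?_⟩, funext fun z => ?_⟩
      · show M.ρ ((h : G) * x) (u (((h : G) * x)⁻¹ : G)) = M.ρ h (M.ρ x _)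
        rw [map_mul, show ((((h : G) * x)⁻¹ : G) : G ⧸ C) = ((x⁻¹ : G) : G ⧸ C) from
          QuotientGroup.eq.mpr (by simp)]
        rfl
      · obtain ⟨x, rfl⟩ := QuotientGroup.mk_surjective z
        refine (hθ _ x).trans ?_
        show M.ρ x (M.ρ x⁻¹ (u ((x⁻¹⁻¹ : G) : G ⧸ C))) = u x
        rw [inv_inv, Representation.self_inv_apply]
    rw [← h1]
    exact (he.eq_of_bijective (coindRep C N) (mapRep (G ⧸ C) M) θ hequiv ⟨hinj, hsurj⟩).symm
  -- Artin's identity
  obtain ⟨q, hq⟩ := (Submodule.mem_span_range_iff_exists_fun ℚ).mp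
    (mem_span_fixCount (G := G) (fun _ => 1) fun _ _ _ _ => rfl)
  let n : ℕ := ∏ c, (q c).den
  have hn : n ≠ 0 := Finset.prod_ne_zero_iff.mpr fun c _ => Rat.den_nz _
  have hint : ∀ c, ∃ z : ℤ, (z : ℚ) = n * q c := fun c => by
    obtain ⟨d, hd⟩ := Finset.dvd_prod_of_mem (fun c => (q c).den) (Finset.mem_univ c)
    refine ⟨d * (q c).num, ?_⟩
    show _ = ((∏ c, (q c).den : ℕ) : ℚ) * q c
    rw [hd, Int.cast_mul, Int.cast_natCast, Nat.cast_mul, mul_comm ((q c).den : ℚ), mul_assoc,
      mul_comm ((q c).den : ℚ), Rat.mul_den_eq_num]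
  choose z hz using hint
  let ιY := Σ c : G, Fin (z c).toNat
  let ιX := Fin n ⊕ Σ c : G, Fin (-z c).toNat
  let HY : ιY → Subgroup G := fun i => Subgroup.zpowers i.1
  let HX : ιX → Subgroup G := Sum.elim (fun _ => ⊤) fun i => Subgroup.zpowers i.1
  have hcount : ∀ {ι : Type} [Fintype ι] (H : ι → Subgroup G) (g : G),
      (Nat.card {x : Σ i, G ⧸ H i // g • x = x} : ℚ) = ∑ i, fixCount (H i) g :=
    fun {ι} _ H g => by
      rw [Nat.card_congr (show {x : Σ i, G ⧸ H i // g • x = x} ≃
        Σ i, {x : G ⧸ H i // g • x = x} from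
        { toFun := fun x => ⟨x.1.1, x.1.2, by
            obtain ⟨⟨i, y⟩, hy⟩ := x
            exact eq_of_heq (Sigma.mk.inj_iff.mp hy).2⟩
          invFun := fun x => ⟨⟨x.1, x.2.1⟩, congrArg (Sigma.mk x.1) x.2.2⟩
          left_inv := fun _ => rfl
          right_inv := fun _ => rfl }), Nat.card_sigma]
      push_cast
      rfl
  have htop : ∀ g : G, fixCount (⊤ : Subgroup G) g = 1 := fun g => by
    have : Subsingleton (G ⧸ (⊤ : Subgroup G)) := QuotientGroup.subsingleton_quotient_top
    rw [fixCount, Nat.card_eq_one_iff_unique.mpr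
      ⟨inferInstance, ⟨⟨((1 : G) : G ⧸ _), Subsingleton.elim _ _⟩⟩⟩, Nat.cast_one]
  have hfix : ∀ g : G, Nat.card {x : Σ i, G ⧸ HX i // g • x = x}
      = Nat.card {x : Σ i, G ⧸ HY i // g • x = x} := fun g => by
    have h1 : ∑ c, q c * fixCount (Subgroup.zpowers c) g = 1 := by
      simpa using congrFun hq g
    have h2 : (∑ c, (z c : ℚ) * fixCount (Subgroup.zpowers c) g) = n := by
      rw [Finset.sum_congr rfl fun c _ => by rw [hz c, mul_assoc], ← Finset.mul_sum, h1, mul_one]
    have h3 : (Nat.card {x : Σ i, G ⧸ HX i // g • x = x} : ℚ)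
        = Nat.card {x : Σ i, G ⧸ HY i // g • x = x} := by
      rw [hcount, hcount, Fintype.sum_sum_type, Fintype.sum_sigma, Fintype.sum_sigma]
      simp only [HX, HY, Sum.elim_inl, Sum.elim_inr, htop, Finset.sum_const, Finset.card_univ,
        Fintype.card_fin, nsmul_eq_mul, mul_one]
      rw [← h2, ← Finset.sum_add_distrib]
      refine Finset.sum_congr rfl fun c _ => ?_
      rw [← add_mul]
      congr 1
      have : z c + ((-z c).toNat : ℤ) = ((z c).toNat : ℤ) := by omega
      exact_mod_cast this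
    exact_mod_cast h3
  have h4 := he.mapRep_eq_of_card _ _ M hfix
  rw [he.mapRep_sigma, he.mapRep_sigma, Finset.sum_eq_zero fun (i : ιY) _ => hcyc i.1,
    Fintype.sum_sum_type] at h4
  have htopM : e (mapRep (G ⧸ (⊤ : Subgroup G)) M) = e M := by
    have : Subsingleton (G ⧸ (⊤ : Subgroup G)) := QuotientGroup.subsingleton_quotient_top
    let x₀ : G ⧸ (⊤ : Subgroup G) := ((1 : G) : G ⧸ _)
    refine he.eq_of_bijective _ _
      (LinearMap.proj (R := ZMod p) (φ := fun _ : G ⧸ (⊤ : Subgroup G) => M) x₀)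
      (fun g f => congrArg (fun x => M.ρ g (f x)) (Subsingleton.elim _ _))
      ⟨fun f f' hf => funext fun x => ?_, fun m => ⟨fun _ => m, rfl⟩⟩
    rw [Subsingleton.elim x x₀]; exact hf
  have h5 : ∑ i : Σ c : G, Fin (-z c).toNat, e (mapRep (G ⧸ HX (Sum.inr i)) M) = 0 :=
    Finset.sum_eq_zero fun i _ => hcyc i.1
  have h6 : ∑ i : Fin n, e (mapRep (G ⧸ HX (Sum.inl i)) M) = (n : ℤ) * e M := by
    refine (Finset.sum_congr rfl fun i _ => htopM).trans ?_
    rw [Finset.sum_const, Finset.card_univ, Fintype.card_fin, nsmul_eq_mul]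
  rw [h5, h6, add_zero] at h4
  exact (mul_eq_zero.mp h4).resolve_left (Nat.cast_ne_zero.mpr hn)

end FLTAgent.GWEuler
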