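import Fermat.Agent.GWEuler.SelfDual

/-!
# Additivity of the Euler defect

With the duality of locally trivial classes (`ShaDuality`), the rank of localisation in degree
two (`RankTwo`) and exactness in the middle, the defect is additive in short exact sequences
(`eulerDefect_additive`).
-/

set_option autoImplicit false

noncomputable section

open CategoryTheory groupCohomology Module ExtCitation

namespace FLTAgent.GWEuler

local notation "Γℚ" => AlgebraicClosure ℚ ≃ₐ[ℚ] AlgebraicClosure ℚ

variable {p : ℕ} [Fact p.Prime] {S : Finset Nat.Primes}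

variable (p) in
/-- The duality of locally trivial classes in degrees one and two. -/
def ShaDuality (S : Finset Nat.Primes) : Prop :=
  ∀ (M : Rep.{0} (ZMod p) Γℚ) [FiniteDimensional (ZMod p) M], SLevel S M →
    ∃ B : sha₁ S (M.dualTwist (cycloChar p)) →ₗ[ZMod p] sha₂ S M →ₗ[ZMod p] ZMod p,
      (∀ y, (∀ x, B y x = 0) → y = 0) ∧ (∀ x, (∀ y, B y x = 0) → x = 0)

/-- The rank of localisation in degree two. -/
def RankTwo (S : Finset Nat.Primes) (M : Rep.{0} (ZMod p) Γℚ) : Prop :=
  Module.Finite (ZMod p)
      (continuousH2S S (M.dualTwist (cycloChar p)) ⧸ sha₂ S (M.dualTwist (cycloChar p))) ∧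
    finrank (ZMod p)
          (continuousH2S S (M.dualTwist (cycloChar p)) ⧸ sha₂ S (M.dualTwist (cycloChar p)))
        + finrank (ZMod p) M.ρ.invariants
      = ∑ q : S, finrank (ZMod p) (Rep.res (primeLocalToGlobal q.1) M).ρ.invariants

theorem finiteDimensional_dualTwist (M : Rep.{0} (ZMod p) Γℚ) [FiniteDimensional (ZMod p) M] :
    FiniteDimensional (ZMod p) (M.dualTwist (cycloChar p)) :=
  inferInstanceAs (FiniteDimensional (ZMod p) (Dual (ZMod p) M))

theorem finite_continuousH2S (h55 : ShaDuality p S) (hpS : pPrime p ∈ S)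
    (M : Rep.{0} (ZMod p) Γℚ) [FiniteDimensional (ZMod p) M] (hM : SLevel S M)
    [Module.Finite (ZMod p) (continuousH1S S M)]
    [Module.Finite (ZMod p)
      (continuousH1S S ((M.dualTwist (cycloChar p)).dualTwist (cycloChar p)))]
    (hr : RankTwo S M) :
    Module.Finite (ZMod p) (continuousH2S S (M.dualTwist (cycloChar p))) ∧
      (finrank (ZMod p) (continuousH2S S (M.dualTwist (cycloChar p))) : ℤ)
        = finrank (ZMod p) (sha₁ S M)
          + ((∑ q : S, finrank (ZMod p) (Rep.res (primeLocalToGlobal q.1) M).ρ.invariants : ℕ) : ℤ)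
          - finrank (ZMod p) M.ρ.invariants := by
  have := finiteDimensional_dualTwist M
  obtain ⟨B, hB1, hB2⟩ := h55 (M.dualTwist (cycloChar p)) (sLevel_dualTwist hpS hM)
  have : Module.Finite (ZMod p)
      (sha₁ S ((M.dualTwist (cycloChar p)).dualTwist (cycloChar p))) :=
    Submodule.finiteDimensional_of_le inf_le_left
  have hinj : Function.Injective B.flip := (injective_iff_map_eq_zero B.flip).mpr fun x hx =>
    hB2 x fun y => LinearMap.congr_fun hx y
  have hinj' : Function.Injective B := (injective_iff_map_eq_zero B).mpr fun y hy =>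
    hB1 y fun x => LinearMap.congr_fun hy x
  have h2f : Module.Finite (ZMod p) (sha₂ S (M.dualTwist (cycloChar p))) :=
    Module.Finite.of_injective B.flip hinj
  have := hr.1
  have hfin : Module.Finite (ZMod p) (continuousH2S S (M.dualTwist (cycloChar p))) :=
    Module.Finite.of_submodule_quotient (sha₂ S (M.dualTwist (cycloChar p)))
  refine ⟨hfin, ?_⟩
  have h1 : finrank (ZMod p) (sha₂ S (M.dualTwist (cycloChar p)))
      = finrank (ZMod p) (sha₁ S ((M.dualTwist (cycloChar p)).dualTwist (cycloChar p))) :=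
    le_antisymm
      ((LinearMap.finrank_le_finrank_of_injective hinj).trans_eq Subspace.dual_finrank_eq)
      ((LinearMap.finrank_le_finrank_of_injective hinj').trans_eq Subspace.dual_finrank_eq)
  have h2 := finrank_sha₁_congr (S := S) (bidualTwist M)
    (bidualTwist_equiv M) (bidualTwist_bijective M)
  have h3 := (sha₂ S (M.dualTwist (cycloChar p))).finrank_quotient_add_finrank
  have h4 := hr.2
  rw [h1, ← h2] at h3
  omega

theorem eulerDefect_eq (h55 : ShaDuality p S) (hpS : pPrime p ∈ S)
    (M : Rep.{0} (ZMod p) Γℚ) [FiniteDimensional (ZMod p) M] (hM : SLevel S M)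
    [Module.Finite (ZMod p) (continuousH1S S M)]
    [Module.Finite (ZMod p)
      (continuousH1S S ((M.dualTwist (cycloChar p)).dualTwist (cycloChar p)))]
    (hr : RankTwo S M) :
    eulerDefect S M
      = (finrank (ZMod p) (continuousH1S S (M.dualTwist (cycloChar p))) : ℤ)
        - finrank (ZMod p) (M.dualTwist (cycloChar p)).ρ.invariants
        - finrank (ZMod p) (continuousH2S S (M.dualTwist (cycloChar p)))
        - finrank (ZMod p) (Rep.res archimedeanLoc M).ρ.invariants := by
  rw [(finite_continuousH2S h55 hpS M hM hr).2]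
  have hloc : (∑ v : extArithIndex S,
        (finrank (ZMod p) (Rep.res (extArithLoc S v) M).ρ.invariants : ℤ))
      = finrank (ZMod p) (Rep.res archimedeanLoc M).ρ.invariants
        + ((∑ q : S,
            finrank (ZMod p) (Rep.res (primeLocalToGlobal q.1) M).ρ.invariants : ℕ) : ℤ) := by
    refine (Fintype.sum_sum_type _).trans ?_
    rw [Fintype.sum_unique, Nat.cast_sum]
    rfl
  unfold eulerDefect unitsDefect
  rw [hloc]
  ring

variable {A B C : Rep.{0} (ZMod p) Γℚ} (ι : A →ₗ[ZMod p] B) (π : B →ₗ[ZMod p] C)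
  (hι : ∀ (g : Γℚ) (a : A), ι (A.ρ g a) = B.ρ g (ι a))
  (hπ : ∀ (g : Γℚ) (b : B), π (B.ρ g b) = C.ρ g (π b))
  (hinj : Function.Injective ι) (hsurj : Function.Surjective π)
  (hex : ∀ b, π b = 0 ↔ ∃ a, ι a = b)

include hι hinj in
theorem sLevel_sub (hB : SLevel S B) : SLevel S A := by
  obtain ⟨F, hF, h⟩ := hB
  refine ⟨F, hF, fun s hs => LinearMap.ext fun a => hinj ?_⟩
  rw [hι, h s hs]
  rfl

include hπ hsurj in
theorem sLevel_quot (hB : SLevel S B) : SLevel S C := by
  obtain ⟨F, hF, h⟩ := hB
  refine ⟨F, hF, fun s hs => LinearMap.ext fun c => ?_⟩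
  obtain ⟨b, rfl⟩ := hsurj c
  rw [← hπ, h s hs]
  rfl

theorem dualMap_equiv {A B : Rep.{0} (ZMod p) Γℚ} (φ : A →ₗ[ZMod p] B)
    (hφ : ∀ (g : Γℚ) (a : A), φ (A.ρ g a) = B.ρ g (φ a)) (g : Γℚ)
    (f : B.dualTwist (cycloChar p)) :
    (φ.dualMap : B.dualTwist (cycloChar p) →ₗ[ZMod p] A.dualTwist (cycloChar p))
        ((B.dualTwist (cycloChar p)).ρ g f)
      = (A.dualTwist (cycloChar p)).ρ g
        ((φ.dualMap : B.dualTwist (cycloChar p) →ₗ[ZMod p] A.dualTwist (cycloChar p)) f) :=
  LinearMap.ext fun a => by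
    show (cycloChar p g : ZMod p) * (show Dual (ZMod p) B from f) (B.ρ g⁻¹ (φ a))
      = (cycloChar p g : ZMod p) * (show Dual (ZMod p) B from f) (φ (A.ρ g⁻¹ a))
    rw [hφ]

include hsurj hex in
/-- The dual sequence is exact in the middle. -/
theorem dual_exact (f : Dual (ZMod p) B) : ι.dualMap f = 0 ↔ ∃ u, π.dualMap u = f := by
  refine ⟨fun hf => ?_, ?_⟩
  · obtain ⟨s, hs⟩ := π.exists_rightInverse_of_surjective (LinearMap.range_eq_top.mpr hsurj)
    refine ⟨f.comp s, LinearMap.ext fun b => ?_⟩
    have h0 : π (s (π b) - b) = 0 := by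
      rw [map_sub]; exact sub_eq_zero.mpr (LinearMap.congr_fun hs (π b))
    obtain ⟨a, ha⟩ := (hex _).mp h0
    have h1 : f (s (π b) - b) = 0 := ha ▸ LinearMap.congr_fun hf a
    rw [map_sub, sub_eq_zero] at h1
    exact h1
  · rintro ⟨u, rfl⟩
    exact LinearMap.ext fun a => by
      show u (π (ι a)) = 0
      rw [(hex _).mpr ⟨a, rfl⟩, map_zero]

include hι hπ hinj hsurj hex in
/-- The defect is superadditive. -/
theorem eulerDefect_superadd (hp2 : p ≠ 2) (h55 : ShaDuality p S) (hpS : pPrime p ∈ S)
    [FiniteDimensional (ZMod p) A] [FiniteDimensional (ZMod p) B] [FiniteDimensional (ZMod p) C]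
    (hB : SLevel S B)
    (hfin : ∀ (M : Rep.{0} (ZMod p) Γℚ) [FiniteDimensional (ZMod p) M], SLevel S M →
      Module.Finite (ZMod p) (continuousH1S S M))
    (hrA : RankTwo S A) (hrB : RankTwo S B) (hrC : RankTwo S C) :
    eulerDefect S A + eulerDefect S C ≤ eulerDefect S B := by
  have hA := sLevel_sub ι hι hinj hB
  have hC := sLevel_quot π hπ hsurj hB
  have := finiteDimensional_dualTwist A
  have := finiteDimensional_dualTwist B
  have := finiteDimensional_dualTwist C
  have hA' := sLevel_dualTwist hpS hA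
  have hB' := sLevel_dualTwist hpS hB
  have hC' := sLevel_dualTwist hpS hC
  have := finiteDimensional_dualTwist (A.dualTwist (cycloChar p))
  have := finiteDimensional_dualTwist (B.dualTwist (cycloChar p))
  have := finiteDimensional_dualTwist (C.dualTwist (cycloChar p))
  have := hfin A hA
  have := hfin B hB
  have := hfin C hC
  have := hfin _ hA'
  have := hfin _ hB'
  have := hfin _ hC'
  have := hfin _ (sLevel_dualTwist hpS hA')
  have := hfin _ (sLevel_dualTwist hpS hB')
  have := hfin _ (sLevel_dualTwist hpS hC')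
  have := (finite_continuousH2S h55 hpS A hA hrA).1
  have := (finite_continuousH2S h55 hpS B hB hrB).1
  have := (finite_continuousH2S h55 hpS C hC hrC).1
  have key := superadditive (S := S) (A := C.dualTwist (cycloChar p))
    (B := B.dualTwist (cycloChar p)) (C := A.dualTwist (cycloChar p)) π.dualMap ι.dualMap
    (dualMap_equiv π hπ) (dualMap_equiv ι hι)
    (LinearMap.dualMap_injective_of_surjective hsurj)
    (LinearMap.dualMap_surjective_of_injective hinj)
    (dual_exact ι π hsurj hex) hB'
  rw [eulerDefect_eq h55 hpS A hA hrA, eulerDefect_eq h55 hpS B hB hrB,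
    eulerDefect_eq h55 hpS C hC hrC,
    finrank_archimedean_exact hp2 ι π hι hπ hinj hsurj hex]
  push_cast
  linarith

include hι hπ hinj hsurj hex in
/-- **The defect is additive.** -/
theorem eulerDefect_additive (R : Reciprocity p) (hp2 : p ≠ 2) (h55 : ShaDuality p S)
    (hpS : pPrime p ∈ S) [FiniteDimensional (ZMod p) A] [FiniteDimensional (ZMod p) B]
    [FiniteDimensional (ZMod p) C] (hA : SLevel S A) (hB : SLevel S B) (hC : SLevel S C)
    (hfin : ∀ (M : Rep.{0} (ZMod p) Γℚ) [FiniteDimensional (ZMod p) M], SLevel S M →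
      Module.Finite (ZMod p) (continuousH1S S M))
    (hrA : RankTwo S A) (hrB : RankTwo S B) (hrC : RankTwo S C)
    (hrA' : RankTwo S (A.dualTwist (cycloChar p))) (hrB' : RankTwo S (B.dualTwist (cycloChar p)))
    (hrC' : RankTwo S (C.dualTwist (cycloChar p)))
    (hmA : MiddleExact R S A hA) (hmB : MiddleExact R S B hB) (hmC : MiddleExact R S C hC) :
    eulerDefect S B = eulerDefect S A + eulerDefect S C := by
  have := finiteDimensional_dualTwist A
  have := finiteDimensional_dualTwist B
  have := finiteDimensional_dualTwist C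
  have h1 := eulerDefect_superadd ι π hι hπ hinj hsurj hex hp2 h55 hpS hB hfin hrA hrB hrC
  have hA' := sLevel_dualTwist hpS hA
  have hB' := sLevel_dualTwist hpS hB
  have hC' := sLevel_dualTwist hpS hC
  have h2 := eulerDefect_superadd (A := C.dualTwist (cycloChar p))
    (B := B.dualTwist (cycloChar p)) (C := A.dualTwist (cycloChar p)) π.dualMap ι.dualMap
    (dualMap_equiv π hπ) (dualMap_equiv ι hι)
    (LinearMap.dualMap_injective_of_surjective hsurj)
    (LinearMap.dualMap_surjective_of_injective hinj)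
    (dual_exact ι π hsurj hex)
    hp2 h55 hpS hB' hfin hrC' hrB' hrA'
  have := hfin A hA
  have := hfin B hB
  have := hfin C hC
  have := hfin _ hA'
  have := hfin _ hB'
  have := hfin _ hC'
  have := finiteDimensional_dualTwist (A.dualTwist (cycloChar p))
  have := finiteDimensional_dualTwist (B.dualTwist (cycloChar p))
  have := finiteDimensional_dualTwist (C.dualTwist (cycloChar p))
  have := hfin _ (sLevel_dualTwist hpS hA')
  have := hfin _ (sLevel_dualTwist hpS hB')
  have := hfin _ (sLevel_dualTwist hpS hC')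
  have eA := eulerDefect_add_dual R hp2 S hpS A hA hmA
  have eB := eulerDefect_add_dual R hp2 S hpS B hB hmB
  have eC := eulerDefect_add_dual R hp2 S hpS C hC hmC
  omega

end FLTAgent.GWEuler
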