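import Fermat.Agent.GWEuler.Pairing
import Fermat.Agent.GWEuler.GlobalUnits.Finite
import Fermat.Agent.GWEuler.GlobalUnits.UnitsClass
import Fermat.Agent.GlobalDuality.LocalCochain
import Fermat.Agent.GlobalDuality.Psi

/-!
# Local invariants on `H²(μ_p)` and their reciprocity law

`invMu` is the invariant of the local class with values in units of a cochain with values in
`μ_p`, and the sum of these invariants vanishes on global classes (`sum_invMu`),
giving `reciprocity : Reciprocity p` for odd `p`.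
-/

set_option autoImplicit false

noncomputable section

open CategoryTheory groupCohomology Module ExtCitation

namespace FLTAgent.GWEuler

open FLTAgent.LocalDuality FLTAgent.GlobalDuality FLTAgent.IdeleClassCohomology

variable {p : ℕ} [hp : Fact p.Prime]

/-- A layer over which the roots of unity of order `p` are fixed. -/
theorem exists_layer_mu (p : ℕ) [hp : Fact p.Prime] :
    ∃ Z : Layer, ∀ g ∈ Z.sub, ∀ c : ZMod p, g • torsionHom p c = torsionHom p c := by
  obtain ⟨Z, hZ⟩ := exists_layer_fix (zetaU p).val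
  refine ⟨Z, fun g hg c => ?_⟩
  obtain ⟨i, rfl⟩ := ZMod.natCast_zmod_surjective c
  rw [torsionHom_natCast, smul_comm, show g • zetaU p = zetaU p from GU.ext (hZ g hg)]

theorem nsmul_torsionHom (c : ZMod p) : p • torsionHom p c = 0 := by
  rw [← map_nsmul, ← Nat.cast_smul_eq_nsmul (ZMod p), ZMod.natCast_self, zero_smul, map_zero]

theorem torsionHom_mem_sUnits {S : Finset Nat.Primes} (hpS : pPrime p ∈ S) (c : ZMod p) :
    torsionHom p c ∈ sUnits S :=
  mem_sUnits_of_nsmul_mem hpS (by rw [nsmul_torsionHom]; exact zero_mem _)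

/-- The local units attached to a cochain with values in roots of unity. -/
def muFun (q : Nat.Primes) (f : LGal q × LGal q → ZMod p) : LGal q → LGal q → LU q :=
  fun τ τ' => embU q (torsionHom p (f (τ, τ')))

theorem muFun_add (q : Nat.Primes) (f f' : LGal q × LGal q → ZMod p) :
    muFun q (f + f') = muFun q f + muFun q f' :=
  funext fun τ => funext fun τ' => by
    show embU q (torsionHom p (f (τ, τ') + f' (τ, τ'))) = _
    rw [map_add, map_add]
    rfl

theorem nsmul_muFun (q : Nat.Primes) (f : LGal q × LGal q → ZMod p) (τ τ' : LGal q) :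
    p • muFun q f τ τ' = 0 := by
  show p • embU q _ = 0
  rw [← map_nsmul, nsmul_torsionHom, map_zero]

local notation "μloc" q => Rep.res (primeLocalToGlobal q) (ofChar (cycloChar p))

/-- The function underlying a level cocycle. -/
def coch {q : Nat.Primes} (f : levelCocycles₂ (primeLocalToGlobal q) (μloc q)) :
    LGal q × LGal q → ZMod p := f.1

theorem isLev_muFun {q : Nat.Primes} {L : Layer}
    (hmu : ∀ s : LGal q, loc q s ∈ L.sub → ∀ c : ZMod p, loc q s • torsionHom p c = torsionHom p c)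
    {f : LGal q × LGal q → ZMod p} (hf : f ∈ cocycles₂ (μloc q))
    (hlev : ∀ τ τ', ∀ s, loc q s ∈ L.sub → ∀ t, loc q t ∈ L.sub → f (τ * s, τ' * t) = f (τ, τ')) :
    IsLev L q (muFun q f) := by
  refine ⟨fun τ τ' s hs t ht => ?_, fun τ τ' s hs => ?_, fun g h j => ?_⟩
  · show embU q _ = embU q _
    rw [hlev τ τ' s hs t ht]
  · show s • embU q _ = embU q _
    rw [← embU_loc_smul, hmu s hs]
  · show embU q _ + embU q _ = g • embU q _ + embU q _
    rw [← embU_loc_smul, smul_torsionHom, ← map_add, ← map_add, ← map_add, ← map_add]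
    exact congrArg (fun v => embU q (torsionHom p v))
      ((mem_cocycles₂_iff (A := μloc q) f).1 hf g h j)

theorem exists_isLev_muFun {q : Nat.Primes} (f : levelCocycles₂ (primeLocalToGlobal q) (μloc q)) :
    ∃ L : Layer, IsLev L q (muFun q (coch f)) := by
  obtain ⟨Z, hZ⟩ := exists_layer_mu p
  obtain ⟨E, hE, hlev⟩ := f.2.2
  have := hE
  obtain ⟨L, hL⟩ := Layer.exists_ge E
  refine ⟨L.sup Z, isLev_muFun (fun s hs => hZ _ (Layer.sub_le (L.le_sup_right Z) hs)) f.2.1
    fun τ τ' s hs t ht => hlev τ τ' s t ?_ ?_⟩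
  · exact IntermediateField.fixingSubgroup_antitone hL (Layer.sub_le (L.le_sup_left Z) hs)
  · exact IntermediateField.fixingSubgroup_antitone hL (Layer.sub_le (L.le_sup_left Z) ht)

theorem cochainInv_muFun_add (hp2 : p ≠ 2) (q : Nat.Primes)
    (f f' : levelCocycles₂ (primeLocalToGlobal q) (μloc q)) :
    cochainInv hp2 q (muFun q (coch f + coch f')) =
      cochainInv hp2 q (muFun q (coch f)) +
        cochainInv hp2 q (muFun q (coch f')) := by
  obtain ⟨L, hL⟩ := exists_isLev_muFun f
  obtain ⟨L', hL'⟩ := exists_isLev_muFun f'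
  have h1 := hL.mono (M := L.sup L') fun _ hs => Layer.sub_le (L.le_sup_left L') hs
  have h2 := hL'.mono (M := L.sup L') fun _ hs => Layer.sub_le (L.le_sup_right L') hs
  rw [muFun_add, cochainInv_eq hp2 h1 (nsmul_muFun q _), cochainInv_eq hp2 h2 (nsmul_muFun q _),
    cochainInv_eq hp2 (h1.add h2) (fun τ τ' => by
      show p • (muFun q _ τ τ' + muFun q _ τ τ') = 0
      rw [nsmul_add, nsmul_muFun, nsmul_muFun, add_zero]),
    h1.cls_add h2 (h1.add h2), locInv_add hp2 (h1.nsmul_cls (nsmul_muFun q _))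
      (h2.nsmul_cls (nsmul_muFun q _))]

/-- The invariant on level cocycles. -/
def invCochain (hp2 : p ≠ 2) (q : Nat.Primes) :
    levelCocycles₂ (primeLocalToGlobal q) (μloc q) →ₗ[ZMod p] ZMod p :=
  (AddMonoidHom.mk'
    (fun f : levelCocycles₂ (primeLocalToGlobal q) (μloc q) =>
      cochainInv hp2 q (muFun q (coch f)))
    (cochainInv_muFun_add hp2 q)).toZModLinearMap p

theorem invCochain_apply (hp2 : p ≠ 2) (q : Nat.Primes)
    (f : levelCocycles₂ (primeLocalToGlobal q) (μloc q)) :
    invCochain hp2 q f = cochainInv hp2 q (muFun q (coch f)) := rfl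

theorem invCochain_eq_zero (hp2 : p ≠ 2) (q : Nat.Primes)
    (f : levelCocycles₂ (primeLocalToGlobal q) (μloc q)) (h : cls₂ _ _ f = 0) :
    invCochain hp2 q f = 0 := by
  obtain ⟨x, ⟨E, hE, hx⟩, hd⟩ := cls₂_eq_zero_iff.1 h
  obtain ⟨L, hL⟩ := exists_isLev_muFun f
  obtain ⟨Z, hZ⟩ := exists_layer_mu p
  have := hE
  obtain ⟨L₁, hL₁⟩ := Layer.exists_ge E
  set M := (L.sup Z).sup L₁
  have eL : M.sub ≤ L.sub :=
    (Layer.sub_le ((L.sup Z).le_sup_left L₁)).trans (Layer.sub_le (L.le_sup_left Z))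
  have eZ : M.sub ≤ Z.sub :=
    (Layer.sub_le ((L.sup Z).le_sup_left L₁)).trans (Layer.sub_le (L.le_sup_right Z))
  have hM := hL.mono (M := M) fun _ hs => eL hs
  rw [invCochain_apply, cochainInv_eq hp2 hM (nsmul_muFun q _)]
  have h0 : IsLev M q (0 : LGal q → LGal q → LU q) :=
    ⟨fun _ _ _ _ _ _ => rfl, fun _ _ => zero_mem _, fun g h j => by simp⟩
  have e0 : h0.cls = 0 := by
    have h1 := h0.cls_add h0 (h0.add h0)
    simp only [add_zero] at h1
    exact left_eq_add.1 h1
  rw [hM.cls_congr h0 (fun τ => embU q (torsionHom p (x τ))) (fun τ s hs => by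
      exact congrArg (fun v => embU q (torsionHom p v)) (hx τ s
        (IntermediateField.fixingSubgroup_antitone hL₁
          (Layer.sub_le ((L.sup Z).le_sup_right L₁) hs))))
    (fun τ s hs => by rw [← embU_loc_smul, hZ _ (eZ hs)]) (fun τ τ' => ?_), e0, locInv_zero]
  show embU q _ = 0 + _
  rw [zero_add, ← embU_loc_smul, smul_torsionHom, ← map_sub, ← map_sub, ← map_add, ← map_add]
  have h1 := congrFun hd (τ, τ')
  rw [d₁₂_hom_apply] at h1
  exact congrArg (fun v => embU q (torsionHom p v)) h1.symm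

/-- The invariant at `q`. -/
def invMu (hp2 : p ≠ 2) (q : Nat.Primes) :
    continuousH2 (primeLocalToGlobal q) (μloc q) →ₗ[ZMod p] ZMod p :=
  descendLin (cls₂ _ _) cls₂_surjective (invCochain hp2 q) (invCochain_eq_zero hp2 q)

theorem invMu_cls (hp2 : p ≠ 2) (q : Nat.Primes)
    (f : levelCocycles₂ (primeLocalToGlobal q) (μloc q)) :
    invMu hp2 q (cls₂ _ _ f) = cochainInv hp2 q (muFun q (coch f)) :=
  descendLin_apply _ _ _ _ f

theorem invMu_injective (hp2 : p ≠ 2) (q : Nat.Primes) :
    Function.Injective (invMu (p := p) hp2 q) := by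
  refine (injective_iff_map_eq_zero _).2 fun z hz => ?_
  obtain ⟨f, rfl⟩ := cls₂_surjective z
  obtain ⟨L₀, hL₀⟩ := exists_isLev_muFun f
  obtain ⟨Z, hZ⟩ := exists_layer_mu p
  set L := L₀.sup Z
  have hL := hL₀.mono (M := L) fun _ hs => Layer.sub_le (L₀.le_sup_left Z) hs
  have hpc := hL.nsmul_cls (p := p) (nsmul_muFun q _)
  rw [invMu_cls, cochainInv_eq hp2 hL (nsmul_muFun q _)] at hz
  have h0 := eq_zero_of_locInv hp2 hpc hz
  rw [IsLev.cls, GalCoh.H2.mk_eq_zero_iff] at h0
  obtain ⟨b, hb⟩ := h0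
  let b' : LGal q → LU q := fun τ => (b (QuotientGroup.mk τ) : LU q)
  have hbd : ∀ τ τ', muFun q (coch f) τ τ' = τ • b' τ' - b' (τ * τ') + b' τ :=
    fun τ τ' => (congrArg (Subtype.val : LocU L q → LU q) (hL.fn_mk τ τ')).symm.trans
      (congrArg (Subtype.val : LocU L q → LU q) (hb (QuotientGroup.mk τ) (QuotientGroup.mk τ')))
  have hlevb : ∀ τ, ∀ s ∈ locSub L q, b' (τ * s) = b' τ := fun τ s hs => by
    show (b (QuotientGroup.mk (τ * s)) : LU q) = b (QuotientGroup.mk τ)
    rw [QuotientGroup.mk_mul_of_mem τ hs]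
  have hcoc : ∀ τ τ', τ • (p • b' τ') - p • b' (τ * τ') + p • b' τ = 0 := fun τ τ' => by
    rw [smul_comm τ p, ← nsmul_sub, ← nsmul_add, ← hbd, nsmul_muFun]
  obtain ⟨a, ha, hafix⟩ := exists_eq_coboundary_LU (⊤ : Subgroup (LGal q)) L
    (a := fun n => p • b' n) (GalCoh.mem_Z1_iff.2 fun n n' => by
      have h := hcoc n n'
      show p • b' (n * n' : LGal q) = (n : LGal q) • (p • b' n') + p • b' n
      linear_combination (norm := abel) -h)
    fun n hn => by
      show p • b' n = 0
      have h1 : b' (n : LGal q) = b' 1 := by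
        conv_lhs => rw [← one_mul (n : LGal q)]
        exact hlevb 1 n hn
      have h2 := hcoc 1 1
      rw [one_smul, mul_one, sub_self, zero_add] at h2
      rw [h1, h2]
  obtain ⟨r, hr⟩ := exists_root_LU (p := p) a
  obtain ⟨M', hM'⟩ := exists_layer_fix_LU (q := q) (fun _ : Unit => r)
  have hp' : ∀ τ, p • (b' τ - (τ • r - r)) = 0 := fun τ => by
    rw [nsmul_sub, nsmul_sub, ← smul_comm τ p, hr, show p • b' τ = τ • a - a from
      ha ⟨τ, Subgroup.mem_top τ⟩, sub_self]
  choose e hpe he using fun τ => exists_embU_eq (hp' τ)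
  choose x hx using fun τ => exists_torsionHom_eq p (hpe τ)
  refine cls₂_eq_zero_iff.2 ⟨x, ?_, funext fun ττ => ?_⟩
  · refine ⟨(L.sup M').field, (L.sup M').finite, fun (τ : LGal q) (s : LGal q) hs =>
      torsionHom_injective p (embU_injective q ?_)⟩
    refine ((congrArg (embU q) (hx _)).trans (he _)).trans
      (Eq.trans ?_ ((congrArg (embU q) (hx τ)).trans (he τ)).symm)
    show b' (τ * s) - ((τ * s) • r - r) = b' τ - (τ • r - r)
    rw [hlevb τ s (Layer.sub_le (L.le_sup_left M') hs), mul_smul,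
      hM' s (Layer.sub_le (L.le_sup_right M') hs) ()]
  · obtain ⟨τ, τ'⟩ := ττ
    suffices key : ∀ τ τ' : LGal q, (cycloChar p (loc q τ) : ZMod p) * x τ' - x (τ * τ') + x τ =
        coch f (τ, τ') from key τ τ'
    intro τ τ'
    refine torsionHom_injective p (embU_injective q ?_)
    show embU q (torsionHom p ((cycloChar p (loc q τ) : ZMod p) * x τ' - x (τ * τ') + x τ)) =
      muFun q (coch f) τ τ'
    rw [map_add, map_sub, ← smul_torsionHom, map_add, map_sub, embU_loc_smul, hx, he, hx, he, hx,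
      he, hbd, mul_smul]
    simp only [smul_sub]
    abel

/-- The sum of the invariants of a global class vanishes. -/
theorem sum_invMu (hp2 : p ≠ 2) (S : Finset Nat.Primes) (hpS : pPrime p ∈ S)
    (z : continuousH2S S (ofChar (cycloChar p))) :
    ∑ q : S, invMu hp2 q.1 (locRes₂S S (ofChar (cycloChar p)) (primeLocalToGlobal q.1) z) = 0 := by
  obtain ⟨f, rfl⟩ := Submodule.mkQ_surjective _ z
  obtain ⟨hfc, F, hF, hlev⟩ := (mem_levelCocyclesS₂_iff S _ _).1 f.2
  obtain ⟨L₁, hL₁, hle⟩ := exists_layer_isS_le hF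
  obtain ⟨L, hL, hle₁, hfix⟩ := exists_layer_units (S := S) hL₁ (Finset.univ : Finset (ZMod p))
    (fun c => torsionHom p c) fun c _ => torsionHom_mem_sUnits hpS c
  have := L.finite
  have := Fintype.ofFinite (Gam ⧸ L.sub)
  have hmu : ∀ g ∈ L.sub, ∀ c : ZMod p, g • torsionHom p c = torsionHom p c :=
    fun g hg c => hfix c (Finset.mem_univ c) g hg
  let F0 : Gam → Gam → ZMod p := fun g k => (f : Gam × Gam → ZMod p) (g, k)
  have hF0 : ∀ g k, ∀ s ∈ L.sub, ∀ t ∈ L.sub, F0 (g * s) (k * t) = F0 g k :=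
    fun g k s hs t ht => hlev g k s t (hle (hle₁ hs)) (hle (hle₁ ht))
  let cj : Gam → Gam → LayerJ L := fun g k =>
    ⟨principal (torsionHom p (F0 g k)), principal_mem_fixedPts_iff.2 fun s hs => hmu s hs _⟩
  have hcj : ∀ g k, ∀ s ∈ L.sub, ∀ t ∈ L.sub, cj (g * s) (k * t) = cj g k :=
    fun g k s hs t ht => Subtype.ext (congrArg (fun v => principal (torsionHom p v))
      (hF0 g k s hs t ht))
  let c : GalCoh.Z2 (Gam ⧸ L.sub) (LayerJ L) := ⟨GalCoh.lvl2 L.sub cj,
    GalCoh.mem_Z2_iff.2 fun a b d => by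
      induction a using QuotientGroup.induction_on with
      | _ g =>
        induction b using QuotientGroup.induction_on with
        | _ h =>
          induction d using QuotientGroup.induction_on with
          | _ j =>
            rw [← QuotientGroup.mk_mul, ← QuotientGroup.mk_mul, GalCoh.lvl2_mk _ hcj,
              GalCoh.lvl2_mk _ hcj, GalCoh.lvl2_mk _ hcj, GalCoh.lvl2_mk _ hcj]
            refine Subtype.ext ?_
            show principal _ + principal _ = g • principal _ + principal _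
            rw [← principal_smul, smul_torsionHom, ← map_add, ← map_add, ← map_add, ← map_add]
            exact congrArg (fun v => principal (torsionHom p v))
              ((mem_cocycles₂_iff _).1 hfc g h j)⟩
  have hcls : classH2 L (GalCoh.H2.mk c) = 0 := by
    rw [classH2, GalCoh.push2_mk, ← map_zero GalCoh.H2.mk]
    refine congrArg GalCoh.H2.mk (Subtype.ext (funext fun a => funext fun b => Subtype.ext ?_))
    exact (classMap_eq_zero_iff _).2 ⟨_, rfl⟩
  have hl : ∀ q, IsLev L q (muFun q fun ττ : LGal q × LGal q => F0 (loc q ττ.1) (loc q ττ.2)) :=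
    fun q => isLev_muFun (fun s hs => hmu _ hs)
      ((mem_cocycles₂_iff _).2 fun (g : LGal q) (h : LGal q) (j : LGal q) => by
        show F0 (loc q (g * h)) (loc q j) + F0 (loc q g) (loc q h) =
          (cycloChar p (loc q g) : ZMod p) * F0 (loc q h) (loc q j) + F0 (loc q g) (loc q (h * j))
        rw [map_mul, map_mul]
        exact (mem_cocycles₂_iff _).1 hfc _ _ _)
      fun τ τ' s hs t ht => by
        show F0 (loc q (τ * s)) (loc q (τ' * t)) = F0 (loc q τ) (loc q τ')
        rw [map_mul, map_mul]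
        exact hF0 _ _ _ hs _ ht
  have hres : ∀ q, GlobalDuality.locRes L q (GalCoh.H2.mk c) = (hl q).cls := fun q => by
    rw [GlobalDuality.locRes, GalCoh.H2.map_mk]
    refine congrArg GalCoh.H2.mk (Subtype.ext (funext fun a => funext fun b => ?_))
    induction a using QuotientGroup.induction_on with
    | _ g =>
      induction b using QuotientGroup.induction_on with
      | _ k =>
        show evalLoc L q (GalCoh.lvl2 L.sub cj (QuotientGroup.mk (loc q g))
          (QuotientGroup.mk (loc q k))) = (hl q).fn (QuotientGroup.mk g) (QuotientGroup.mk k)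
        rw [GalCoh.lvl2_mk _ hcj, (hl q).fn_mk]
        exact Subtype.ext (at_principal_embU q _)
  have hu : ∀ q, q ∉ S → ∀ a b σ,
      ((c : Gam ⧸ L.sub → Gam ⧸ L.sub → LayerJ L) a b : Idele).at q σ ∈ unitsAt q :=
    fun q hq a b σ => ((mem_sUnits_iff (S := S)).1 (torsionHom_mem_sUnits hpS _)).2 q hq σ
  have hpl : ∀ q, p • GlobalDuality.locRes L q (GalCoh.H2.mk c) = 0 := fun q => by
    rw [hres]
    exact (hl q).nsmul_cls (nsmul_muFun q _)
  have hsum := coord_eq_sum_locInv hp2 c S (by rw [hcls, smul_zero]) hu (fun q _ => hpl q)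
    fun q hq => locRes_eq_zero_of_units hL hq c (hu q hq) (hpl q)
  rw [hcls, coord_zero] at hsum
  refine Eq.trans ?_ ((Finset.sum_coe_sort S _).trans hsum.symm)
  refine Finset.sum_congr rfl fun q _ => ?_
  refine (invMu_cls hp2 q.1 _).trans ((cochainInv_eq hp2 (hl q.1) (nsmul_muFun q.1 _)).trans ?_)
  rw [hres]

/-- The reciprocity law. -/
def reciprocity (hp2 : p ≠ 2) : Reciprocity p :=
  ⟨invMu hp2, invMu_injective hp2, sum_invMu hp2⟩

end FLTAgent.GWEuler
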