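import Fermat.Agent.GWEuler.AdaptedLayer
import Fermat.Agent.GWEuler.ChangeS
import Fermat.Agent.GWEuler.InductionVanishing
import Fermat.Agent.GWEuler.LocTwo.Free
import Fermat.Agent.GWEuler.MiddleExact.Main
import Fermat.Agent.GWEuler.Monotone
import Fermat.Agent.GWEuler.ReciprocityProof
import Fermat.Agent.TWPrimes.GWInterface

/-!
# The Greenberg–Wiles inequality for odd `p`

Over an adapted layer the Euler defect is additive and vanishes on relatively projective modules,
hence it is zero (`eulerDefect_eq_zero`); enlarging `S` makes it nonnegative for every module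
(`eulerDefect_nonneg`), and with local and global duality this is the inequality
`greenbergWiles`.  It is the Galois cohomology input of the modularity lifting theorem and of level
lowering.
-/

set_option autoImplicit false

noncomputable section

open CategoryTheory groupCohomology Module ExtCitation

namespace FLTAgent.GWEuler

open FLTAgent.GalCoh FLTAgent.GlobalDuality

local notation "Γℚ" => AlgebraicClosure ℚ ≃ₐ[ℚ] AlgebraicClosure ℚ

variable {p : ℕ} [Fact p.Prime]

/-- At an adapted set of primes the defect vanishes. -/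
theorem eulerDefect_eq_zero (hp2 : p ≠ 2) {L : Layer} {S : Finset Nat.Primes}
    (hA : IsAdapted (p := p) L S) (M : Rep.{0} (ZMod p) Γℚ)
    [FiniteDimensional (ZMod p) M] (htriv : ∀ g ∈ L.sub, M.ρ g = 1) : eulerDefect S M = 0 := by
  have hrank : ∀ (N : Rep.{0} (ZMod p) Γℚ) [FiniteDimensional (ZMod p) N],
      (∀ g ∈ L.sub, N.ρ g = 1) → RankTwo S N := fun N _ h =>
    LocTwo.rankTwo hp2 (reciprocity hp2) hA (LocTwo.twoSurj_permMod hp2 hA) N h
  have hmid : ∀ (N : Rep.{0} (ZMod p) Γℚ) [FiniteDimensional (ZMod p) N],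
      (∀ g ∈ L.sub, N.ρ g = 1) → ∀ hN : SLevel S N, MiddleExact (reciprocity hp2) S N hN :=
    fun N _ h hN => Middle.middleExact (reciprocity hp2) hp2 hA hrank N h hN
  have he : IsAdditive fun N : Rep.{0} (ZMod p) (Gam ⧸ L.sub) => eulerDefect S (inflRep L N) := by
    intro A B C _ _ _ ι π hι hπ hinj hsurj hex
    have hd : ∀ (N : Rep.{0} (ZMod p) (Gam ⧸ L.sub)) [FiniteDimensional (ZMod p) N],
        RankTwo S ((inflRep L N).dualTwist (cycloChar p)) := fun N _ => by
      have := finiteDimensional_dualTwist (inflRep L N)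
      exact hrank _ (dualTwist_trivial_layer hA.mu (inflRep_trivial L N))
    exact eulerDefect_additive (A := inflRep L A) (B := inflRep L B) (C := inflRep L C) ι π
      (fun g a => hι _ a) (fun g b => hπ _ b) hinj hsurj hex (reciprocity hp2) hp2
      (shaDuality hp2 hA.pmem) hA.pmem
      (sLevel_of_trivial hA.isS (inflRep_trivial L A))
      (sLevel_of_trivial hA.isS (inflRep_trivial L B))
      (sLevel_of_trivial hA.isS (inflRep_trivial L C))
      (fun M _ hM => finite_continuousH1S S hA.pmem M hM)
      (hrank _ (inflRep_trivial L A)) (hrank _ (inflRep_trivial L B))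
      (hrank _ (inflRep_trivial L C)) (hd A) (hd B) (hd C)
      (hmid _ (inflRep_trivial L A) _) (hmid _ (inflRep_trivial L B) _)
      (hmid _ (inflRep_trivial L C) _)
  let ρ₀ : Representation (ZMod p) (Gam ⧸ L.sub) M :=
    QuotientGroup.lift L.sub M.ρ fun g hg => MonoidHom.mem_ker.mpr (htriv g hg)
  have : FiniteDimensional (ZMod p) (Rep.of ρ₀) := inferInstanceAs (FiniteDimensional (ZMod p) M)
  have h : eulerDefect S (inflRep L (Rep.of ρ₀)) = 0 :=
    he.eq_zero_of_hasTrace (fun N _ hN => eulerDefect_inflRep_eq_zero hp2 hA N hN) (Rep.of ρ₀)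
  have e : inflRep L (Rep.of ρ₀) = M := by
    have hρ : MonoidHom.comp ρ₀ (QuotientGroup.mk' L.sub) = M.ρ := MonoidHom.ext fun _ => rfl
    show Rep.of (MonoidHom.comp ρ₀ (QuotientGroup.mk' L.sub)) = M
    rw [hρ]
  rwa [e] at h

/-- The defect is nonnegative. -/
theorem eulerDefect_nonneg (hp2 : p ≠ 2) (S : Finset Nat.Primes) (hpS : pPrime p ∈ S)
    (M : Rep.{0} (ZMod p) Γℚ) [FiniteDimensional (ZMod p) M] (hM : SLevel S M) :
    0 ≤ eulerDefect S M := by
  obtain ⟨L, hL, hmu, htriv⟩ := exists_level hpS hM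
  obtain ⟨S', hSS, hA⟩ := exists_isAdapted hL hpS hmu
  have := finiteDimensional_dualTwist M
  have := finite_continuousH1S S hpS M hM
  have := finite_continuousH1S S' (hSS hpS) M (hM.mono hSS)
  have := finite_continuousH1S S hpS _ (sLevel_dualTwist hpS hM)
  have := finite_continuousH1S S' (hSS hpS) _ ((sLevel_dualTwist hpS hM).mono hSS)
  have h1 := eulerDefect_anti (reciprocity hp2) hp2 hpS hSS M hM fun q _ hq => by
    obtain ⟨hf, hd⟩ := localEuler q M hM
    rw [if_neg (fun h : q = pPrime p => hq (h ▸ hpS)), Nat.add_zero] at hd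
    exact ⟨hf, hd.le⟩
  rw [eulerDefect_eq_zero hp2 hA M htriv] at h1
  exact h1

/-- The Greenberg–Wiles inequality for odd `p`. -/
theorem greenbergWiles (hp2 : p ≠ 2) : TWPrimes.GreenbergWiles p := by
  intro S hpS M _ hsm hur
  have hM := sLevel_of_unramified M hsm hur
  have h1 := finite_continuousH1S S hpS M hM
  have : FiniteDimensional (ZMod p) (M.dualTwist (cycloChar p)) :=
    inferInstanceAs (FiniteDimensional (ZMod p) (Dual (ZMod p) M))
  have h2 := finite_continuousH1S S hpS _ (sLevel_dualTwist hpS hM)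
  refine ⟨h1, h2, locPairing (reciprocity hp2) S M hM,
    fun v y hy h => eq_zero_of_locPairing (reciprocity hp2) S M hp2 hM v hy h, fun L _ hL => ?_⟩
  have h3 := selmer_le (reciprocity hp2) S hp2 hpS M hM L hL
  have h4 := eulerDefect_nonneg hp2 S hpS M hM
  unfold eulerDefect unitsDefect at h4
  rw [← Nat.cast_sum] at h4
  omega

end FLTAgent.GWEuler
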