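import Fermat.Agent.Density.Frobenius
import Fermat.Agent.Deuring.Archimedean
import Fermat.Prelude.Def_GroupCohomology_ContinuousUnramified

/-!
# Levels of modules unramified outside a finite set of primes

`SLevel S M`: `M` is acted on through a finite extension unramified outside `S`; it follows from
unramifiedness (`sLevel_of_unramified`) and passes to the dual twist (`sLevel_dualTwist`).
-/

set_option autoImplicit false

noncomputable section

open CategoryTheory groupCohomology Module ExtCitation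

namespace FLTAgent.GWEuler

open FLTAgent.Density

local notation "Γℚ" => AlgebraicClosure ℚ ≃ₐ[ℚ] AlgebraicClosure ℚ

variable {p : ℕ} [Fact p.Prime]

/-- A module acted on through a finite extension unramified outside `S`. -/
def SLevel (S : Finset Nat.Primes) (M : Rep (ZMod p) Γℚ) : Prop :=
  ∃ F : IntermediateField ℚ (AlgebraicClosure ℚ), F.IsUnramifiedOutside S ∧
    ∀ s ∈ F.fixingSubgroup, M.ρ s = 1

theorem SLevel.mono {S S' : Finset Nat.Primes} (h : S ⊆ S') {M : Rep (ZMod p) Γℚ}
    (hM : SLevel S M) : SLevel S' M := by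
  obtain ⟨F, hF, hs⟩ := hM
  exact ⟨F, hF.mono h, hs⟩

/-- A finite extension whose group is a given open normal subgroup. -/
theorem exists_field_of_le {S : Finset Nat.Primes} (K : Subgroup Γℚ)
    {F : IntermediateField ℚ (AlgebraicClosure ℚ)} (hF : FiniteDimensional ℚ F)
    (hle : F.fixingSubgroup ≤ K)
    (hur : ∀ q : Nat.Primes, q ∉ S → ∀ A : ValuationSubring (AlgebraicClosure ℚ),
      A.LiesOverPrime (q : ℕ) → A.inertiaSubgroupIn ℚ ≤ K) :
    ∃ E : IntermediateField ℚ (AlgebraicClosure ℚ),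
      E.IsUnramifiedOutside S ∧ E.fixingSubgroup = K := by
  have := hF
  have : Algebra.IsAlgebraic ℚ (AlgebraicClosure ℚ) := AlgebraicClosure.isAlgebraic ℚ
  have : IsAlgClosure ℚ (AlgebraicClosure ℚ) := ⟨inferInstance, inferInstance⟩
  have : IsGalois ℚ (AlgebraicClosure ℚ) := IsAlgClosure.isGalois ℚ _
  have hopen : IsOpen (K : Set Γℚ) :=
    Subgroup.isOpen_mono hle (IntermediateField.fixingSubgroup_isOpen F)
  have hfix : (IntermediateField.fixedField K).fixingSubgroup = K :=
    InfiniteGalois.fixingSubgroup_fixedField ⟨K, OpenSubgroup.isClosed ⟨K, hopen⟩⟩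
  have hEF : IntermediateField.fixedField K ≤ F := by
    intro x hx
    rw [← InfiniteGalois.fixedField_fixingSubgroup F, IntermediateField.mem_fixedField_iff]
    exact fun τ hτ => (IntermediateField.mem_fixedField_iff _ _).mp hx τ (hle hτ)
  have : FiniteDimensional ℚ (IntermediateField.fixedField K) :=
    FiniteDimensional.of_injective (IntermediateField.inclusion hEF).toLinearMap
      (IntermediateField.inclusion_injective hEF)
  exact ⟨_, ⟨inferInstance, fun q hq A hA => (hur q hq A hA).trans hfix.ge⟩, hfix⟩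

/-- The hypotheses of the Greenberg–Wiles inequality give an `S`-level. -/
theorem sLevel_of_unramified {S : Finset Nat.Primes} (M : Rep (ZMod p) Γℚ)
    [FiniteDimensional (ZMod p) M]
    (hsm : ∀ m : M, ∃ F : IntermediateField ℚ (AlgebraicClosure ℚ), FiniteDimensional ℚ F ∧
      ∀ s ∈ F.fixingSubgroup, M.ρ s m = m)
    (hur : ∀ q : Nat.Primes, q ∉ S → ∀ A : ValuationSubring (AlgebraicClosure ℚ),
      A.LiesOverPrime (q : ℕ) → ∀ g ∈ A.inertiaSubgroupIn ℚ, M.ρ g = 1) :
    SLevel S M := by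
  classical
  have : Finite M := Module.finite_of_finite (ZMod p)
  choose F hF hfix using hsm
  have := hF
  have : FiniteDimensional ℚ (⨆ m, F m : IntermediateField ℚ (AlgebraicClosure ℚ)) :=
    IntermediateField.finiteDimensional_iSup_of_finite
  obtain ⟨E, hE, hEK⟩ := exists_field_of_le (S := S) (MonoidHom.ker M.ρ) (F := ⨆ m, F m)
    inferInstance
    (fun s hs => MonoidHom.mem_ker.mpr (LinearMap.ext fun m =>
      hfix m s (IntermediateField.fixingSubgroup_antitone (le_iSup F m) hs)))
    (fun q hq A hA g hg => MonoidHom.mem_ker.mpr (hur q hq A hA g hg))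
  exact ⟨E, hE, fun s hs => MonoidHom.mem_ker.mp (hEK ▸ hs :)⟩

/-- Roots of unity of order prime to the residue characteristic are congruent only when equal. -/
theorem root_eq_of_sub_mem_nonunits {q : ℕ} [Fact q.Prime]
    {A : ValuationSubring (AlgebraicClosure ℚ)} (hA : A.LiesOverPrime q) {n : ℕ} (hn : ¬ q ∣ n)
    {x y : AlgebraicClosure ℚ} (hx : x ^ n = 1) (hy : y ^ n = 1) (h : x - y ∈ A.nonunits) :
    x = y := by
  have hn0 : n ≠ 0 := fun h => hn (h ▸ dvd_zero q)
  have hmem : ∀ {u : AlgebraicClosure ℚ}, u ^ n = 1 → u ∈ A := fun {u} hu =>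
    mem_of_isIntegral A (IsIntegral.of_pow (Nat.pos_of_ne_zero hn0) (hu.symm ▸ isIntegral_one))
  set c : A := ⟨y, hmem hy⟩
  set t : A := ⟨x, hmem hx⟩
  have hres : IsLocalRing.residue A t = IsLocalRing.residue A c := by
    rw [← sub_eq_zero, ← map_sub, IsLocalRing.residue_eq_zero_iff]
    exact ValuationSubring.coe_mem_nonunits_iff.mp h
  by_contra hne
  have hct : t ^ n = c ^ n := Subtype.ext (by
    show x ^ n = y ^ n
    rw [hx, hy])
  have hdiff : t - c ≠ 0 := sub_ne_zero.mpr fun h => hne (congrArg Subtype.val h)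
  have h0 : ∑ i ∈ Finset.range n, t ^ i * c ^ (n - 1 - i) = 0 :=
    (mul_eq_zero.mp (show (∑ i ∈ Finset.range n, t ^ i * c ^ (n - 1 - i)) * (t - c) = 0 by
      rw [geom_sum₂_mul, hct, sub_self])).resolve_right hdiff
  have h3 := congrArg (IsLocalRing.residue A) h0
  rw [map_sum, map_zero] at h3
  have hterm : ∀ i ∈ Finset.range n, IsLocalRing.residue A (t ^ i * c ^ (n - 1 - i))
      = IsLocalRing.residue A c ^ (n - 1) := fun i hi => by
    rw [map_mul, map_pow, map_pow, hres, ← pow_add]
    congr 1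
    have := Finset.mem_range.mp hi
    omega
  rw [Finset.sum_congr rfl hterm, Finset.sum_const, Finset.card_range, nsmul_eq_mul,
    mul_eq_zero] at h3
  rcases h3 with h3 | h3
  · exact Deuring.natCast_residue_ne_zero hA hn h3
  · have hc0 : IsUnit c := IsUnit.of_pow_eq_one (Subtype.ext hy : c ^ n = 1) hn0
    exact ((hc0.map (IsLocalRing.residue A)).pow (n - 1)).ne_zero h3

theorem inertia_fixes_root_of_unity {q : ℕ} [Fact q.Prime]
    {A : ValuationSubring (AlgebraicClosure ℚ)} (hA : A.LiesOverPrime q)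
    {τ : Γℚ} (hτ : τ ∈ A.inertiaSubgroupIn ℚ) {n : ℕ} (hn : ¬ q ∣ n) {z : AlgebraicClosure ℚ}
    (hz : z ^ n = 1) : τ z = z := by
  have hn0 : n ≠ 0 := fun h => hn (h ▸ dvd_zero q)
  exact root_eq_of_sub_mem_nonunits hA hn (by rw [← map_pow, hz, map_one]) hz
    ((mem_inertiaSubgroupIn_iff.mp hτ).2 z
      (mem_of_isIntegral A (IsIntegral.of_pow (Nat.pos_of_ne_zero hn0) (hz.symm ▸ isIntegral_one))))

/-- The cyclotomic character modulo `p` is unramified outside `p`. -/
theorem cycloChar_eq_one_of_inertia {q : Nat.Primes} (hq : q ≠ pPrime p)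
    {A : ValuationSubring (AlgebraicClosure ℚ)} (hA : A.LiesOverPrime (q : ℕ))
    {τ : Γℚ} (hτ : τ ∈ A.inertiaSubgroupIn ℚ) : cycloChar p τ = 1 := by
  have : NeZero p := ⟨(Fact.out : p.Prime).ne_zero⟩
  have : Fact (q : ℕ).Prime := ⟨q.2⟩
  have hn : ¬ (q : ℕ) ∣ p := fun h =>
    hq (Subtype.ext ((Nat.prime_dvd_prime_iff_eq q.2 (Fact.out : p.Prime)).mp h))
  refine Units.ext (modularCyclotomicCharacter.unique (AlgebraicClosure ℚ)
    (card_rootsOfUnity_eq_self p) (τ : AlgebraicClosure ℚ ≃+* AlgebraicClosure ℚ)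
    (c := ((1 : (ZMod p)ˣ) : ZMod p)) fun t ht => ?_).symm
  rw [Units.val_one, ZMod.val_one, pow_one]
  exact inertia_fixes_root_of_unity hA hτ hn
    (by rw [← Units.val_pow_eq_pow_val, (mem_rootsOfUnity p t).mp ht, Units.val_one])

theorem sLevel_dualTwist {S : Finset Nat.Primes} (hpS : pPrime p ∈ S) {M : Rep (ZMod p) Γℚ}
    (hM : SLevel S M) : SLevel S (M.dualTwist (cycloChar p)) := by
  obtain ⟨F, hF, hs⟩ := hM
  have : NeZero p := ⟨(Fact.out : p.Prime).ne_zero⟩
  obtain ⟨z, hz⟩ := HasEnoughRootsOfUnity.exists_primitiveRoot (AlgebraicClosure ℚ) p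
  have : FiniteDimensional ℚ (IntermediateField.adjoin ℚ ({z} : Set (AlgebraicClosure ℚ))) :=
    IntermediateField.adjoin.finiteDimensional (Algebra.IsIntegral.isIntegral z)
  obtain ⟨K, hK, hKc⟩ := exists_field_of_le (S := S) (cycloChar p).ker
    (F := IntermediateField.adjoin ℚ ({z} : Set (AlgebraicClosure ℚ))) inferInstance
    (fun s hsz => by
      refine MonoidHom.mem_ker.mpr (Units.ext ?_)
      have hz' : s z = z := (IntermediateField.mem_fixingSubgroup_iff _ _).mp hsz z
        (IntermediateField.mem_adjoin_simple_self ℚ z)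
      refine (modularCyclotomicCharacter.unique (AlgebraicClosure ℚ) (card_rootsOfUnity_eq_self p)
        (s : AlgebraicClosure ℚ ≃+* AlgebraicClosure ℚ) (c := ((1 : (ZMod p)ˣ) : ZMod p))
        fun t ht => ?_).symm
      rw [Units.val_one, ZMod.val_one, pow_one]
      obtain ⟨i, -, hi⟩ := hz.eq_pow_of_pow_eq_one (ξ := (t : AlgebraicClosure ℚ))
        (by rw [← Units.val_pow_eq_pow_val, (mem_rootsOfUnity p t).mp ht, Units.val_one])
      show s (t : AlgebraicClosure ℚ) = t
      rw [← hi, map_pow, hz'])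
    (fun q hq A hA g hg => MonoidHom.mem_ker.mpr
      (cycloChar_eq_one_of_inertia (fun h => hq (by rw [h]; exact hpS)) hA hg))
  refine ⟨F ⊔ K, hF.sup hK, fun s hsFK => LinearMap.ext fun f => LinearMap.ext fun a => ?_⟩
  have h1 : cycloChar p s = 1 := MonoidHom.mem_ker.mp
    (hKc ▸ IntermediateField.fixingSubgroup_antitone le_sup_right hsFK :)
  have h2 : M.ρ s⁻¹ = 1 := hs _
    (inv_mem (IntermediateField.fixingSubgroup_antitone le_sup_left hsFK))
  show (cycloChar p s : ZMod p) * (show Dual (ZMod p) M from f) (M.ρ s⁻¹ a) = _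
  rw [h1, h2, Units.val_one, one_mul]
  rfl

end FLTAgent.GWEuler
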