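import Fermat.Agent.GWEuler.LocalInstance
import Fermat.Agent.GWEuler.ModuleLevel

/-!
# The local pairings and global reciprocity

`Reciprocity` packages local invariants on `H²(μ_p)` with sum zero on global classes; the local
pairings `locPairing` are non-degenerate and global classes are orthogonal
(`totalPairing_eq_zero`).
-/

set_option autoImplicit false

noncomputable section

open CategoryTheory groupCohomology Module ExtCitation

namespace FLTAgent.GWEuler

open FLTAgent.LocalDuality

local notation "Γℚ" => AlgebraicClosure ℚ ≃ₐ[ℚ] AlgebraicClosure ℚ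

variable {p : ℕ} [Fact p.Prime]

variable (p) in
/-- Local invariants on `H²(μ_p)` whose sum over the places of a global class vanishes. -/
structure Reciprocity where
  /-- the invariant at `q` -/
  inv : ∀ q : Nat.Primes, continuousH2 (primeLocalToGlobal q)
    (Rep.res (primeLocalToGlobal q) (ofChar (cycloChar p))) →ₗ[ZMod p] ZMod p
  inv_injective : ∀ q, Function.Injective (inv q)
  sum_eq_zero : ∀ (S : Finset Nat.Primes), pPrime p ∈ S →
    ∀ z : continuousH2S S (ofChar (cycloChar p)),
      ∑ q : S, inv q.1 (locRes₂S S (ofChar (cycloChar p)) (primeLocalToGlobal q.1) z) = 0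

theorem SLevel.smooth_loc {S : Finset Nat.Primes} {M : Rep (ZMod p) Γℚ} (hM : SLevel S M)
    (q : Nat.Primes) :
    IsSmooth (primeLocalToGlobal q) (Rep.res (primeLocalToGlobal q) M) := by
  obtain ⟨F, hF, hs⟩ := hM
  exact ⟨F, hF.1, fun s hs' => hs _ hs'⟩

/-- A linear retraction of `H¹` onto the continuous classes. -/
def toCont {H : Type} [Group H] (r : H →* Γℚ) (A : Rep (ZMod p) H) :
    H1 A →ₗ[ZMod p] continuousH1 r A :=
  (LinearMap.exists_extend (LinearMap.id : continuousH1 r A →ₗ[ZMod p] continuousH1 r A)).choose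

theorem toCont_coe {H : Type} [Group H] (r : H →* Γℚ) (A : Rep (ZMod p) H)
    (x : continuousH1 r A) : toCont r A (x : H1 A) = x :=
  LinearMap.congr_fun
    (LinearMap.exists_extend (LinearMap.id : continuousH1 r A
      →ₗ[ZMod p] continuousH1 r A)).choose_spec x

variable (R : Reciprocity p) (S : Finset Nat.Primes) (M : Rep (ZMod p) Γℚ)

theorem isEquivariantBilin_loc (q : Nat.Primes) :
    IsEquivariantBilin (A := Rep.res (primeLocalToGlobal q) M)
      (B := Rep.res (primeLocalToGlobal q) (M.dualTwist (cycloChar p)))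
      (C := Rep.res (primeLocalToGlobal q) (ofChar (cycloChar p))) (evBil (cycloChar p) M) :=
  fun g a b => isEquivariantBilin_evBil M (primeLocalToGlobal q g) a b

theorem SLevel.smooth_loc_dual {S : Finset Nat.Primes} {M : Rep (ZMod p) Γℚ} (hM : SLevel S M)
    (q : Nat.Primes) :
    IsSmooth (primeLocalToGlobal q)
      (Rep.res (primeLocalToGlobal q) (M.dualTwist (cycloChar p))) := by
  obtain ⟨F₁, hF₁, h₁⟩ := hM.smooth_loc q
  obtain ⟨F₂, hF₂, h₂⟩ := smoothChar_loc (p := p) q
  have := hF₁; have := hF₂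
  refine ⟨F₁ ⊔ F₂, inferInstance, fun s hs => LinearMap.ext fun f => LinearMap.ext fun a => ?_⟩
  have e1 : cycloChar p (primeLocalToGlobal q s) = 1 :=
    h₂ s (levelSubgroup_anti _ le_sup_right hs)
  have e2 : M.ρ (primeLocalToGlobal q s)⁻¹ = 1 := by
    rw [← map_inv]; exact h₁ s⁻¹ (inv_mem (levelSubgroup_anti _ le_sup_left hs))
  show (cycloChar p (primeLocalToGlobal q s) : ZMod p)
    * (show Dual (ZMod p) M from f) (M.ρ (primeLocalToGlobal q s)⁻¹ a) = _
  rw [e1, e2, Units.val_one, one_mul]
  rfl

/-- The pairing at a finite place, on continuous classes. -/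
def contPairing (q : Nat.Primes) (hsm : IsSmooth (primeLocalToGlobal q)
      (Rep.res (primeLocalToGlobal q) (M.dualTwist (cycloChar p)))) :
    continuousH1 (primeLocalToGlobal q) (Rep.res (primeLocalToGlobal q) M) →ₗ[ZMod p]
      continuousH1 (primeLocalToGlobal q)
        (Rep.res (primeLocalToGlobal q) (M.dualTwist (cycloChar p))) →ₗ[ZMod p] ZMod p :=
  (cup (primeLocalToGlobal q) (isEquivariantBilin_loc M q) hsm).compr₂ (R.inv q)

/-- The local pairings. -/
def locPairing (hM : SLevel S M) : ∀ v : extArithIndex S,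
    H1 (Rep.res (extArithLoc S v) M) →ₗ[ZMod p]
    H1 (Rep.res (extArithLoc S v) (M.dualTwist (cycloChar p))) →ₗ[ZMod p] ZMod p
  | Sum.inl _ => 0
  | Sum.inr q => (contPairing R M q.1 (hM.smooth_loc_dual q.1)).compl₁₂
      (toCont (primeLocalToGlobal q.1) (Rep.res (primeLocalToGlobal q.1) M))
      (toCont (primeLocalToGlobal q.1)
        (Rep.res (primeLocalToGlobal q.1) (M.dualTwist (cycloChar p))))

theorem locPairing_inr (hM : SLevel S M) (q : S)
    (x : continuousH1 (primeLocalToGlobal q.1) (Rep.res (primeLocalToGlobal q.1) M))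
    (y : continuousH1 (primeLocalToGlobal q.1)
      (Rep.res (primeLocalToGlobal q.1) (M.dualTwist (cycloChar p)))) :
    locPairing R S M hM (Sum.inr q) x.1 y.1
      = contPairing R M q.1 (hM.smooth_loc_dual q.1) x y := by
  show contPairing R M q.1 (hM.smooth_loc_dual q.1)
    (toCont (primeLocalToGlobal q.1) (Rep.res (primeLocalToGlobal q.1) M) (x : H1 _))
    (toCont (primeLocalToGlobal q.1)
      (Rep.res (primeLocalToGlobal q.1) (M.dualTwist (cycloChar p))) (y : H1 _)) = _
  rw [toCont_coe, toCont_coe]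

theorem sq_archimedean_eq_one (g : archimedeanDecomposition) : g = 1 ∨ g = archimedeanGen := by
  obtain ⟨g, hg⟩ := g
  obtain ⟨n, rfl⟩ := Subgroup.mem_zpowers_iff.mp hg
  rcases Int.even_or_odd n with ⟨m, rfl⟩ | ⟨m, rfl⟩
  · left
    refine Subtype.ext ?_
    show complexConjugation ^ (m + m) = 1
    rw [← two_mul, zpow_mul, zpow_two, complexConjugation_mul_self, one_zpow]
  · right
    refine Subtype.ext ?_
    show complexConjugation ^ (2 * m + 1) = complexConjugation
    rw [zpow_add_one, zpow_mul, zpow_two, complexConjugation_mul_self, one_zpow, one_mul]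

/-- For odd `p` there is no `H¹` at the archimedean place. -/
theorem h1_archimedean_eq_zero (hp2 : p ≠ 2) (A : Rep (ZMod p) archimedeanDecomposition)
    (x : H1 A) :
    x = 0 := by
  induction x using H1_induction_on with
  | _ f =>
    refine (H1π_eq_zero_iff f).mpr ?_
    have h2 : (2 : ZMod p) ≠ 0 := by
      intro h
      have := (ZMod.natCast_eq_zero_iff 2 p).mp (by exact_mod_cast h)
      exact hp2 ((Nat.prime_dvd_prime_iff_eq Fact.out Nat.prime_two).mp this)
    have hcoc := (mem_cocycles₁_iff (f : archimedeanDecomposition → A)).mp f.2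
    have h1 : f 1 = 0 := by
      have := hcoc 1 1
      rw [one_mul, map_one A.ρ, Module.End.one_apply, left_eq_add] at this
      exact this
    have hc : A.ρ archimedeanGen (f archimedeanGen) = - f archimedeanGen := by
      have := hcoc archimedeanGen archimedeanGen
      rw [show archimedeanGen * archimedeanGen = 1 from Subtype.ext complexConjugation_mul_self,
        h1] at this
      exact eq_neg_of_add_eq_zero_left this.symm
    refine ⟨-(2 : ZMod p)⁻¹ • f archimedeanGen, funext fun g => ?_⟩
    rw [d₀₁_hom_apply]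
    rcases sq_archimedean_eq_one g with rfl | rfl
    · rw [map_one, Module.End.one_apply, sub_self]
      exact h1.symm
    · rw [map_smul, hc, smul_neg, neg_smul, neg_neg, sub_neg_eq_add, ← add_smul, ← two_mul,
        mul_inv_cancel₀ h2, one_smul]

theorem eq_zero_of_contPairing [FiniteDimensional (ZMod p) M] (q : Nat.Primes) (hM : SLevel S M)
    {y : continuousH1 (primeLocalToGlobal q)
      (Rep.res (primeLocalToGlobal q) (M.dualTwist (cycloChar p)))}
    (h : ∀ x, contPairing R M q (hM.smooth_loc_dual q) x y = 0) : y = 0 := by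
  have : FiniteDimensional (ZMod p) (Rep.res (primeLocalToGlobal q) M) :=
    inferInstanceAs (FiniteDimensional (ZMod p) M)
  let φ : Rep.res (primeLocalToGlobal q) (M.dualTwist (cycloChar p)) →ₗ[ZMod p]
      (Rep.res (primeLocalToGlobal q) M).dualTwist
        ((cycloChar p).comp (primeLocalToGlobal q)) :=
    (LinearMap.id : Dual (ZMod p) M →ₗ[ZMod p] Dual (ZMod p) M)
  let φ' : (Rep.res (primeLocalToGlobal q) M).dualTwist
      ((cycloChar p).comp (primeLocalToGlobal q)) →ₗ[ZMod p]
      Rep.res (primeLocalToGlobal q) (M.dualTwist (cycloChar p)) :=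
    (LinearMap.id : Dual (ZMod p) M →ₗ[ZMod p] Dual (ZMod p) M)
  have hφ : ∀ (g : primeLocalGaloisGroup q)
      (f : Rep.res (primeLocalToGlobal q) (M.dualTwist (cycloChar p))),
      φ ((Rep.res (primeLocalToGlobal q) (M.dualTwist (cycloChar p))).ρ g f)
        = ((Rep.res (primeLocalToGlobal q) M).dualTwist
            ((cycloChar p).comp (primeLocalToGlobal q))).ρ g (φ f) := fun g f =>
    LinearMap.ext fun a => by
      show (cycloChar p (primeLocalToGlobal q g) : ZMod p)
          * (show Dual (ZMod p) M from f) (M.ρ (primeLocalToGlobal q g)⁻¹ a)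
        = (cycloChar p (primeLocalToGlobal q g) : ZMod p)
          * (show Dual (ZMod p) M from f) (M.ρ (primeLocalToGlobal q g⁻¹) a)
      rw [map_inv (primeLocalToGlobal q)]
  have hφ' : ∀ (g : primeLocalGaloisGroup q)
      (f : (Rep.res (primeLocalToGlobal q) M).dualTwist
        ((cycloChar p).comp (primeLocalToGlobal q))),
      φ' (((Rep.res (primeLocalToGlobal q) M).dualTwist
            ((cycloChar p).comp (primeLocalToGlobal q))).ρ g f)
        = (Rep.res (primeLocalToGlobal q) (M.dualTwist (cycloChar p))).ρ g (φ' f) := fun g f =>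
    (hφ g f).symm
  obtain ⟨c, rfl⟩ := cls₁_surjective y
  have h0 := local_eq_zero_of_pair (hM.smooth_loc q)
    (y := mapH₁ (primeLocalToGlobal q) φ hφ (cls₁ _ _ c)) fun x => by
      obtain ⟨x, rfl⟩ := cls₁_surjective x
      refine R.inv_injective q (Eq.trans ?_ (map_zero _).symm)
      refine Eq.trans ?_ (h (cls₁ _ _ x))
      show R.inv q _ = R.inv q _
      refine congrArg _ ?_
      unfold pair
      rw [mapH₁_cls, cup_cls, cup_cls]
      refine congrArg (cls₂ _ _) (Subtype.ext (funext fun gk => ?_))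
      exact congrArg (fun u : Dual (ZMod p) M => u ((x.1 : _ → _) gk.1))
        (hφ gk.1 ((c.1 : _ → _) gk.2)).symm
  have h1 := congrArg (mapH₁ (primeLocalToGlobal q) φ' hφ') h0
  rw [map_zero, eq_of_mapH₁_leftInverse (r := primeLocalToGlobal q) φ hφ φ' hφ' (fun _ => rfl)]
    at h1
  exact h1

/-- Right non-degeneracy on continuous classes. -/
theorem eq_zero_of_locPairing (hp2 : p ≠ 2) [FiniteDimensional (ZMod p) M] (hM : SLevel S M)
    (v : extArithIndex S) {y : H1 (Rep.res (extArithLoc S v) (M.dualTwist (cycloChar p)))}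
    (hy : y ∈ continuousH1 (extArithLoc S v)
      (Rep.res (extArithLoc S v) (M.dualTwist (cycloChar p))))
    (h : ∀ x ∈ continuousH1 (extArithLoc S v) (Rep.res (extArithLoc S v) M),
      locPairing R S M hM v x y = 0) : y = 0 := by
  match v with
  | Sum.inl _ => exact h1_archimedean_eq_zero hp2 _ y
  | Sum.inr q =>
    have : FiniteDimensional (ZMod p) (Rep.res (primeLocalToGlobal q.1) M) :=
      inferInstanceAs (FiniteDimensional (ZMod p) M)
    refine congrArg Subtype.val (eq_zero_of_contPairing R S M q.1 hM (y := ⟨y, hy⟩) fun x => ?_)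
    exact (locPairing_inr R S M hM q x ⟨y, hy⟩).symm.trans (h x.1 x.2)

/-- Local classes of a global level cocycle. -/
def locClass (q : Nat.Primes) (A : Rep (ZMod p) Γℚ) (c : cocycles₁ A)
    (hc : IsLevelConstantS₁ S (c : Γℚ → A)) :
    continuousH1 (primeLocalToGlobal q) (Rep.res (primeLocalToGlobal q) A) :=
  cls₁ (primeLocalToGlobal q) (Rep.res (primeLocalToGlobal q) A)
    (mkZ₁ (fun g => (c : Γℚ → A) (primeLocalToGlobal q g))
      ((mem_cocycles₁_iff (A := Rep.res (primeLocalToGlobal q) A) _).2 fun g h => by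
        rw [map_mul]
        exact (mem_cocycles₁_iff _).1 c.2 _ _)
      (IsLevelConstant₁.precomp (rH := MonoidHom.id Γℚ) (primeLocalToGlobal q) (fun _ => rfl)
        hc.isLevelConstant₁))

theorem coe_locClass (q : Nat.Primes) (A : Rep (ZMod p) Γℚ) (c : cocycles₁ A)
    (hc : IsLevelConstantS₁ S (c : Γℚ → A)) :
    ((locClass S q A c hc : continuousH1 _ _) : H1 (Rep.res (primeLocalToGlobal q) A))
      = (groupCohomology.map (primeLocalToGlobal q)
          (𝟙 (Rep.res (primeLocalToGlobal q) A)) 1).hom ((H1π A).hom c) := by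
  refine Eq.trans ?_ (H1π_comp_map_apply (primeLocalToGlobal q)
    (𝟙 (Rep.res (primeLocalToGlobal q) A)) c).symm
  rfl

/-- **Reciprocity**: global classes are orthogonal. -/
theorem totalPairing_eq_zero (_hp2 : p ≠ 2) (hpS : pPrime p ∈ S) (hM : SLevel S M)
    {x : H1 M} (hx : x ∈ continuousH1S S M)
    {y : H1 (M.dualTwist (cycloChar p))} (hy : y ∈ continuousH1S S (M.dualTwist (cycloChar p))) :
    ∑ v, locPairing R S M hM v (locTotal (extArithLoc S) M x v)
      (locTotal (extArithLoc S) (M.dualTwist (cycloChar p)) y v) = 0 := by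
  obtain ⟨a, ha, rfl⟩ := (mem_continuousH1S_iff S M x).1 hx
  obtain ⟨b, hb, rfl⟩ := (mem_continuousH1S_iff S _ y).1 hy
  set C : Rep (ZMod p) Γℚ := ofChar (cycloChar p)
  let z : Γℚ × Γℚ → C := cup₁₁ (A := M) (B := M.dualTwist (cycloChar p)) (C := C)
    (evBil (cycloChar p) M) (a : Γℚ → M) (b : Γℚ → M.dualTwist (cycloChar p))
  have hz : z ∈ levelCocyclesS₂ S C := by
    refine ⟨cup₁₁_mem_cocycles₂ (isEquivariantBilin_evBil M) a.2 b.2, ?_⟩
    obtain ⟨F₁, hF₁, h₁⟩ := ha
    obtain ⟨F₂, hF₂, h₂⟩ := hb
    obtain ⟨F₃, hF₃, h₃⟩ := sLevel_dualTwist hpS hM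
    refine ⟨F₁ ⊔ F₂ ⊔ F₃, (hF₁.sup hF₂).sup hF₃, fun g g' s s' hs hs' => ?_⟩
    show evBil (cycloChar p) M ((a : Γℚ → M) (g * s)) ((M.dualTwist (cycloChar p)).ρ (g * s)
      ((b : Γℚ → M.dualTwist (cycloChar p)) (g' * s'))) = _
    rw [h₁ g s (IntermediateField.fixingSubgroup_antitone
        (le_sup_of_le_left le_sup_left) hs),
      h₂ g' s' (IntermediateField.fixingSubgroup_antitone
        (le_sup_of_le_left le_sup_right) hs'), map_mul,
      h₃ s (IntermediateField.fixingSubgroup_antitone le_sup_right hs), mul_one]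
    rfl
  have hsum := R.sum_eq_zero S hpS (continuousH2Sπ S C ⟨z, hz⟩)
  refine (Fintype.sum_sum_type _).trans ?_
  have hinf : ∀ u : Unit, locPairing R S M hM (Sum.inl u)
      (locTotal (extArithLoc S) M ((H1π M).hom a) (Sum.inl u))
      (locTotal (extArithLoc S) (M.dualTwist (cycloChar p)) ((H1π _).hom b) (Sum.inl u)) = 0 :=
    fun u => rfl
  rw [Finset.sum_eq_zero fun u _ => hinf u, zero_add]
  refine Eq.trans (Finset.sum_congr rfl fun q _ => ?_) hsum
  have e1 : (locTotal (extArithLoc S) M ((H1π M).hom a) (Sum.inr q))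
      = (locClass S q.1 M a ha).1 := (coe_locClass S q.1 M a ha).symm
  have e2 : (locTotal (extArithLoc S) (M.dualTwist (cycloChar p)) ((H1π _).hom b) (Sum.inr q))
      = (locClass S q.1 _ b hb).1 := (coe_locClass S q.1 _ b hb).symm
  rw [e1, e2]
  refine (locPairing_inr R S M hM q _ _).trans (congrArg (R.inv q.1) ?_)
  exact cup_cls _ _ _ _

end FLTAgent.GWEuler
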