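import Fermat.Agent.GWEuler.DefectAdditive
import Fermat.Agent.GWEuler.GlobalUnits.Adapted
import Fermat.Agent.GWEuler.GlobalUnits.Defect
import Fermat.Agent.GWEuler.GlobalUnits.Finite
import Fermat.Agent.GWEuler.GlobalUnits.Sha
import Fermat.Agent.GlobalDuality.Interface

/-!
# Modules over the Galois group of an adapted layer

Inflation `inflRep` of a module of the Galois group of a layer to the absolute Galois group, the
duality of locally trivial classes in the form needed for the Euler defect (`shaDuality`), and the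
vanishing of the defect on relatively projective modules over an adapted layer
(`eulerDefect_inflRep_eq_zero`).
-/

set_option autoImplicit false

noncomputable section

open CategoryTheory groupCohomology Module ExtCitation

namespace FLTAgent.GWEuler

open FLTAgent.GalCoh FLTAgent.GlobalDuality

local notation "Γℚ" => AlgebraicClosure ℚ ≃ₐ[ℚ] AlgebraicClosure ℚ

variable {p : ℕ} [Fact p.Prime]

/-- A module of the Galois group of a layer as a module of the absolute Galois group. -/
def inflRep (L : Layer) (N : Rep.{0} (ZMod p) (Gam ⧸ L.sub)) : Rep.{0} (ZMod p) Γℚ :=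
  Rep.of (MonoidHom.comp N.ρ (QuotientGroup.mk' L.sub))

instance finite_inflRep (L : Layer) (N : Rep.{0} (ZMod p) (Gam ⧸ L.sub))
    [FiniteDimensional (ZMod p) N] : FiniteDimensional (ZMod p) (inflRep L N) :=
  inferInstanceAs (FiniteDimensional (ZMod p) N)

theorem inflRep_trivial (L : Layer) (N : Rep.{0} (ZMod p) (Gam ⧸ L.sub)) :
    ∀ g ∈ L.sub, (inflRep L N).ρ g = 1 := fun g hg => by
  show N.ρ (QuotientGroup.mk' L.sub g) = 1
  rw [show QuotientGroup.mk' L.sub g = 1 from (QuotientGroup.eq_one_iff g).mpr hg, map_one]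

theorem sLevel_of_trivial {S : Finset Nat.Primes} {L : Layer} (hL : L.IsS S)
    {M : Rep.{0} (ZMod p) Γℚ} (htriv : ∀ g ∈ L.sub, M.ρ g = 1) : SLevel S M :=
  ⟨L.field, hL, htriv⟩

theorem dualTwist_trivial_layer {L : Layer} (hmu : ∀ g ∈ L.sub, cycloChar p g = 1)
    {M : Rep.{0} (ZMod p) Γℚ} (htriv : ∀ g ∈ L.sub, M.ρ g = 1) :
    ∀ g ∈ L.sub, (M.dualTwist (cycloChar p)).ρ g = 1 := fun g hg =>
  LinearMap.ext fun f => LinearMap.ext fun a => by
    show (cycloChar p g : ZMod p) * (show Dual (ZMod p) M from f) (M.ρ g⁻¹ a) = _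
    rw [hmu g hg, htriv _ (inv_mem hg), Units.val_one, one_mul]
    rfl

/-- The duality of `sha₁` and `sha₂`. -/
theorem shaDuality (hp2 : p ≠ 2) {S : Finset Nat.Primes} (hpS : pPrime p ∈ S) :
    ShaDuality p S := fun M _ hM => by
  obtain ⟨L, hL, hchi, hrho⟩ := exists_level hpS hM
  have := Fintype.ofFinite (Γℚ ⧸ L.sub)
  exact FLTAgent.GlobalDuality.exists_pairing ⟨hchi, hrho⟩ hp2 hpS hL

/-- The defect vanishes for a module with a trace over an adapted layer. -/
theorem eulerDefect_eq_zero_of_hasTrace {L : Layer} {S : Finset Nat.Primes}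
    {M : Rep.{0} (ZMod p) Gam} (htriv : ∀ g ∈ L.sub, M.ρ g = 1) (hS : IsAdapted (p := p) L S)
    (hp2 : p ≠ 2) [FiniteDimensional (ZMod p) M] (htr : HasTrace (levelRep M htriv)) :
    eulerDefect S M = 0 := by
  unfold eulerDefect
  rw [unitsDefect_eq_zero htriv hS htr, sha1_eq_bot htriv hS hp2 htr]
  simp

theorem hasTrace_levelRep_inflRep (L : Layer) {N : Rep.{0} (ZMod p) (Gam ⧸ L.sub)}
    (h : HasTrace N) : HasTrace (levelRep (inflRep L N) (inflRep_trivial L N)) := by
  have e : (levelRep (inflRep L N) (inflRep_trivial L N)).ρ = N.ρ := MonoidHom.ext fun c => by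
    obtain ⟨g, rfl⟩ := QuotientGroup.mk_surjective c
    rfl
  obtain ⟨φ, hφ⟩ := h
  refine ⟨φ, fun m => ?_⟩
  rw [e]
  exact hφ m

/-- The defect vanishes on the inflation of a module with a trace. -/
theorem eulerDefect_inflRep_eq_zero (hp2 : p ≠ 2) {L : Layer} {S : Finset Nat.Primes}
    (hA : IsAdapted (p := p) L S) (N : Rep.{0} (ZMod p) (Gam ⧸ L.sub))
    [FiniteDimensional (ZMod p) N] (h : HasTrace N) : eulerDefect S (inflRep L N) = 0 :=
  eulerDefect_eq_zero_of_hasTrace (inflRep_trivial L N) hA hp2 (hasTrace_levelRep_inflRep L h)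

end FLTAgent.GWEuler
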