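import Mathlib.RepresentationTheory.Character
import Mathlib.LinearAlgebra.Projection
import Mathlib.LinearAlgebra.Trace
import Mathlib.RepresentationTheory.Intertwining

/-!
# Representations with equal characters are isomorphic

In characteristic zero finite-dimensional representations of a finite group with equal characters
are isomorphic (`exists_equiv_of_character_eq`).  Used for lattices with equal traces.
-/

set_option autoImplicit false

noncomputable section

open Module

namespace FLTAgent.GWEuler

variable {k G : Type*} [Field k] [CharZero k] [Group G] [Fintype G]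
variable {V : Type*} [AddCommGroup V] [Module k V] [FiniteDimensional k V]
  (ρ : Representation k G V)

/-- A stable submodule as a representation. -/
def subRep (S : Submodule k V) (hS : ∀ g, ∀ v ∈ S, ρ g v ∈ S) : Representation k G S where
  toFun g := (ρ g).restrict (hS g)
  map_one' := LinearMap.ext fun v => Subtype.ext (by simp)
  map_mul' g h := LinearMap.ext fun v => Subtype.ext (by simp)

omit [CharZero k] [Fintype G] [FiniteDimensional k V] in
theorem coe_subRep (S : Submodule k V) (hS : ∀ g, ∀ v ∈ S, ρ g v ∈ S) (g : G) (v : S) :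
    (subRep ρ S hS g v : V) = ρ g v := rfl

omit [FiniteDimensional k V] in
theorem exists_stable_isCompl (S : Submodule k V) (hS : ∀ g, ∀ v ∈ S, ρ g v ∈ S) :
    ∃ C : Submodule k V, (∀ g, ∀ v ∈ C, ρ g v ∈ C) ∧ IsCompl S C := by
  obtain ⟨π, hπ⟩ := S.subtype.exists_leftInverse_of_injective
    (LinearMap.ker_eq_bot.mpr S.injective_subtype)
  have hn : (Fintype.card G : k) ≠ 0 := Nat.cast_ne_zero.mpr Fintype.card_ne_zero
  let P : V →ₗ[k] S :=
    (Fintype.card G : k)⁻¹ • ∑ g : G, (subRep ρ S hS g).comp (π.comp (ρ g⁻¹))
  have hP : ∀ v, P v = (Fintype.card G : k)⁻¹ • ∑ g : G, subRep ρ S hS g (π (ρ g⁻¹ v)) :=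
    fun v => by simp [P, LinearMap.sum_apply]
  have hid : ∀ v : S, P v = v := fun v => by
    rw [hP]
    have : ∀ g : G, subRep ρ S hS g (π (ρ g⁻¹ (v : V))) = v := fun g => by
      rw [show π (ρ g⁻¹ (v : V)) = subRep ρ S hS g⁻¹ v from
        LinearMap.congr_fun hπ (subRep ρ S hS g⁻¹ v),
        ← Module.End.mul_apply, ← map_mul, mul_inv_cancel, map_one, Module.End.one_apply]
    rw [Finset.sum_congr rfl fun g _ => this g, Finset.sum_const, Finset.card_univ,
      ← Nat.cast_smul_eq_nsmul k, smul_smul, inv_mul_cancel₀ hn, one_smul]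
  refine ⟨LinearMap.ker P, fun h v hv => ?_, LinearMap.isCompl_of_proj hid⟩
  rw [LinearMap.mem_ker] at hv ⊢
  have key : P (ρ h v) = subRep ρ S hS h (P v) := by
    rw [hP, hP, map_smul, map_sum]
    congr 1
    refine (Fintype.sum_equiv (Equiv.mulLeft h) _ _ fun g => ?_).symm
    show _ = subRep ρ S hS (h * g) (π (ρ (h * g)⁻¹ (ρ h v)))
    rw [← Module.End.mul_apply (ρ (h * g)⁻¹), ← map_mul, mul_inv_rev, inv_mul_cancel_right,
      map_mul, Module.End.mul_apply]
  rw [key, hv, map_zero]

omit [CharZero k] [Fintype G] in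
theorem character_eq_add {S C : Submodule k V} (hS : ∀ g, ∀ v ∈ S, ρ g v ∈ S)
    (hC : ∀ g, ∀ v ∈ C, ρ g v ∈ C) (h : IsCompl S C) (g : G) :
    ρ.character g = (subRep ρ S hS).character g + (subRep ρ C hC).character g := by
  have e : ρ g = (Submodule.prodEquivOfIsCompl S C h).conj
      ((subRep ρ S hS g).prodMap (subRep ρ C hC g)) := by
    refine LinearMap.ext fun v => ?_
    obtain ⟨⟨a, b⟩, rfl⟩ := (Submodule.prodEquivOfIsCompl S C h).surjective v
    rw [LinearEquiv.conj_apply_apply, LinearEquiv.symm_apply_apply]
    simp [coe_subRep]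
  unfold Representation.character
  rw [e, LinearMap.trace_conj', LinearMap.trace_prodMap']

/-- Equal characters give an equivariant isomorphism. -/
theorem exists_equiv_of_character_eq {W : Type*} [AddCommGroup W] [Module k W]
    [FiniteDimensional k W] (σ : Representation k G W)
    (h : ∀ g, ρ.character g = σ.character g) :
    ∃ e : V ≃ₗ[k] W, ∀ g v, e (ρ g v) = σ g (e v) := by
  classical
  have hn : (Nat.card G : k) ≠ 0 := by
    rw [Nat.card_eq_fintype_card]; exact Nat.cast_ne_zero.mpr Fintype.card_ne_zero
  have : Invertible (Nat.card G : k) := invertibleOfNonzero hn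
  induction hd : finrank k V using Nat.strong_induction_on generalizing V W with
  | _ d ih =>
    have hdim : finrank k V = finrank k W := by
      have h1 := h 1
      rw [Representation.char_one, Representation.char_one] at h1
      exact_mod_cast h1
    by_cases hV : Subsingleton V
    · have : Subsingleton W :=
        Module.finrank_zero_iff (R := k).mp (by rw [← hdim, Module.finrank_zero_of_subsingleton])
      exact ⟨LinearEquiv.ofFinrankEq V W hdim, fun g v => Subsingleton.elim _ _⟩
    rw [not_subsingleton_iff_nontrivial] at hV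
    have hne : ∃ n, ∃ S : Submodule k V, (∀ g, ∀ v ∈ S, ρ g v ∈ S) ∧ S ≠ ⊥ ∧ finrank k S = n :=
      ⟨_, ⊤, fun _ _ _ => Submodule.mem_top, top_ne_bot, rfl⟩
    obtain ⟨S, hS, hS0, hSn⟩ := Nat.find_spec hne
    obtain ⟨C, hC, hSC⟩ := exists_stable_isCompl ρ S hS
    -- a non-zero equivariant map from `S` to `W`
    obtain ⟨f, hf⟩ : ∃ f : (subRep ρ S hS).IntertwiningMap σ, f ≠ 0 := by
      let incl : (subRep ρ S hS).IntertwiningMap ρ :=
        { toLinearMap := S.subtype, isIntertwining' := fun g => rfl }
      have hincl : incl ≠ 0 := fun h0 => hS0 ((Submodule.eq_bot_iff S).mpr fun v hv =>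
        congrArg (fun i : (subRep ρ S hS).IntertwiningMap ρ => i.toLinearMap ⟨v, hv⟩) h0)
      have : Nontrivial ((subRep ρ S hS).IntertwiningMap ρ) := ⟨incl, 0, hincl⟩
      have heq : finrank k ((subRep ρ S hS).IntertwiningMap ρ)
          = finrank k ((subRep ρ S hS).IntertwiningMap σ) := by
        have h1 := (subRep ρ S hS).card_inv_mul_sum_char_mul_char_eq_finrank ρ
        have h2 := (subRep ρ S hS).card_inv_mul_sum_char_mul_char_eq_finrank σ
        simp only [h] at h1
        exact_mod_cast h1.symm.trans h2
      have : FiniteDimensional k ((subRep ρ S hS).IntertwiningMap ρ) :=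
        Module.Finite.equiv (Representation.invariantsEquivIntertwiningMap (subRep ρ S hS) ρ)
      have : Nontrivial ((subRep ρ S hS).IntertwiningMap σ) :=
        Module.nontrivial_of_finrank_pos (R := k) (heq ▸ Module.finrank_pos)
      exact exists_ne 0
    have hker : LinearMap.ker f.toLinearMap = ⊥ := by
      by_contra hk
      set K : Submodule k V := (LinearMap.ker f.toLinearMap).map S.subtype
      have hKst : ∀ g, ∀ v ∈ K, ρ g v ∈ K := by
        rintro g _ ⟨v, hv, rfl⟩
        refine ⟨subRep ρ S hS g v, ?_, rfl⟩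
        show f.toLinearMap (subRep ρ S hS g v) = 0
        rw [show f.toLinearMap (subRep ρ S hS g v) = σ g (f.toLinearMap v) from
          LinearMap.congr_fun (f.isIntertwining' g) v, LinearMap.mem_ker.mp hv, map_zero]
      have hK0 : K ≠ ⊥ := fun h0 => hk
        (Submodule.map_injective_of_injective S.injective_subtype
          (h0.trans (Submodule.map_bot _).symm))
      have hmin : Nat.find hne ≤ finrank k K := Nat.find_min' hne ⟨K, hKst, hK0, rfl⟩
      have hKS : K = S := Submodule.eq_of_le_of_finrank_le (Submodule.map_subtype_le _ _)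
        (hSn.trans_le hmin)
      refine hf ?_
      ext v
      have : (v : V) ∈ K := hKS.symm ▸ v.2
      obtain ⟨w, hw, hwv⟩ := this
      exact (Subtype.ext hwv : w = v) ▸ LinearMap.mem_ker.mp hw
    set T : Submodule k W := LinearMap.range f.toLinearMap
    have hT : ∀ g, ∀ w ∈ T, σ g w ∈ T := by
      rintro g _ ⟨v, rfl⟩
      exact ⟨subRep ρ S hS g v, LinearMap.congr_fun (f.isIntertwining' g) v⟩
    obtain ⟨D, hD, hTD⟩ := exists_stable_isCompl σ T hT
    let eS : S ≃ₗ[k] T := LinearEquiv.ofInjective f.toLinearMap (LinearMap.ker_eq_bot.mp hker)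
    have heS : ∀ g v, eS (subRep ρ S hS g v) = subRep σ T hT g (eS v) := fun g v =>
      Subtype.ext (LinearMap.congr_fun (f.isIntertwining' g) v)
    have hchar : ∀ g, (subRep ρ C hC).character g = (subRep σ D hD).character g := fun g => by
      have h1 := character_eq_add ρ hS hC hSC g
      have h2 := character_eq_add σ hT hD hTD g
      have h3 : (subRep ρ S hS).character g = (subRep σ T hT).character g := by
        unfold Representation.character
        rw [show subRep σ T hT g = eS.conj (subRep ρ S hS g) from LinearMap.ext fun w => by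
          rw [LinearEquiv.conj_apply_apply, heS, LinearEquiv.apply_symm_apply],
          LinearMap.trace_conj']
      rw [h g, h3] at h1
      exact (add_left_cancel (h1.symm.trans h2))
    have hlt : finrank k C < d := by
      have h1 := Submodule.finrank_add_eq_of_isCompl hSC
      have h2 : 0 < finrank k S :=
        Nat.pos_of_ne_zero fun h0 => hS0 (Submodule.finrank_eq_zero.mp h0)
      omega
    obtain ⟨eC, heC⟩ := ih _ hlt (subRep ρ C hC) (subRep σ D hD) hchar rfl
    refine ⟨(Submodule.prodEquivOfIsCompl S C hSC).symm ≪≫ₗ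
      (eS.prodCongr eC ≪≫ₗ Submodule.prodEquivOfIsCompl T D hTD), fun g v => ?_⟩
    obtain ⟨⟨a, b⟩, rfl⟩ := (Submodule.prodEquivOfIsCompl S C hSC).surjective v
    have e : ρ g (Submodule.prodEquivOfIsCompl S C hSC (a, b))
        = Submodule.prodEquivOfIsCompl S C hSC (subRep ρ S hS g a, subRep ρ C hC g b) := by
      simp [coe_subRep]
    rw [e, LinearEquiv.trans_apply, LinearEquiv.trans_apply, LinearEquiv.symm_apply_apply,
      LinearEquiv.trans_apply, LinearEquiv.trans_apply, LinearEquiv.symm_apply_apply,
      LinearEquiv.prodCongr_apply, LinearEquiv.prodCongr_apply, heS, heC]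
    simp [coe_subRep]

end FLTAgent.GWEuler
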