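import Fermat.Agent.GWEuler.Defs
import Fermat.Agent.GWEuler.CharIso
import Mathlib.LinearAlgebra.FreeModule.Finite.Quotient
import Mathlib.LinearAlgebra.TensorProduct.Basis

/-!
# Additive functions on modules and reductions of lattices

`redMod` is `A/pA` as a representation.  An additive function takes the same value on the
reductions of lattices of finite index in each other and of lattices with equal traces
(`redMod_eq_of_injective`, `redMod_eq_of_trace`).  Used in `InductionVanishing` and at the
units.
-/

set_option autoImplicit false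
set_option linter.unusedSectionVars false

noncomputable section

open CategoryTheory Module
open scoped TensorProduct

namespace FLTAgent.GWEuler

variable {p : ℕ} [Fact p.Prime] {G : Type} [Group G] {e : Rep (ZMod p) G → ℤ}

namespace IsAdditive

/-- The value at a zero module vanishes. -/
theorem eq_zero_of_subsingleton (he : IsAdditive e) (A : Rep (ZMod p) G) [Subsingleton A] :
    e A = 0 := by
  have h := he A A A (LinearMap.id) (LinearMap.id) (fun _ _ => rfl) (fun _ _ => rfl)
    Function.injective_id Function.surjective_id
    fun b => ⟨fun _ => ⟨b, rfl⟩, fun _ => Subsingleton.elim _ _⟩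
  omega

/-- Invariance under isomorphism. -/
theorem eq_of_bijective (he : IsAdditive e) (A B : Rep (ZMod p) G) [FiniteDimensional (ZMod p) A]
    [FiniteDimensional (ZMod p) B] (f : A →ₗ[ZMod p] B)
    (hf : ∀ (g : G) (a : A), f (A.ρ g a) = B.ρ g (f a)) (hbij : Function.Bijective f) :
    e A = e B := by
  let Z : Rep (ZMod p) G := Rep.trivial (ZMod p) G PUnit
  have h := he A B Z f 0 hf (fun _ _ => rfl) hbij.1 (fun z => ⟨0, Subsingleton.elim _ _⟩)
    fun b => ⟨fun _ => hbij.2 b, fun _ => rfl⟩
  rw [eq_zero_of_subsingleton he Z] at h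
  omega

end IsAdditive

section Killed

variable (A : Type) [AddCommGroup A] [DistribMulAction G A]

/-- An abelian group with a group action, as an integral representation. -/
def actRep : Representation ℤ G A where
  toFun g := (DistribSMul.toAddMonoidHom A g).toIntLinearMap
  map_one' := LinearMap.ext fun a => one_smul G a
  map_mul' g h := LinearMap.ext fun a => mul_smul g h a

theorem actRep_apply (g : G) (a : A) : actRep A g a = g • a := rfl

/-- The multiples of `p`. -/
def pMultiples (p : ℕ) : AddSubgroup A := (nsmulAddMonoidHom (α := A) p).range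

theorem smul_mem_pMultiples (g : G) {a : A} (ha : a ∈ pMultiples A p) : g • a ∈ pMultiples A p := by
  obtain ⟨b, rfl⟩ := ha
  exact ⟨g • b, (smul_comm g p b).symm⟩

/-- The quotient `A/pA`. -/
abbrev ModP (p : ℕ) : Type := A ⧸ pMultiples A p

instance modPModule : Module (ZMod p) (ModP A p) := AddCommGroup.zmodModule fun x => by
  induction x using QuotientAddGroup.induction_on with
  | H a => exact (QuotientAddGroup.eq_zero_iff _).mpr ⟨a, rfl⟩

/-- The action on `A/pA`. -/
def modPRep : Representation (ZMod p) G (ModP A p) where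
  toFun g := AddMonoidHom.toZModLinearMap p
    (QuotientAddGroup.map _ (pMultiples A p) (DistribSMul.toAddMonoidHom A g)
      fun _ ha => smul_mem_pMultiples A g ha)
  map_one' := LinearMap.ext fun x => by
    induction x using QuotientAddGroup.induction_on with
    | H a => exact congrArg QuotientAddGroup.mk (one_smul G a)
  map_mul' g h := LinearMap.ext fun x => by
    induction x using QuotientAddGroup.induction_on with
    | H a => exact congrArg QuotientAddGroup.mk (mul_smul g h a)

variable (p) (G) in
/-- `A/pA` as a representation. -/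
def redMod : Rep (ZMod p) G := Rep.of (modPRep (G := G) (p := p) A)

theorem finite_redMod [Module.Finite ℤ A] : FiniteDimensional (ZMod p) (redMod p G A) := by
  have : Module.Finite (ZMod p) (ModP A p) := by
    obtain ⟨s, hs⟩ := Module.Finite.fg_top (R := ℤ) (M := A)
    classical
    refine ⟨⟨s.image (QuotientAddGroup.mk : A → ModP A p), eq_top_iff.mpr fun x _ => ?_⟩⟩
    clear ‹x ∈ ⊤›
    induction x using QuotientAddGroup.induction_on with
    | H a =>
      have ha : a ∈ Submodule.span ℤ (s : Set A) := hs ▸ Submodule.mem_top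
      induction ha using Submodule.span_induction with
      | mem y hy => exact Submodule.subset_span (Finset.mem_coe.mpr (Finset.mem_image_of_mem _ hy))
      | zero => exact zero_mem _
      | add y z _ _ hy hz => exact add_mem hy hz
      | smul c y _ hy => exact zsmul_mem hy c
  exact this

variable {A} {B : Type} [AddCommGroup B] [DistribMulAction G B]

/-- Functoriality of `redMod`. -/
def redMap (f : A →+ B) : ModP A p →ₗ[ZMod p] ModP B p :=
  AddMonoidHom.toZModLinearMap p
    (QuotientAddGroup.map _ _ f fun _ ⟨b, hb⟩ => ⟨f b,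
      (map_nsmul f p b).symm.trans (congrArg f hb)⟩)

theorem redMap_mk (f : A →+ B) (a : A) :
    redMap (p := p) f (QuotientAddGroup.mk a) = QuotientAddGroup.mk (f a) := rfl

theorem redMap_equiv (f : A →+ B) (hf : ∀ (g : G) (a : A), f (g • a) = g • f a) (g : G)
    (x : redMod p G A) : redMap (p := p) f ((redMod p G A).ρ g x)
      = (redMod p G B).ρ g (redMap (p := p) f x) := by
  induction (show ModP A p from x) using QuotientAddGroup.induction_on with
  | H a => exact congrArg QuotientAddGroup.mk (hf g a)

end Killed

section Lattice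

variable (he : IsAdditive e)
include he

theorem card_modP_free (A : Type) [AddCommGroup A] [Module.Free ℤ A] [Module.Finite ℤ A] :
    Nat.card (ModP A p) = p ^ finrank ℤ A := by
  let b := Module.finBasis ℤ A
  let f : ModP A p →+ (Fin (finrank ℤ A) → ZMod p) :=
    QuotientAddGroup.lift _
      ((AddMonoidHom.compLeft (Int.castAddHom (ZMod p)) _).comp
        b.equivFun.toAddEquiv.toAddMonoidHom)
      (by
        rintro _ ⟨a, rfl⟩
        funext i
        show ((b.equivFun (p • a) i : ℤ) : ZMod p) = 0
        rw [map_nsmul]; simp)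
  have hbij : Function.Bijective f := by
    constructor
    · rw [injective_iff_map_eq_zero]
      intro x hx
      induction x using QuotientAddGroup.induction_on with
      | H a =>
        have h1 : ∀ i, (p : ℤ) ∣ b.equivFun a i := fun i =>
          (ZMod.intCast_zmod_eq_zero_iff_dvd _ p).mp (congrFun hx i)
        choose c hc using h1
        refine (QuotientAddGroup.eq_zero_iff _).mpr ⟨b.equivFun.symm c, b.equivFun.injective ?_⟩
        show b.equivFun (p • b.equivFun.symm c) = _
        rw [map_nsmul, LinearEquiv.apply_symm_apply]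
        funext i
        rw [hc i, Pi.smul_apply, nsmul_eq_mul]
    · intro v
      refine ⟨QuotientAddGroup.mk (b.equivFun.symm fun i => ((v i).val : ℤ)), ?_⟩
      funext i
      show ((b.equivFun (b.equivFun.symm _) i : ℤ) : ZMod p) = v i
      rw [LinearEquiv.apply_symm_apply, Int.cast_natCast, ZMod.natCast_zmod_val]
  rw [Nat.card_congr (Equiv.ofBijective f hbij), Nat.card_fun, Nat.card_zmod, Nat.card_fin]

/-- An additive function takes the same value on the reductions of a lattice and of a sublattice
of finite index. -/
theorem redMod_eq_of_injective {A : Type} [AddCommGroup A] [DistribMulAction G A]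
    [Module.Free ℤ A] [Module.Finite ℤ A] {A' : Type} [AddCommGroup A'] [DistribMulAction G A']
    [Module.Free ℤ A'] [Module.Finite ℤ A'] (ι : A' →+ A)
    (hι : ∀ (g : G) (a : A'), ι (g • a) = g • ι a) (hinj : Function.Injective ι)
    (hfin : ι.range.index ≠ 0) : e (redMod p G A') = e (redMod p G A) := by
  have := finite_redMod (p := p) (G := G) A
  have := finite_redMod (p := p) (G := G) A'
  induction hn : ι.range.index using Nat.strong_induction_on generalizing A with
  | _ n ih =>
    have := finite_redMod (p := p) (G := G) A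
    set T : AddSubgroup A := ι.range ⊔ pMultiples A p with hT
    by_cases hTtop : T = ⊤
    · -- `A'/p → A/p` is surjective between groups of equal order
      have : ι.range.FiniteIndex := ⟨hfin⟩
      have hrank : finrank ℤ A' = finrank ℤ A := by
        have : Finite (A ⧸ ι.range) := AddSubgroup.finite_quotient_of_finiteIndex
        have h1 := (LinearEquiv.ofInjective ι.toIntLinearMap hinj).finrank_eq
        have : Finite (A ⧸ LinearMap.range ι.toIntLinearMap) := by
          have : (LinearMap.range ι.toIntLinearMap).toAddSubgroup = ι.range := rfl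
          exact inferInstanceAs (Finite (A ⧸ ι.range))
        have h2 :=
          (Submodule.finiteQuotient_iff (LinearMap.range ι.toIntLinearMap)).mp inferInstance
        rw [h1, h2]
      have hsurj : Function.Surjective (redMap (p := p) ι) := by
        intro x
        induction x using QuotientAddGroup.induction_on with
        | H a =>
          obtain ⟨_, ⟨b, rfl⟩, c, hc, rfl⟩ :=
            AddSubgroup.mem_sup.mp (hTtop ▸ AddSubgroup.mem_top a : a ∈ T)
          refine ⟨QuotientAddGroup.mk b, ?_⟩
          rw [redMap_mk, QuotientAddGroup.mk_add, (QuotientAddGroup.eq_zero_iff c).mpr hc, add_zero]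
      have : Finite (ModP A' p) := Nat.finite_of_card_ne_zero (by
        rw [card_modP_free he]; exact pow_ne_zero _ (Fact.out : p.Prime).ne_zero)
      have hcard : Nat.card (ModP A' p) ≤ Nat.card (ModP A p) := by
        rw [card_modP_free he, card_modP_free he, hrank]
      exact he.eq_of_bijective _ _ (redMap (p := p) ι) (redMap_equiv ι hι)
        ⟨(hsurj.bijective_of_nat_card_le hcard).1, hsurj⟩
    · -- pass through `T`
      have hTst : ∀ (g : G) {a : A}, a ∈ T → g • a ∈ T := fun g a ha => by
        obtain ⟨_, ⟨b, rfl⟩, c, hc, rfl⟩ := AddSubgroup.mem_sup.mp ha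
        rw [smul_add, ← hι]
        exact AddSubgroup.add_mem_sup ⟨_, rfl⟩ (smul_mem_pMultiples A g hc)
      let : DistribMulAction G T :=
        { smul := fun g a => ⟨g • (a : A), hTst g a.2⟩
          one_smul := fun a => Subtype.ext (one_smul G (a : A))
          mul_smul := fun g h a => Subtype.ext (mul_smul g h (a : A))
          smul_zero := fun g => Subtype.ext (smul_zero g)
          smul_add := fun g a b => Subtype.ext (smul_add g (a : A) b) }
      have : Module.Free ℤ T :=
        Module.Free.of_equiv (R := ℤ) (M := T.toIntSubmodule) (AddEquiv.refl _).toIntLinearEquiv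
      have : Module.Finite ℤ T :=
        Module.Finite.equiv (R := ℤ) (M := T.toIntSubmodule) (AddEquiv.refl _).toIntLinearEquiv
      have := finite_redMod (p := p) (G := G) T
      let ι' : A' →+ T := ι.codRestrict T fun b => AddSubgroup.mem_sup_left ⟨b, rfl⟩
      have hidx : ι'.range.index * T.index = ι.range.index := by
        rw [← AddSubgroup.relIndex_mul_index (show ι.range ≤ T from le_sup_left)]
        congr 1
        rw [AddSubgroup.relIndex]
        congr 1
        ext ⟨x, hx⟩
        exact ⟨fun ⟨b, hb⟩ => ⟨b, congrArg Subtype.val hb⟩, fun ⟨b, hb⟩ => ⟨b, Subtype.ext hb⟩⟩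
      have hT1 : 1 < T.index := by
        have h1 : T.index ≠ 1 := fun h => hTtop (AddSubgroup.index_eq_one.mp h)
        have h2 : T.index ≠ 0 := fun h => hfin (by rw [← hidx, h, Nat.mul_zero])
        omega
      have hn0 : ι'.range.index ≠ 0 := fun h => hfin (by rw [← hidx, h, Nat.zero_mul])
      rw [ih ι'.range.index (by rw [← hn, ← hidx]; exact lt_mul_right (Nat.pos_of_ne_zero hn0) hT1)
        ι' (fun g b => Subtype.ext (hι g b))
        (fun a b hab => hinj (congrArg Subtype.val hab)) hn0
          (finite_redMod (p := p) (G := G) T) rfl]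
      -- the two sequences
      have : Module.Finite ℤ (A ⧸ T) :=
        Module.Finite.of_surjective (QuotientAddGroup.mk' T).toIntLinearMap
          (QuotientAddGroup.mk'_surjective T)
      let Q : Rep (ZMod p) G := redMod p G A
      let incl := redMap (p := p) T.subtype
      let ρA : Representation (ZMod p) G (ModP A p) := modPRep (G := G) (p := p) A
      let ρT : Representation (ZMod p) G (ModP T p) := modPRep (G := G) (p := p) T
      have hincl : ∀ (g : G) (y : ModP T p), incl (ρT g y) = ρA g (incl y) := fun g y =>
        redMap_equiv (A := T) T.subtype (fun _ _ => rfl) g y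
      let ρQ : Representation (ZMod p) G (ModP A p ⧸ LinearMap.range incl) :=
        ρA.quotient (LinearMap.range incl) fun g x ⟨y, hy⟩ =>
          ⟨ρT g y, (hincl g y).trans (congrArg (ρA g) hy)⟩
      have : Module.Finite (ZMod p) (ModP A p) := finite_redMod (p := p) (G := G) A
      have : Module.Finite (ZMod p) (ModP T p) := finite_redMod (p := p) (G := G) T
      have : Finite (ModP A p) := Module.finite_of_finite (ZMod p)
      -- `C₁ = A/T` and the kernel of `T/pT → A/pA`
      let C₁ : Rep (ZMod p) G := Rep.of ρQ
      let K : Submodule (ZMod p) (ModP T p) := LinearMap.ker incl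
      let ρK : Representation (ZMod p) G K := ρT.subrepresentation K fun g y hy => by
        show incl (ρT g y) = 0
        rw [hincl, LinearMap.mem_ker.mp hy, map_zero]
      let Z : Submodule (ZMod p) (ModP A p) := LinearMap.range incl
      let ρZ : Representation (ZMod p) G Z := ρA.subrepresentation Z fun g x ⟨y, hy⟩ =>
        ⟨ρT g y, (hincl g y).trans (congrArg (ρA g) hy)⟩
      have : FiniteDimensional (ZMod p) (Rep.of ρZ) :=
        inferInstanceAs (FiniteDimensional (ZMod p) Z)
      have : FiniteDimensional (ZMod p) C₁ :=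
        inferInstanceAs (FiniteDimensional (ZMod p) (ModP A p ⧸ LinearMap.range incl))
      have : FiniteDimensional (ZMod p) (Rep.of ρK) :=
        inferInstanceAs (FiniteDimensional (ZMod p) K)
      have h1 := he (Rep.of ρZ) (redMod p G A) C₁ Z.subtype Z.mkQ (fun _ _ => rfl)
        (fun _ _ => rfl) Z.injective_subtype Z.mkQ_surjective fun b =>
          (Submodule.Quotient.mk_eq_zero Z).trans ⟨fun h => ⟨⟨b, h⟩, rfl⟩, fun ⟨a, ha⟩ => ha ▸ a.2⟩
      have h2 := he (Rep.of ρK) (redMod p G T) (Rep.of ρZ) K.subtype incl.rangeRestrict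
        (fun _ _ => rfl)
        (fun g y => Subtype.ext (hincl g y))
        K.injective_subtype incl.surjective_rangeRestrict fun b =>
          ⟨fun h => ⟨⟨b, congrArg Subtype.val h⟩, rfl⟩,
            fun ⟨a, ha⟩ => Subtype.ext (ha ▸ a.2)⟩
      -- multiplication by `p` identifies `A/T` with the kernel
      let mulP : ModP A p →ₗ[ZMod p] K :=
        AddMonoidHom.toZModLinearMap p
          ((QuotientAddGroup.lift (pMultiples A p)
            ((QuotientAddGroup.mk' (pMultiples T p)).comp
              ((nsmulAddMonoidHom (α := A) p).codRestrict T fun a =>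
                AddSubgroup.mem_sup_right ⟨a, rfl⟩))
            (by
              rintro _ ⟨a, rfl⟩
              exact (QuotientAddGroup.eq_zero_iff _).mpr
                ⟨⟨p • a, AddSubgroup.mem_sup_right ⟨a, rfl⟩⟩, rfl⟩)).codRestrict K.toAddSubgroup
            fun x => by
              induction x using QuotientAddGroup.induction_on with
              | H a => exact (QuotientAddGroup.eq_zero_iff _).mpr ⟨a, rfl⟩)
      have hmulP : LinearMap.range incl ≤ LinearMap.ker mulP := by
        rintro _ ⟨y, rfl⟩
        induction y using QuotientAddGroup.induction_on with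
        | H t => exact Subtype.ext ((QuotientAddGroup.eq_zero_iff _).mpr ⟨t, Subtype.ext rfl⟩)
      let θ : C₁ →ₗ[ZMod p] K := Z.liftQ mulP hmulP
      have hsurjC : ∀ c : C₁, ∃ a : A, θ c = mulP (QuotientAddGroup.mk a) ∧
          c = Submodule.Quotient.mk (QuotientAddGroup.mk a) := fun c => by
        obtain ⟨x, rfl⟩ := Submodule.mkQ_surjective Z c
        obtain ⟨a, rfl⟩ := QuotientAddGroup.mk_surjective x
        exact ⟨a, Z.liftQ_apply mulP _, rfl⟩
      have hθ : ∀ (g : G) (c : C₁), θ (C₁.ρ g c) = (Rep.of ρK).ρ g (θ c) := fun g c => by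
        obtain ⟨a, -, rfl⟩ := hsurjC c
        exact Subtype.ext (congrArg QuotientAddGroup.mk (Subtype.ext (smul_comm p g a)))
      have hA : ∀ {a : A}, p • a = 0 → a = 0 := fun {a} h => by
        rw [← natCast_zsmul, smul_eq_zero] at h
        exact h.resolve_left (Nat.cast_ne_zero.mpr (Fact.out : p.Prime).ne_zero)
      have hθbij : Function.Bijective θ := by
        refine ⟨(injective_iff_map_eq_zero θ).mpr fun c hc => ?_, fun k => ?_⟩
        · obtain ⟨a, ha, rfl⟩ := hsurjC c
          have h0 : (QuotientAddGroup.mk (⟨p • a, AddSubgroup.mem_sup_right ⟨a, rfl⟩⟩ : T) :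
              ModP T p) = 0 := congrArg Subtype.val (ha.symm.trans hc)
          obtain ⟨t, ht⟩ := (QuotientAddGroup.eq_zero_iff _).mp h0
          have : a = (t : A) := (sub_eq_zero.mp (hA (by
            rw [smul_sub, show p • a = p • (t : A) from (congrArg Subtype.val ht).symm,
              sub_self])))
          refine (Submodule.Quotient.mk_eq_zero Z).mpr ⟨QuotientAddGroup.mk t, ?_⟩
          rw [redMap_mk, this]; rfl
        · obtain ⟨y, hy⟩ := k
          induction y using QuotientAddGroup.induction_on with
          | H t =>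
            obtain ⟨a, ha⟩ := (QuotientAddGroup.eq_zero_iff _).mp (LinearMap.mem_ker.mp hy)
            exact ⟨Submodule.Quotient.mk (QuotientAddGroup.mk a),
              Subtype.ext (congrArg QuotientAddGroup.mk (Subtype.ext ha))⟩
      have h3 := he.eq_of_bijective C₁ (Rep.of ρK) θ hθ hθbij
      omega

/-- An additive function takes the same value on the reductions of two lattices with equal
characters. -/
theorem redMod_eq_of_trace [Finite G] {A : Type} [AddCommGroup A] [DistribMulAction G A]
    [Module.Free ℤ A] [Module.Finite ℤ A] {A' : Type} [AddCommGroup A'] [DistribMulAction G A']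
    [Module.Free ℤ A'] [Module.Finite ℤ A']
    (htr : ∀ g : G, LinearMap.trace ℤ A' (actRep A' g) = LinearMap.trace ℤ A (actRep A g)) :
    e (redMod p G A') = e (redMod p G A) := by
  classical
  let := Fintype.ofFinite G
  let ρ : Representation ℚ G (ℚ ⊗[ℤ] A') :=
    { toFun := fun g => (actRep A' g).baseChange ℚ
      map_one' := by rw [map_one, LinearMap.baseChange_one]
      map_mul' := fun g h => by rw [map_mul, LinearMap.baseChange_mul] }
  let σ : Representation ℚ G (ℚ ⊗[ℤ] A) :=
    { toFun := fun g => (actRep A g).baseChange ℚ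
      map_one' := by rw [map_one, LinearMap.baseChange_one]
      map_mul' := fun g h => by rw [map_mul, LinearMap.baseChange_mul] }
  obtain ⟨E, hE⟩ := exists_equiv_of_character_eq ρ σ fun g => by
    show LinearMap.trace ℚ _ ((actRep A' g).baseChange ℚ)
      = LinearMap.trace ℚ _ ((actRep A g).baseChange ℚ)
    rw [LinearMap.trace_baseChange, LinearMap.trace_baseChange, htr g]
  set b := Module.finBasis ℤ A
  set b' := Module.finBasis ℤ A'
  let B := Algebra.TensorProduct.basis ℚ b
  set c : Fin (finrank ℤ A') → Fin (finrank ℤ A) → ℚ :=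
    fun i j => B.repr (E (1 ⊗ₜ b' i)) j
  set m : ℕ := ∏ i, ∏ j, (c i j).den
  have hm : m ≠ 0 := Finset.prod_ne_zero_iff.mpr fun i _ =>
    Finset.prod_ne_zero_iff.mpr fun j _ => Rat.den_nz _
  have hint : ∀ i j, ∃ z : ℤ, (z : ℚ) = m * c i j := fun i j => by
    obtain ⟨d, hd⟩ : (c i j).den ∣ m :=
      (Finset.dvd_prod_of_mem (fun j => (c i j).den) (Finset.mem_univ j)).trans
        (Finset.dvd_prod_of_mem (fun i => ∏ j, (c i j).den) (Finset.mem_univ i))
    refine ⟨d * (c i j).num, ?_⟩
    rw [hd, Int.cast_mul, Int.cast_natCast, Nat.cast_mul, mul_comm ((c i j).den : ℚ), mul_assoc,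
      mul_comm ((c i j).den : ℚ), Rat.mul_den_eq_num]
  choose z hz using hint
  let ι : A' →ₗ[ℤ] A := b'.constr ℤ fun i => ∑ j, z i j • b j
  have key : ∀ a, (1 : ℚ) ⊗ₜ[ℤ] ι a = (m : ℚ) • E (1 ⊗ₜ a) := by
    intro a
    have : (TensorProduct.mk ℤ ℚ A 1).comp ι
        = ((m : ℚ) • E.toLinearMap).restrictScalars ℤ ∘ₗ TensorProduct.mk ℤ ℚ A' 1 := by
      refine b'.ext fun i => B.repr.injective (Finsupp.ext fun j => ?_)
      show B.repr ((1 : ℚ) ⊗ₜ[ℤ] ι (b' i)) j = B.repr ((m : ℚ) • E (1 ⊗ₜ b' i)) j
      rw [map_smul, Finsupp.smul_apply, smul_eq_mul]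
      rw [show ι (b' i) = ∑ j, z i j • b j from b'.constr_basis ℤ _ i]
      rw [Algebra.TensorProduct.basis_repr_tmul, Finsupp.smul_apply, Finsupp.mapRange_apply,
        b.repr_sum_self, smul_eq_mul, one_mul]
      exact hz i j
    exact LinearMap.congr_fun this a
  have hinjB : Function.Injective ((TensorProduct.mk ℤ ℚ A 1 : A →ₗ[ℤ] ℚ ⊗[ℤ] A)) := by
    intro x y hxy
    refine b.repr.injective (Finsupp.ext fun j => ?_)
    have h1 := congrArg (fun u => B.repr u j) hxy
    simp only [TensorProduct.mk_apply] at h1
    rw [Algebra.TensorProduct.basis_repr_tmul, Algebra.TensorProduct.basis_repr_tmul] at h1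
    simp only [Finsupp.smul_apply, Finsupp.mapRange_apply, smul_eq_mul, one_mul] at h1
    exact_mod_cast h1
  have hinjB' : Function.Injective ((TensorProduct.mk ℤ ℚ A' 1 : A' →ₗ[ℤ] ℚ ⊗[ℤ] A')) := by
    intro x y hxy
    refine b'.repr.injective (Finsupp.ext fun j => ?_)
    have h1 := congrArg (fun u => (Algebra.TensorProduct.basis ℚ b').repr u j) hxy
    simp only [TensorProduct.mk_apply] at h1
    rw [Algebra.TensorProduct.basis_repr_tmul, Algebra.TensorProduct.basis_repr_tmul] at h1
    simp only [Finsupp.smul_apply, Finsupp.mapRange_apply, smul_eq_mul, one_mul] at h1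
    exact_mod_cast h1
  have hι : ∀ (g : G) (a : A'), ι (g • a) = g • ι a := fun g a => by
    refine hinjB ?_
    show (1 : ℚ) ⊗ₜ[ℤ] ι (g • a) = σ g ((1 : ℚ) ⊗ₜ[ℤ] ι a)
    rw [key, key, map_smul, ← hE]
    rfl
  have hinj : Function.Injective ι := fun x y hxy => by
    have h1 := congrArg (fun u => (1 : ℚ) ⊗ₜ[ℤ] u) hxy
    simp only [key] at h1
    exact hinjB' (E.injective (smul_right_injective _ (Nat.cast_ne_zero.mpr hm) h1))
  refine redMod_eq_of_injective he ι.toAddMonoidHom hι hinj ?_
  have hrank : finrank ℤ (LinearMap.range ι) = finrank ℤ A := by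
    rw [← (LinearEquiv.ofInjective ι hinj).finrank_eq]
    have h1 := E.finrank_eq
    rwa [Module.finrank_baseChange, Module.finrank_baseChange] at h1
  have : Finite (A ⧸ LinearMap.range ι) := Submodule.finiteQuotientOfFreeOfRankEq _ hrank
  have : Finite (A ⧸ ι.toAddMonoidHom.range) := inferInstanceAs (Finite (A ⧸ LinearMap.range ι))
  exact AddSubgroup.index_ne_zero_of_finite

end Lattice

end FLTAgent.GWEuler
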