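import Fermat.Agent.GaloisImage.Monomial
import Fermat.Agent.GWEuler.Pairing

/-!
# Invariants at the real place

For odd `p`: `h⁰_∞(M) + h⁰_∞(M') = dim M` for the dual twist `M'` (`finrank_archimedean_add`) and
`h⁰_∞` is additive (`finrank_archimedean_exact`).  Used in the comparison of the defects of `M`
and `M'`.
-/

set_option autoImplicit false

noncomputable section

open CategoryTheory groupCohomology Module ExtCitation

namespace FLTAgent.GWEuler

local notation "Γℚ" => AlgebraicClosure ℚ ≃ₐ[ℚ] AlgebraicClosure ℚ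

variable {p : ℕ} [Fact p.Prime]

/-- Complex conjugation inverts the roots of unity of order `p`. -/
theorem cycloChar_complexConjugation :
    cycloChar p complexConjugation = -1 := by
  have : NeZero p := ⟨(Fact.out : p.Prime).ne_zero⟩
  refine Units.ext (modularCyclotomicCharacter.unique (AlgebraicClosure ℚ)
    (card_rootsOfUnity_eq_self p)
    (complexConjugation : AlgebraicClosure ℚ ≃+* AlgebraicClosure ℚ)
    (c := ((-1 : (ZMod p)ˣ) : ZMod p)) fun t ht => ?_).symm
  have hz : (t : AlgebraicClosure ℚ) ^ p = 1 := by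
    rw [← Units.val_pow_eq_pow_val, (mem_rootsOfUnity p t).mp ht, Units.val_one]
  show complexConjugation (t : AlgebraicClosure ℚ) = (t : AlgebraicClosure ℚ) ^ _
  have h1 : complexConjugation (t : AlgebraicClosure ℚ) = (t : AlgebraicClosure ℚ)⁻¹ := by
    apply complexEmbedding.toRingHom.injective
    show complexEmbedding (complexConjugation _) = complexEmbedding _
    have hn : ‖complexEmbedding (t : AlgebraicClosure ℚ)‖ = 1 :=
      Complex.norm_eq_one_of_pow_eq_one (by rw [← map_pow, hz, map_one]) (NeZero.ne p)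
    rw [complexEmbedding_complexConjugation, map_inv₀, Complex.inv_def,
      Complex.normSq_eq_norm_sq, hn]
    simp
  rw [h1]
  obtain ⟨m, hm⟩ := Nat.exists_eq_succ_of_ne_zero (NeZero.ne p)
  subst hm
  rw [Units.val_neg, Units.val_one, ZMod.val_neg_one]
  refine inv_eq_of_mul_eq_one_right ?_
  rw [← pow_succ']
  exact hz

/-- The invariants at the real place are the fixed vectors of complex conjugation. -/
theorem archimedean_invariants (M : Rep.{0} (ZMod p) Γℚ) :
    (Rep.res archimedeanLoc M).ρ.invariants = LinearMap.ker (M.ρ complexConjugation - 1) := by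
  ext a
  refine ⟨fun ha => LinearMap.mem_ker.mpr (sub_eq_zero.mpr (ha archimedeanGen)), fun ha g => ?_⟩
  rcases sq_archimedean_eq_one g with rfl | rfl
  · show M.ρ (archimedeanLoc 1) a = a
    rw [map_one, map_one]; rfl
  · exact sub_eq_zero.mp (LinearMap.mem_ker.mp ha)

theorem range_add_one_eq_ker (hp2 : p ≠ 2) {V : Type} [AddCommGroup V] [Module (ZMod p) V]
    (T : Module.End (ZMod p) V) (hT : T * T = 1) :
    LinearMap.range (T + 1) = LinearMap.ker (T - 1) := by
  ext a
  constructor
  · rintro ⟨b, rfl⟩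
    refine LinearMap.mem_ker.mpr ?_
    show T (T b + b) - (T b + b) = 0
    rw [map_add, show T (T b) = b from LinearMap.congr_fun hT b]
    abel
  · intro ha
    refine ⟨(2 : ZMod p)⁻¹ • a, ?_⟩
    have h : T a = a := sub_eq_zero.mp (LinearMap.mem_ker.mp ha)
    show T ((2 : ZMod p)⁻¹ • a) + (2 : ZMod p)⁻¹ • a = a
    rw [map_smul, h, ← add_smul, ← two_mul, mul_inv_cancel₀ (GaloisImage.two_ne_zero_of_ne_two hp2),
      one_smul]

theorem conj_sq (M : Rep.{0} (ZMod p) Γℚ) :
    M.ρ complexConjugation * M.ρ complexConjugation = 1 := by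
  rw [← map_mul, complexConjugation_mul_self, map_one]

/-- `h⁰_∞(M) + h⁰_∞(M') = dim M`. -/
theorem finrank_archimedean_add (hp2 : p ≠ 2) (M : Rep.{0} (ZMod p) Γℚ)
    [FiniteDimensional (ZMod p) M] :
    finrank (ZMod p) (Rep.res archimedeanLoc M).ρ.invariants
      + finrank (ZMod p) (Rep.res archimedeanLoc (M.dualTwist (cycloChar p))).ρ.invariants
      = finrank (ZMod p) M := by
  set T := M.ρ complexConjugation
  have hinv : M.ρ complexConjugation⁻¹ = T := by rw [complexConjugation_inv]
  have h2 : ((M.dualTwist (cycloChar p)).ρ complexConjugation - 1 :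
      Module.End (ZMod p) (Dual (ZMod p) M)) = -(T + 1).dualMap := by
    refine LinearMap.ext fun f => LinearMap.ext fun a => ?_
    show (cycloChar p complexConjugation : ZMod p)
        * (show Dual (ZMod p) M from f) (M.ρ complexConjugation⁻¹ a)
        - (show Dual (ZMod p) M from f) a = -((show Dual (ZMod p) M from f) (T a + a))
    rw [cycloChar_complexConjugation, hinv, map_add, Units.val_neg, Units.val_one]
    ring
  rw [archimedean_invariants, archimedean_invariants, ← range_add_one_eq_ker hp2 T (conj_sq M)]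
  have h3 : LinearMap.ker ((M.dualTwist (cycloChar p)).ρ complexConjugation - 1)
      = (LinearMap.range (T + 1)).dualAnnihilator := by
    rw [← LinearMap.ker_dualMap_eq_dualAnnihilator_range]
    ext f
    rw [LinearMap.mem_ker, LinearMap.mem_ker]
    exact (iff_of_eq (congrArg (fun u : Dual (ZMod p) M => u = 0) (LinearMap.congr_fun h2 f))).trans
      neg_eq_zero
  rw [h3]
  exact Subspace.finrank_add_finrank_dualAnnihilator_eq _

/-- `h⁰_∞` is additive, `p` being odd. -/
theorem finrank_archimedean_exact (hp2 : p ≠ 2) {A B C : Rep.{0} (ZMod p) Γℚ}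
    [FiniteDimensional (ZMod p) B] (ι : A →ₗ[ZMod p] B) (π : B →ₗ[ZMod p] C)
    (hι : ∀ (g : Γℚ) (a : A), ι (A.ρ g a) = B.ρ g (ι a))
    (hπ : ∀ (g : Γℚ) (b : B), π (B.ρ g b) = C.ρ g (π b))
    (hinj : Function.Injective ι) (hsurj : Function.Surjective π)
    (hex : ∀ b, π b = 0 ↔ ∃ a, ι a = b) :
    finrank (ZMod p) (Rep.res archimedeanLoc B).ρ.invariants
      = finrank (ZMod p) (Rep.res archimedeanLoc A).ρ.invariants
        + finrank (ZMod p) (Rep.res archimedeanLoc C).ρ.invariants := by
  rw [archimedean_invariants, archimedean_invariants, archimedean_invariants]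
  set c := complexConjugation
  let ι₀ : LinearMap.ker (A.ρ c - 1) →ₗ[ZMod p] LinearMap.ker (B.ρ c - 1) :=
    ι.restrict fun a ha => LinearMap.mem_ker.mpr (by
      show B.ρ c (ι a) - ι a = 0
      rw [← hι, ← map_sub, show A.ρ c a - a = 0 from LinearMap.mem_ker.mp ha, map_zero])
  let π₀ : LinearMap.ker (B.ρ c - 1) →ₗ[ZMod p] LinearMap.ker (C.ρ c - 1) :=
    π.restrict fun b hb => LinearMap.mem_ker.mpr (by
      show C.ρ c (π b) - π b = 0
      rw [← hπ, ← map_sub, show B.ρ c b - b = 0 from LinearMap.mem_ker.mp hb, map_zero])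
  have hs : Function.Surjective π₀ := fun x => by
    obtain ⟨b, hb⟩ := hsurj x.1
    have hc : C.ρ c x.1 = x.1 := sub_eq_zero.mp (LinearMap.mem_ker.mp x.2)
    have hm : (2 : ZMod p)⁻¹ • (B.ρ c b + b) ∈ LinearMap.ker (B.ρ c - 1) := by
      rw [← range_add_one_eq_ker hp2 _ (conj_sq B)]
      exact Submodule.smul_mem _ _ ⟨b, rfl⟩
    refine ⟨⟨_, hm⟩, Subtype.ext ?_⟩
    show π ((2 : ZMod p)⁻¹ • (B.ρ c b + b)) = x.1
    rw [map_smul, map_add, hπ, hb, hc, ← two_smul (ZMod p) x.1, smul_smul,
      inv_mul_cancel₀ (GaloisImage.two_ne_zero_of_ne_two hp2), one_smul]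
  have hk : LinearMap.ker π₀ = LinearMap.range ι₀ := by
    ext b
    constructor
    · intro hb
      obtain ⟨a, ha⟩ := (hex b.1).1 (congrArg Subtype.val hb)
      refine ⟨⟨a, LinearMap.mem_ker.mpr (hinj ?_)⟩, Subtype.ext ha⟩
      show ι (A.ρ c a - a) = ι 0
      rw [map_sub, hι, ha, map_zero]
      exact LinearMap.mem_ker.mp b.2
    · rintro ⟨a, rfl⟩
      exact Subtype.ext ((hex _).2 ⟨a.1, rfl⟩)
  have := π₀.finrank_range_add_finrank_ker
  rw [LinearMap.range_eq_top.mpr hs, finrank_top, hk, LinearMap.finrank_range_of_inj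
    (fun x y h => Subtype.ext (hinj (congrArg Subtype.val h)))] at this
  exact this.symm.trans (Nat.add_comm _ _)

end FLTAgent.GWEuler
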