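import Fermat.Agent.GWEuler.SLevelSeq

/-!
# Invariance under isomorphisms and double duals

Dimensions of invariants, `H¹_S` and `sha₁` are invariant under isomorphisms, and evaluation
`bidualTwist` identifies a module with its double dual twist.  Used in `SelfDual`.
-/

set_option autoImplicit false

noncomputable section

open CategoryTheory groupCohomology Module ExtCitation

namespace FLTAgent.GWEuler

local notation "Γℚ" => AlgebraicClosure ℚ ≃ₐ[ℚ] AlgebraicClosure ℚ

variable {p : ℕ} [Fact p.Prime] {S : Finset Nat.Primes}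

/-- Isomorphic representations have invariants of the same dimension. -/
theorem finrank_invariants_congr {k G : Type} [Field k] [Group G] {A B : Rep.{0} k G}
    (φ : A →ₗ[k] B) (hφ : ∀ (g : G) (a : A), φ (A.ρ g a) = B.ρ g (φ a))
    (hb : Function.Bijective φ) :
    finrank k A.ρ.invariants = finrank k B.ρ.invariants := by
  refine LinearEquiv.finrank_eq (LinearEquiv.ofBijective
    ((φ.comp A.ρ.invariants.subtype).codRestrict B.ρ.invariants fun a g => by
      show B.ρ g (φ a.1) = φ a.1
      rw [← hφ, a.2 g]) ⟨fun a b h => Subtype.ext (hb.1 (congrArg Subtype.val h)), fun b => ?_⟩)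
  obtain ⟨a, ha⟩ := hb.2 b.1
  exact ⟨⟨a, fun g => hb.1 (by rw [hφ, ha, b.2 g])⟩, Subtype.ext ha⟩

/-- A local class vanishes iff the cocycle is a local coboundary. -/
theorem locRes_eq_zero_iff {ι : Type} [Fintype ι] {L : ι → Type} [∀ v, Group (L v)]
    (loc : ∀ v, L v →* Γℚ) {A : Rep.{0} (ZMod p) Γℚ} (c : cocycles₁ A) (v : ι) :
    (locRes loc A v).hom ((H1π A).hom c) = 0 ↔
      ∃ a : A, ∀ g, A.ρ (loc v g) a - a = (c : Γℚ → A) (loc v g) := by
  have h : (locRes loc A v).hom ((H1π A).hom c) = _ :=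
    H1π_comp_map_apply (loc v) (𝟙 (Rep.res (loc v) A)) c
  rw [h, H1π_eq_zero_iff]
  constructor
  · rintro ⟨a, ha⟩
    exact ⟨a, fun g => by
      have := congrFun ha g
      rw [d₀₁_hom_apply] at this
      exact this⟩
  · rintro ⟨a, ha⟩
    exact ⟨a, funext fun g => by rw [d₀₁_hom_apply]; exact ha g⟩

variable {A B : Rep.{0} (ZMod p) Γℚ} (φ : A →ₗ[ZMod p] B)
  (hφ : ∀ (g : Γℚ) (a : A), φ (A.ρ g a) = B.ρ g (φ a)) (hb : Function.Bijective φ)
include hφ hb

theorem mapHS₁_injective : Function.Injective (mapHS₁ (S := S) φ hφ) := by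
  refine (injective_iff_map_eq_zero _).mpr fun x hx => ?_
  obtain ⟨x, rfl⟩ := clsS₁_surjective A x
  rw [mapHS₁_cls, clsS₁_eq_zero_iff] at hx
  obtain ⟨b, hb'⟩ := hx
  obtain ⟨a, rfl⟩ := hb.2 b
  rw [d₀₁_comp' φ hφ] at hb'
  exact clsS₁_eq_zero_iff.2 ⟨a, funext fun g => hb.1 (congrFun hb' g)⟩

theorem inverse_equiv (g : Γℚ) (b : B) :
    (LinearEquiv.ofBijective φ hb).symm.toLinearMap (B.ρ g b)
      = A.ρ g ((LinearEquiv.ofBijective φ hb).symm.toLinearMap b) := by
  refine hb.1 ?_
  show φ ((LinearEquiv.ofBijective φ hb).symm _) = φ (A.ρ g ((LinearEquiv.ofBijective φ hb).symm b))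
  rw [hφ]
  exact ((LinearEquiv.ofBijective φ hb).apply_symm_apply _).trans
    (congrArg (B.ρ g) ((LinearEquiv.ofBijective φ hb).apply_symm_apply b)).symm

theorem finrank_continuousH1S_congr [Module.Finite (ZMod p) (continuousH1S S A)]
    [Module.Finite (ZMod p) (continuousH1S S B)] :
    finrank (ZMod p) (continuousH1S S A) = finrank (ZMod p) (continuousH1S S B) :=
  le_antisymm (LinearMap.finrank_le_finrank_of_injective (mapHS₁_injective φ hφ hb))
    (LinearMap.finrank_le_finrank_of_injective (mapHS₁_injective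
      (LinearEquiv.ofBijective φ hb).symm.toLinearMap (inverse_equiv φ hφ hb)
      (LinearEquiv.ofBijective φ hb).symm.bijective))

theorem finrank_sha₁_le [Module.Finite (ZMod p) (continuousH1S S B)] :
    finrank (ZMod p) (sha₁ S A) ≤ finrank (ZMod p) (sha₁ S B) := by
  have : Module.Finite (ZMod p) (sha₁ S B) := Submodule.finiteDimensional_of_le inf_le_left
  let f : sha₁ S A →ₗ[ZMod p] sha₁ S B :=
    ((continuousH1S S B).subtype.comp
      ((mapHS₁ (S := S) φ hφ).comp (Submodule.inclusion inf_le_left))).codRestrict _ fun x => by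
      obtain ⟨y, hy, hy0⟩ := x
      obtain ⟨c, hc, rfl⟩ := (mem_continuousH1S_iff S A y).1 hy
      refine ⟨(mapHS₁ (S := S) φ hφ _).2, LinearMap.mem_ker.mpr (funext fun v => ?_)⟩
      have hloc := congrFun (LinearMap.mem_ker.mp hy0) v
      obtain ⟨a, ha⟩ := (locRes_eq_zero_iff (extArithLoc S) c v).1 hloc
      show (locRes (extArithLoc S) B v).hom
        ((mapHS₁ (S := S) φ hφ (clsS₁ S A ⟨c, hc⟩) : continuousH1S S B) : H1 B) = 0
      rw [mapHS₁_cls]
      refine (locRes_eq_zero_iff (extArithLoc S) _ v).2 ⟨φ a, fun g => ?_⟩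
      show B.ρ _ (φ a) - φ a = φ ((c : Γℚ → A) _)
      rw [← hφ, ← map_sub, ha g]
  exact LinearMap.finrank_le_finrank_of_injective (f := f) fun x y hxy =>
    Subtype.ext (congrArg (fun u : continuousH1S S A => u.1)
      (mapHS₁_injective φ hφ hb (Subtype.ext (congrArg (fun u : sha₁ S B => u.1) hxy) :
        mapHS₁ (S := S) φ hφ (Submodule.inclusion inf_le_left x)
          = mapHS₁ (S := S) φ hφ (Submodule.inclusion inf_le_left y))))

theorem finrank_sha₁_congr [Module.Finite (ZMod p) (continuousH1S S A)]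
    [Module.Finite (ZMod p) (continuousH1S S B)] :
    finrank (ZMod p) (sha₁ S A) = finrank (ZMod p) (sha₁ S B) :=
  le_antisymm (finrank_sha₁_le φ hφ hb)
    (finrank_sha₁_le (LinearEquiv.ofBijective φ hb).symm.toLinearMap (inverse_equiv φ hφ hb)
      (LinearEquiv.ofBijective φ hb).symm.bijective)

theorem finrank_res_invariants_congr {H : Type} [Group H] (f : H →* Γℚ) :
    finrank (ZMod p) (Rep.res f A).ρ.invariants = finrank (ZMod p) (Rep.res f B).ρ.invariants :=
  finrank_invariants_congr (A := Rep.res f A) (B := Rep.res f B) φ (fun g a => hφ (f g) a) hb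

omit hφ hb

/-- The evaluation map into the double dual twist. -/
def bidualTwist (M : Rep.{0} (ZMod p) Γℚ) :
    M →ₗ[ZMod p] (M.dualTwist (cycloChar p)).dualTwist (cycloChar p) :=
  Dual.eval (ZMod p) M

theorem bidualTwist_equiv (M : Rep.{0} (ZMod p) Γℚ) (g : Γℚ) (a : M) :
    bidualTwist M (M.ρ g a)
      = ((M.dualTwist (cycloChar p)).dualTwist (cycloChar p)).ρ g (bidualTwist M a) :=
  LinearMap.ext fun f => by
    show (show Dual (ZMod p) M from f) (M.ρ g a)
      = (cycloChar p g : ZMod p) *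
          (((cycloChar p g⁻¹ : (ZMod p)ˣ) : ZMod p) * (show Dual (ZMod p) M from f) (M.ρ (g⁻¹)⁻¹ a))
    rw [inv_inv, map_inv, ← mul_assoc, Units.mul_inv, one_mul]

theorem bidualTwist_bijective (M : Rep.{0} (ZMod p) Γℚ) [FiniteDimensional (ZMod p) M] :
    Function.Bijective (bidualTwist M) :=
  (evalEquiv (ZMod p) M).bijective

end FLTAgent.GWEuler
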