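import Fermat.Agent.GWEuler.ModuleLevel
import Fermat.Agent.LocalDuality.Cochain
import Fermat.Agent.LocalDuality.Classes
import Fermat.Agent.Density.Inertia

/-!
# The cohomology sequence with levels unramified outside `S`

The long exact sequence in low degrees with level conditions; for a short exact sequence
`h¹ - h⁰ - h²` is superadditive (`superadditive`).  Used for the additivity of the defect.
-/

set_option autoImplicit false
set_option linter.unusedSectionVars false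

noncomputable section

open CategoryTheory groupCohomology Module
open scoped Pointwise

namespace FLTAgent.GWEuler

open FLTAgent.Density

local notation "Γℚ" => AlgebraicClosure ℚ ≃ₐ[ℚ] AlgebraicClosure ℚ

variable {p : ℕ} [Fact p.Prime] {S : Finset Nat.Primes}

/-- A level unramified outside `S` is contained in a Galois one. -/
theorem exists_normal_S_level {F : IntermediateField ℚ (AlgebraicClosure ℚ)}
    (hF : F.IsUnramifiedOutside S) :
    ∃ E : IntermediateField ℚ (AlgebraicClosure ℚ), E.IsUnramifiedOutside S ∧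
      E.fixingSubgroup ≤ F.fixingSubgroup ∧ E.fixingSubgroup.Normal := by
  have := hF.1
  let F' := IntermediateField.normalClosure ℚ F (AlgebraicClosure ℚ)
  have : Algebra.IsAlgebraic ℚ (AlgebraicClosure ℚ) := AlgebraicClosure.isAlgebraic ℚ
  have : IsAlgClosure ℚ (AlgebraicClosure ℚ) := ⟨inferInstance, inferInstance⟩
  have : Normal ℚ (AlgebraicClosure ℚ) := IsAlgClosure.normal ℚ (AlgebraicClosure ℚ)
  have : Normal ℚ F' := normalClosure.normal ℚ F (AlgebraicClosure ℚ)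
  have : F'.fixingSubgroup.Normal := by
    rw [← IntermediateField.restrictNormalHom_ker]
    exact MonoidHom.normal_ker _
  obtain ⟨E, hE, hEK⟩ := exists_field_of_le (S := S) F.fixingSubgroup.normalCore (F := F')
    inferInstance
    (Subgroup.normal_le_normalCore.mpr
      (IntermediateField.fixingSubgroup_antitone F.le_normalClosure))
    (fun q hq A hA σ hσ τ => hF.2 q hq _ (smul_liesOverPrime τ hA)
      (mem_inertiaSubgroupIn_smul hσ τ))
  exact ⟨E, hE, hEK ▸ Subgroup.normalCore_le _, hEK ▸ Subgroup.normalCore_normal _⟩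

theorem isLevelConstantS₂_d₁₂ {A : Rep.{0} (ZMod p) Γℚ} (hA : SLevel S A) {f : Γℚ → A}
    (hf : IsLevelConstantS₁ S f) : IsLevelConstantS₂ S ((d₁₂ A).hom f) := by
  obtain ⟨F₁, hF₁, h₁⟩ := hA
  obtain ⟨F₂, hF₂, h₂⟩ := hf
  obtain ⟨E, hE, hle, hn⟩ := exists_normal_S_level (hF₁.sup hF₂)
  refine ⟨E, hE, fun g g' s s' hs hs' => ?_⟩
  have hle₁ : E.fixingSubgroup ≤ F₁.fixingSubgroup :=
    hle.trans (IntermediateField.fixingSubgroup_antitone le_sup_left)
  have hle₂ : E.fixingSubgroup ≤ F₂.fixingSubgroup :=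
    hle.trans (IntermediateField.fixingSubgroup_antitone le_sup_right)
  have hA1 : A.ρ (g * s) = A.ρ g := by rw [map_mul, h₁ s (hle₁ hs), mul_one]
  have hc : g'⁻¹ * s * g' ∈ E.fixingSubgroup := by simpa using hn.conj_mem s hs g'⁻¹
  have hp : g * s * (g' * s') = (g * g') * (g'⁻¹ * s * g' * s') := by group
  rw [LocalDuality.d₁₂_apply, LocalDuality.d₁₂_apply, hA1, h₂ g' s' (hle₂ hs'), h₂ g s (hle₂ hs),
    hp, h₂ _ _ (hle₂ (mul_mem hc hs'))]

theorem isLevelConstantS₁_d₀₁ {A : Rep.{0} (ZMod p) Γℚ} (hA : SLevel S A) (a : A) :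
    IsLevelConstantS₁ S ((d₀₁ A).hom a) := by
  obtain ⟨F, hF, h⟩ := hA
  refine ⟨F, hF, fun g s hs => ?_⟩
  simp [map_mul, h s hs]

variable (S) in
/-- The class of a one-cocycle with level unramified outside `S`. -/
def clsS₁ (A : Rep.{0} (ZMod p) Γℚ) : levelCocyclesS₁ S A →ₗ[ZMod p] continuousH1S S A :=
  ((H1π A).hom.comp (levelCocyclesS₁ S A).subtype).codRestrict _ fun c =>
    Submodule.mem_map_of_mem c.2

theorem clsS₁_surjective (A : Rep.{0} (ZMod p) Γℚ) : Function.Surjective (clsS₁ S A) := by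
  rintro ⟨_, c, hc, rfl⟩
  exact ⟨⟨c, hc⟩, rfl⟩

theorem clsS₁_eq_zero_iff {A : Rep.{0} (ZMod p) Γℚ} {c : levelCocyclesS₁ S A} :
    clsS₁ S A c = 0 ↔ ∃ a : A, (d₀₁ A).hom a = (c.1 : Γℚ → A) := by
  rw [Subtype.ext_iff]
  exact H1π_eq_zero_iff c.1

section Functorial

variable {A B : Rep.{0} (ZMod p) Γℚ} (φ : A →ₗ[ZMod p] B)
  (hφ : ∀ (g : Γℚ) (a : A), φ (A.ρ g a) = B.ρ g (φ a))
include hφ

theorem comp_mem_cocycles₁ {f : Γℚ → A} (hf : f ∈ cocycles₁ A) : φ ∘ f ∈ cocycles₁ B := by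
  rw [mem_cocycles₁_iff] at hf ⊢
  intro g h
  simp [hf g h, hφ]

/-- Functoriality on cocycles. -/
def mapZS₁ : levelCocyclesS₁ S A →ₗ[ZMod p] levelCocyclesS₁ S B where
  toFun c := ⟨⟨φ ∘ (c.1 : Γℚ → A), comp_mem_cocycles₁ φ hφ c.1.2⟩,
    IsLevelConstantS₁.comp (show IsLevelConstantS₁ S (c.1 : Γℚ → A) from c.2) φ⟩
  map_add' _ _ := Subtype.ext (Subtype.ext (funext fun _ => map_add φ _ _))
  map_smul' _ _ := Subtype.ext (Subtype.ext (funext fun _ => map_smul φ _ _))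

theorem d₀₁_comp' (a : A) : (d₀₁ B).hom (φ a) = φ ∘ (d₀₁ A).hom a :=
  funext fun g => by simp [hφ]

theorem d₁₂_comp' (f : Γℚ → A) : (d₁₂ B).hom (φ ∘ f) = φ ∘ (d₁₂ A).hom f :=
  funext fun ⟨g, h⟩ => by simp [hφ]

/-- Functoriality in degree one. -/
def mapHS₁ : continuousH1S S A →ₗ[ZMod p] continuousH1S S B :=
  LocalDuality.descendLin (V := levelCocyclesS₁ S A) (W := continuousH1S S A) (clsS₁ S A)
    (clsS₁_surjective A) (clsS₁ S B ∘ₗ mapZS₁ φ hφ) fun c hc => by
    obtain ⟨a, ha⟩ := clsS₁_eq_zero_iff.1 hc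
    rw [LinearMap.comp_apply, clsS₁_eq_zero_iff]
    exact ⟨φ a, by rw [d₀₁_comp' φ hφ, ha]; rfl⟩

theorem mapHS₁_cls (c : levelCocyclesS₁ S A) :
    mapHS₁ φ hφ (clsS₁ S A c) = clsS₁ S B (mapZS₁ φ hφ c) :=
  LocalDuality.descendLin_apply (V := levelCocyclesS₁ S A) (W := continuousH1S S A) _ _ _ _ c

/-- Functoriality in degree two. -/
def mapHS₂ : continuousH2S S A →ₗ[ZMod p] continuousH2S S B :=
  Submodule.mapQ _ _
    ((φ.compLeft (Γℚ × Γℚ)).restrict fun f hf => by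
      obtain ⟨h1, h2⟩ := (mem_levelCocyclesS₂_iff S A f).1 hf
      refine (mem_levelCocyclesS₂_iff S B _).2 ⟨?_, h2.comp φ⟩
      rw [mem_cocycles₂_iff] at h1 ⊢
      intro g h j
      simp only [LinearMap.compLeft_apply, Function.comp_apply, ← hφ, ← map_add, h1 g h j])
    fun c hc => by
      simp only [Submodule.mem_comap, Submodule.subtype_apply] at hc ⊢
      obtain ⟨x, hx, hxc⟩ := (mem_levelCoboundariesS₂_iff S A _).1 hc
      exact (mem_levelCoboundariesS₂_iff S B _).2 ⟨φ ∘ x, hx.comp φ, by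
        rw [d₁₂_comp' φ hφ, hxc]; rfl⟩

end Functorial

variable {A B C : Rep.{0} (ZMod p) Γℚ} (ι : A →ₗ[ZMod p] B) (π : B →ₗ[ZMod p] C)
  (hι : ∀ (g : Γℚ) (a : A), ι (A.ρ g a) = B.ρ g (ι a))
  (hπ : ∀ (g : Γℚ) (b : B), π (B.ρ g b) = C.ρ g (π b))
  (hinj : Function.Injective ι) (hsurj : Function.Surjective π)
  (hex : ∀ b, π b = 0 ↔ ∃ a, ι a = b) (hB : SLevel S B)

include hι hπ hinj hsurj hex hB

/-- The connecting map out of the invariants and the kernel of `H¹(A) → H¹(B)`. -/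
theorem exists_delta₀ :
    ∃ δ₀ : C.ρ.invariants →ₗ[ZMod p] continuousH1S S A,
      LinearMap.ker (mapHS₁ (S := S) ι hι) ≤ LinearMap.range δ₀ ∧
      ∀ c : C.ρ.invariants, (∃ b ∈ B.ρ.invariants, π b = c.1) → δ₀ c = 0 := by
  obtain ⟨s, hs⟩ := π.exists_rightInverse_of_surjective (LinearMap.range_eq_top.mpr hsurj)
  obtain ⟨t, ht⟩ := ι.exists_leftInverse_of_injective (LinearMap.ker_eq_bot.mpr hinj)
  have hs' : ∀ c, π (s c) = c := fun c => LinearMap.congr_fun hs c
  have ht' : ∀ a, t (ι a) = a := fun a => LinearMap.congr_fun ht a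
  have hιt : ∀ {b}, π b = 0 → ι (t b) = b := fun {b} hb => by
    obtain ⟨a, rfl⟩ := (hex b).1 hb
    rw [ht']
  have hπι : ∀ a, π (ι a) = 0 := fun a => (hex _).2 ⟨a, rfl⟩
  have hdδ : ∀ (c : C) (g : Γℚ), C.ρ g c = c → π ((d₀₁ B).hom (s c) g) = 0 := fun c g hc => by
    rw [LocalDuality.d₀₁_apply, map_sub, hπ, hs', hc, sub_self]
  -- `δ₀`
  have hδ0mem : ∀ c : C.ρ.invariants, t ∘ (d₀₁ B).hom (s c.1) ∈ cocycles₁ A := fun c => by
    rw [mem_cocycles₁_iff]
    intro g h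
    apply hinj
    have hc := (mem_cocycles₁_iff _).mp (LocalDuality.d₀₁_mem_cocycles₁ (A := B) (s c.1)) g h
    rw [map_add, hι, Function.comp_apply, Function.comp_apply, Function.comp_apply,
      hιt (hdδ _ _ (c.2 _)), hιt (hdδ _ _ (c.2 _)), hιt (hdδ _ _ (c.2 _))]
    exact hc
  let δ₀Z : C.ρ.invariants →ₗ[ZMod p] levelCocyclesS₁ S A :=
      { toFun := fun c => ⟨⟨t ∘ (d₀₁ B).hom (s c.1), hδ0mem c⟩,
          IsLevelConstantS₁.comp (isLevelConstantS₁_d₀₁ hB (s c.1)) t⟩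
        map_add' := fun c c' => Subtype.ext (Subtype.ext (funext fun g => by
          show t ((d₀₁ B).hom (s (c.1 + c'.1)) g) = _ + _
          rw [map_add, map_add, Pi.add_apply, map_add]; rfl))
        map_smul' := fun a c => Subtype.ext (Subtype.ext (funext fun g => by
          show t ((d₀₁ B).hom (s (a • c.1)) g) = _
          rw [map_smul, map_smul, Pi.smul_apply, map_smul]; rfl)) }
  let δ₀ : C.ρ.invariants →ₗ[ZMod p] continuousH1S S A := (clsS₁ S A).comp δ₀Z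
  refine ⟨δ₀, ?_, ?_⟩
  rotate_left
  · rintro ⟨c, hc⟩ ⟨b, hb0, hbc⟩
    obtain rfl : π b = c := hbc
    refine clsS₁_eq_zero_iff.2 ⟨t (s (π b) - b), funext fun g => hinj ?_⟩
    have hb : π (s (π b) - b) = 0 := by rw [map_sub, hs', sub_self]
    have hg : C.ρ g (π b) = π b := hc g
    show ι ((d₀₁ A).hom _ g) = ι (t ((d₀₁ B).hom (s (π b)) g))
    rw [hιt (hdδ _ _ hg), LocalDuality.d₀₁_apply, LocalDuality.d₀₁_apply, map_sub, hι, hιt hb,
      map_sub, hb0 g]
    abel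
  · intro x hx
    obtain ⟨x, rfl⟩ := clsS₁_surjective A x
    rw [LinearMap.mem_ker, mapHS₁_cls, clsS₁_eq_zero_iff] at hx
    obtain ⟨b, hb⟩ := hx
    have hc : π b ∈ C.ρ.invariants := fun g => by
      have h1 := congrArg π (congrFun hb g)
      rw [LocalDuality.d₀₁_apply, map_sub, hπ] at h1
      exact sub_eq_zero.mp (h1.trans (hπι _))
    refine ⟨⟨π b, hc⟩, ?_⟩
    rw [← sub_eq_zero]
    show clsS₁ S A _ - clsS₁ S A x = 0
    rw [← map_sub, clsS₁_eq_zero_iff]
    have hb0 : π (s (π b) - b) = 0 := by rw [map_sub, hs', sub_self]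
    refine ⟨t (s (π b) - b), funext fun g => hinj ?_⟩
    show ι ((d₀₁ A).hom _ g) = ι (t ((d₀₁ B).hom (s (π b)) g) - (x.1 : Γℚ → A) g)
    have hb' := congrFun hb g
    rw [LocalDuality.d₀₁_apply] at hb'
    have hb'' : B.ρ g b - b = ι ((x.1 : Γℚ → A) g) := hb'
    rw [map_sub ι, hιt (hdδ _ _ (hc g)), LocalDuality.d₀₁_apply, LocalDuality.d₀₁_apply, map_sub ι,
      hι, hιt hb0, map_sub, ← hb'']
    abel

/-- `H¹(A) → H¹(B) → H¹(C)` is a complex. -/
theorem mapHS₁_comp_le :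
    LinearMap.range (mapHS₁ (S := S) ι hι) ≤ LinearMap.ker (mapHS₁ (S := S) π hπ) := by
  have hπι : ∀ a, π (ι a) = 0 := fun a => (hex _).2 ⟨a, rfl⟩
  rintro _ ⟨x, rfl⟩
  obtain ⟨x, rfl⟩ := clsS₁_surjective A x
  rw [LinearMap.mem_ker, mapHS₁_cls, mapHS₁_cls, clsS₁_eq_zero_iff]
  exact ⟨0, funext fun g => by rw [map_zero]; exact (hπι _).symm⟩

/-- The connecting map `H¹(C) → H²(A)`. -/
theorem exists_delta₁ :
    ∃ δ₁ : continuousH1S S C →ₗ[ZMod p] continuousH2S S A,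
      LinearMap.ker δ₁ ≤ LinearMap.range (mapHS₁ (S := S) π hπ) ∧
      LinearMap.range δ₁ ≤ LinearMap.ker (mapHS₂ (S := S) ι hι) := by
  obtain ⟨s, hs⟩ := π.exists_rightInverse_of_surjective (LinearMap.range_eq_top.mpr hsurj)
  obtain ⟨t, ht⟩ := ι.exists_leftInverse_of_injective (LinearMap.ker_eq_bot.mpr hinj)
  have hs' : ∀ c, π (s c) = c := fun c => LinearMap.congr_fun hs c
  have ht' : ∀ a, t (ι a) = a := fun a => LinearMap.congr_fun ht a
  have hιt : ∀ {b}, π b = 0 → ι (t b) = b := fun {b} hb => by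
    obtain ⟨a, rfl⟩ := (hex b).1 hb
    rw [ht']
  have hπι : ∀ a, π (ι a) = 0 := fun a => (hex _).2 ⟨a, rfl⟩
  have hdy : ∀ (y : Γℚ → C), y ∈ cocycles₁ C → ∀ gh, π ((d₁₂ B).hom (s ∘ y) gh) = 0 :=
    fun y hy gh => by
      obtain ⟨g, h⟩ := gh
      rw [LocalDuality.d₁₂_apply]
      simp only [Function.comp_apply, map_add, map_sub, hπ, hs']
      exact (mem_cocycles₁_def y).1 hy g h
  have hδ1mem : ∀ y : levelCocyclesS₁ S C,
      t ∘ (d₁₂ B).hom (s ∘ (y.1 : Γℚ → C)) ∈ levelCocyclesS₂ S A := fun y => by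
    refine (mem_levelCocyclesS₂_iff S A _).2 ⟨?_,
      IsLevelConstantS₂.comp (isLevelConstantS₂_d₁₂ hB (IsLevelConstantS₁.comp
        (show IsLevelConstantS₁ S (y.1 : Γℚ → C) from y.2) s)) t⟩
    rw [mem_cocycles₂_iff]
    intro g h j
    apply hinj
    have e := fun gh => hιt (hdy (y.1 : Γℚ → C) y.1.2 gh)
    simp only [Function.comp_apply, map_add, hι]
    rw [e, e, e, e]
    exact (mem_cocycles₂_iff _).1 (d₁₂_apply_mem_cocycles₂ _) g h j
  let δ₁Z : levelCocyclesS₁ S C →ₗ[ZMod p] levelCocyclesS₂ S A :=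
      { toFun := fun y => ⟨t ∘ (d₁₂ B).hom (s ∘ (y.1 : Γℚ → C)), hδ1mem y⟩
        map_add' := fun y y' => Subtype.ext (funext fun gh => by
          show t ((d₁₂ B).hom (fun g => s ((y.1 : Γℚ → C) g + (y'.1 : Γℚ → C) g)) gh) = _ + _
          rw [show (fun g => s ((y.1 : Γℚ → C) g + (y'.1 : Γℚ → C) g))
            = s ∘ (y.1 : Γℚ → C) + s ∘ (y'.1 : Γℚ → C) from funext fun g => map_add s _ _,
            map_add, Pi.add_apply, map_add]
          rfl)
        map_smul' := fun a y => Subtype.ext (funext fun gh => by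
          show t ((d₁₂ B).hom (fun g => s (a • (y.1 : Γℚ → C) g)) gh) = _
          rw [show (fun g => s (a • (y.1 : Γℚ → C) g)) = a • (s ∘ (y.1 : Γℚ → C)) from
            funext fun g => map_smul s _ _, map_smul, Pi.smul_apply, map_smul]
          rfl) }
  let δZ : levelCocyclesS₁ S C →ₗ[ZMod p] continuousH2S S A := (continuousH2Sπ S A).comp δ₁Z
  have hδwd : ∀ y, clsS₁ S C y = 0 → δZ y = 0 := fun y hy => by
    obtain ⟨c, hc⟩ := clsS₁_eq_zero_iff.1 hy
    refine (continuousH2Sπ_eq_zero_iff S A _).2 ((mem_levelCoboundariesS₂_iff S A _).2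
      ⟨t ∘ (s ∘ (y.1 : Γℚ → C) - (d₀₁ B).hom (s c)),
        ((IsLevelConstantS₁.comp (show IsLevelConstantS₁ S (y.1 : Γℚ → C) from y.2) s).add
          ((isLevelConstantS₁_d₀₁ hB (s c)).comp Neg.neg) |> fun h => by
            simpa [sub_eq_add_neg, Function.comp_def] using h.comp t), funext fun gh => ?_⟩)
    obtain ⟨g, h⟩ := gh
    have hw : ∀ x, π ((s ∘ (y.1 : Γℚ → C) - (d₀₁ B).hom (s c)) x) = 0 := fun x => by
      have e1 : π ((d₀₁ B).hom (s c) x) = (d₀₁ C).hom c x := by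
        rw [LocalDuality.d₀₁_apply, LocalDuality.d₀₁_apply, map_sub, hπ, hs']
      rw [Pi.sub_apply, map_sub, Function.comp_apply, hs', e1, congrFun hc x]
      exact sub_self _
    apply hinj
    show ι ((d₁₂ A).hom _ (g, h)) = ι (t ((d₁₂ B).hom (s ∘ (y.1 : Γℚ → C)) (g, h)))
    rw [hιt (hdy (y.1 : Γℚ → C) y.1.2 _), LocalDuality.d₁₂_apply, LocalDuality.d₁₂_apply]
    simp only [map_add, map_sub, hι, Function.comp_apply, hιt (hw _)]
    simp only [Pi.sub_apply, Function.comp_apply, d₀₁_hom_apply, map_sub, map_mul,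
      Module.End.mul_apply]
    abel
  let δ₁ : continuousH1S S C →ₗ[ZMod p] continuousH2S S A :=
    LocalDuality.descendLin (V := levelCocyclesS₁ S C) (W := continuousH1S S C) (clsS₁ S C)
      (clsS₁_surjective C) δZ hδwd
  have hδ₁ : ∀ y, δ₁ (clsS₁ S C y) = δZ y :=
    LocalDuality.descendLin_apply (V := levelCocyclesS₁ S C) (W := continuousH1S S C) _ _ _ _
  have hkerδ : LinearMap.ker δ₁ ≤ LinearMap.range (mapHS₁ (S := S) π hπ) := by
    intro y hy
    obtain ⟨y, rfl⟩ := clsS₁_surjective C y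
    rw [LinearMap.mem_ker, hδ₁] at hy
    obtain ⟨w, hw, hwd⟩ := (mem_levelCoboundariesS₂_iff S A _).1
      ((continuousH2Sπ_eq_zero_iff S A _).1 hy)
    have hb : (fun g => s ((y.1 : Γℚ → C) g) - ι (w g)) ∈ cocycles₁ B := by
      rw [mem_cocycles₁_def]
      intro g h
      have h1 := congrArg ι (congrFun hwd (g, h))
      change ι ((d₁₂ A).hom w (g, h)) = ι (t ((d₁₂ B).hom (s ∘ (y.1 : Γℚ → C)) (g, h))) at h1
      rw [hιt (hdy (y.1 : Γℚ → C) y.1.2 _), LocalDuality.d₁₂_apply, LocalDuality.d₁₂_apply] at h1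
      simp only [map_add, map_sub, hι, Function.comp_apply] at h1 ⊢
      linear_combination (norm := abel) -h1
    refine ⟨clsS₁ S B ⟨⟨_, hb⟩, ?_⟩, ?_⟩
    · have hl := ((IsLevelConstantS₁.comp (show IsLevelConstantS₁ S (y.1 : Γℚ → C) from y.2) s).add
        ((hw.comp ι).comp Neg.neg))
      show IsLevelConstantS₁ S _
      simpa [sub_eq_add_neg, Function.comp_def, Pi.add_def] using hl
    · rw [mapHS₁_cls]
      refine congrArg _ (Subtype.ext (Subtype.ext (funext fun g => ?_)))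
      show π (s ((y.1 : Γℚ → C) g) - ι (w g)) = _
      rw [map_sub, hs', hπι, sub_zero]
      rfl
  have hδι₂ : LinearMap.range δ₁ ≤ LinearMap.ker (mapHS₂ (S := S) ι hι) := by
    rintro _ ⟨y, rfl⟩
    obtain ⟨y, rfl⟩ := clsS₁_surjective C y
    rw [LinearMap.mem_ker, hδ₁]
    refine (continuousH2Sπ_eq_zero_iff S B _).2 ((mem_levelCoboundariesS₂_iff S B _).2
      ⟨s ∘ (y.1 : Γℚ → C),
        IsLevelConstantS₁.comp (show IsLevelConstantS₁ S (y.1 : Γℚ → C) from y.2) s,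
        funext fun gh => ?_⟩)
    exact (hιt (hdy (y.1 : Γℚ → C) y.1.2 gh)).symm
  exact ⟨δ₁, hkerδ, hδι₂⟩

/-- Exactness at `H²(B)`. -/
theorem ker_mapHS₂_le :
    LinearMap.ker (mapHS₂ (S := S) π hπ) ≤ LinearMap.range (mapHS₂ (S := S) ι hι) := by
  obtain ⟨s, hs⟩ := π.exists_rightInverse_of_surjective (LinearMap.range_eq_top.mpr hsurj)
  obtain ⟨t, ht⟩ := ι.exists_leftInverse_of_injective (LinearMap.ker_eq_bot.mpr hinj)
  have hs' : ∀ c, π (s c) = c := fun c => LinearMap.congr_fun hs c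
  have ht' : ∀ a, t (ι a) = a := fun a => LinearMap.congr_fun ht a
  have hιt : ∀ {b}, π b = 0 → ι (t b) = b := fun {b} hb => by
    obtain ⟨a, rfl⟩ := (hex b).1 hb
    rw [ht']
  have hπι : ∀ a, π (ι a) = 0 := fun a => (hex _).2 ⟨a, rfl⟩
  intro z hz
  induction z using Submodule.Quotient.induction_on with
  | _ z =>
    obtain ⟨w, hw, hwd⟩ := (mem_levelCoboundariesS₂_iff S C _).1
      ((continuousH2Sπ_eq_zero_iff S C _).1 hz)
    have hker : ∀ gh, π ((z.1 - (d₁₂ B).hom (s ∘ w)) gh) = 0 := fun gh => by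
      rw [Pi.sub_apply, map_sub,
        show π ((d₁₂ B).hom (s ∘ w) gh) = (d₁₂ C).hom (π ∘ (s ∘ w)) gh from
          (congrFun (d₁₂_comp' π hπ _) gh).symm,
        show π ∘ (s ∘ w) = w from funext fun g => hs' _, hwd]
      exact sub_self _
    have hzB := (mem_levelCocyclesS₂_iff S B z.1).1 z.2
    have hmem : t ∘ (z.1 - (d₁₂ B).hom (s ∘ w)) ∈ levelCocyclesS₂ S A := by
      refine (mem_levelCocyclesS₂_iff S A _).2 ⟨?_, IsLevelConstantS₂.comp ?_ t⟩
      · rw [mem_cocycles₂_iff]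
        intro g h j
        apply hinj
        have e := fun gh => hιt (hker gh)
        simp only [Function.comp_apply, map_add, hι]
        rw [e, e, e, e]
        exact (mem_cocycles₂_iff _).1 (Submodule.sub_mem _ hzB.1 (d₁₂_apply_mem_cocycles₂ _)) g h j
      · have hl := hzB.2.add ((isLevelConstantS₂_d₁₂ hB (hw.comp s)).comp Neg.neg)
        simpa [sub_eq_add_neg, Function.comp_def, Pi.add_def] using hl
    refine ⟨continuousH2Sπ S A ⟨_, hmem⟩, (Submodule.Quotient.eq _).2 ?_⟩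
    refine (mem_levelCoboundariesS₂_iff S B _).2 ⟨fun g => - s (w g),
      (hw.comp s).comp Neg.neg, funext fun gh => ?_⟩
    show (d₁₂ B).hom (-(s ∘ w)) gh = ι (t ((z.1 - (d₁₂ B).hom (s ∘ w)) gh)) - z.1 gh
    rw [map_neg, Pi.neg_apply, hιt (hker gh), Pi.sub_apply]
    abel

/-- **Superadditivity** of `h¹ - h⁰ - h²` for levels unramified outside `S`. -/
theorem superadditive [FiniteDimensional (ZMod p) A] [FiniteDimensional (ZMod p) B]
    [FiniteDimensional (ZMod p) C] [Module.Finite (ZMod p) (continuousH1S S A)]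
    [Module.Finite (ZMod p) (continuousH1S S B)] [Module.Finite (ZMod p) (continuousH1S S C)]
    [Module.Finite (ZMod p) (continuousH2S S A)] [Module.Finite (ZMod p) (continuousH2S S B)]
    [Module.Finite (ZMod p) (continuousH2S S C)] :
    (finrank (ZMod p) (continuousH1S S A) : ℤ) - finrank (ZMod p) A.ρ.invariants
        - finrank (ZMod p) (continuousH2S S A)
      + ((finrank (ZMod p) (continuousH1S S C) : ℤ) - finrank (ZMod p) C.ρ.invariants
        - finrank (ZMod p) (continuousH2S S C))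
      ≤ (finrank (ZMod p) (continuousH1S S B) : ℤ) - finrank (ZMod p) B.ρ.invariants
        - finrank (ZMod p) (continuousH2S S B) := by
  obtain ⟨t, ht⟩ := ι.exists_leftInverse_of_injective (LinearMap.ker_eq_bot.mpr hinj)
  have ht' : ∀ a, t (ι a) = a := fun a => LinearMap.congr_fun ht a
  have hιt : ∀ {b}, π b = 0 → ι (t b) = b := fun {b} hb => by
    obtain ⟨a, rfl⟩ := (hex b).1 hb
    rw [ht']
  let ι₀ : A.ρ.invariants →ₗ[ZMod p] B.ρ.invariants :=
    (ι.comp A.ρ.invariants.subtype).codRestrict _ fun a g => by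
      show B.ρ g (ι a.1) = ι a.1
      rw [← hι, a.2 g]
  let π₀ : B.ρ.invariants →ₗ[ZMod p] C.ρ.invariants :=
    (π.comp B.ρ.invariants.subtype).codRestrict _ fun b g => by
      show C.ρ g (π b.1) = π b.1
      rw [← hπ, b.2 g]
  have hker0 : finrank (ZMod p) (LinearMap.ker π₀) ≤ finrank (ZMod p) A.ρ.invariants := by
    refine LinearMap.finrank_le_finrank_of_injective
      (f := (t.comp (B.ρ.invariants.subtype.comp (LinearMap.ker π₀).subtype)).codRestrict
        A.ρ.invariants fun b g => hinj ?_) fun b b' h => ?_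
    · have hb : π b.1.1 = 0 := congrArg Subtype.val (LinearMap.mem_ker.mp b.2)
      show ι (A.ρ g (t b.1.1)) = ι (t b.1.1)
      rw [hι, hιt hb, b.1.2 g]
    · have hb : π b.1.1 = 0 := congrArg Subtype.val (LinearMap.mem_ker.mp b.2)
      have hb' : π b'.1.1 = 0 := congrArg Subtype.val (LinearMap.mem_ker.mp b'.2)
      have h' : t b.1.1 = t b'.1.1 := congrArg Subtype.val h
      exact Subtype.ext (Subtype.ext (by rw [← hιt hb, h', hιt hb']))
  obtain ⟨δ₀, hkerι, hδ⟩ := exists_delta₀ (S := S) ι π hι hπ hinj hsurj hex hB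
  have hδπ : LinearMap.range π₀ ≤ LinearMap.ker δ₀ := by
    rintro _ ⟨b, rfl⟩
    exact LinearMap.mem_ker.mpr (hδ _ ⟨b.1, b.2, rfl⟩)
  have hπι₁ := mapHS₁_comp_le (S := S) ι π hι hπ hinj hsurj hex hB
  obtain ⟨δ₁, hkerδ, hδι₂⟩ := exists_delta₁ (S := S) ι π hι hπ hinj hsurj hex hB
  have hkerπ₂ := ker_mapHS₂_le (S := S) ι π hι hπ hinj hsurj hex hB
  set ι₁ := mapHS₁ (S := S) ι hι
  set π₁ := mapHS₁ (S := S) π hπ
  set ι₂ := mapHS₂ (S := S) ι hι
  set π₂ := mapHS₂ (S := S) π hπ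
  -- dimensions
  have d0 := π₀.finrank_range_add_finrank_ker
  have d1 := δ₀.finrank_range_add_finrank_ker
  have d1' := Submodule.finrank_mono hδπ
  have d2 := ι₁.finrank_range_add_finrank_ker
  have d2' := Submodule.finrank_mono hkerι
  have d3 := π₁.finrank_range_add_finrank_ker
  have d3' := Submodule.finrank_mono hπι₁
  have d4 := δ₁.finrank_range_add_finrank_ker
  have d4' := Submodule.finrank_mono hkerδ
  have d5 := ι₂.finrank_range_add_finrank_ker
  have d5' := Submodule.finrank_mono hδι₂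
  have d6 := π₂.finrank_range_add_finrank_ker
  have d6' := Submodule.finrank_mono hkerπ₂
  have d7 := (LinearMap.range π₂).finrank_le
  omega

end FLTAgent.GWEuler
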