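import Fermat.Agent.LocalDuality.Duality.Main
import Fermat.Prelude.Def_GroupCohomology_ContinuousUnramified

/-!
# Local duality at the decomposition groups of `ℚ`

The local groups at primes are automorphism groups of `PadicAlgCl q` and so satisfy the hypotheses
of local duality (`local_good`, `local_eq_zero_of_pair`).
-/

set_option autoImplicit false

noncomputable section

open CategoryTheory groupCohomology Module ExtCitation

namespace FLTAgent.GWEuler

open FLTAgent.LocalDuality

variable {p : ℕ} [Fact p.Prime] (q : Nat.Primes)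

local notation "Γℚ" => AlgebraicClosure ℚ ≃ₐ[ℚ] AlgebraicClosure ℚ

instance fact_primes (q : Nat.Primes) : Fact (q : ℕ).Prime := ⟨q.2⟩

/-- The local group as an automorphism group of `PadicAlgCl q`. -/
def jLoc : primeLocalGaloisGroup q →* LocalGal (q : ℕ) where
  toFun g := g
  map_one' := rfl
  map_mul' _ _ := rfl

theorem isFieldGroup_jLoc : IsFieldGroup (jLoc q) ⊥ := by
  refine ⟨fun a b h => h, ?_, inferInstance⟩
  rw [IntermediateField.fixingSubgroup_bot]
  exact MonoidHom.range_eq_top.mpr fun g => ⟨g, rfl⟩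

/-- A primitive `p`-th root of unity in `PadicAlgCl q` coming from the algebraic numbers. -/
theorem exists_cycloField :
    ∃ ζ, CycloField p (jLoc q) ⊥ ζ ((cycloChar p).comp (primeLocalToGlobal q)) := by
  have : NeZero p := ⟨(Fact.out : p.Prime).ne_zero⟩
  obtain ⟨z, hz⟩ := HasEnoughRootsOfUnity.exists_primitiveRoot (AlgebraicClosure ℚ) p
  obtain ⟨u, rfl⟩ := hz.isUnit (NeZero.ne p)
  refine ⟨Units.map (padicEmbedding (q : ℕ) : AlgebraicClosure ℚ →* PadicAlgCl (q : ℕ)) u,
    { toIsFieldGroup := isFieldGroup_jLoc q, prim := ?_, apply_zeta := fun g => ?_ }⟩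
  · exact IsPrimitiveRoot.coe_units_iff.mp (hz.map_of_injective
      (f := padicEmbedding (q : ℕ)) (padicEmbedding (q : ℕ)).toRingHom.injective)
  · show jLoc q g (padicEmbedding (q : ℕ) (u : AlgebraicClosure ℚ))
      = padicEmbedding (q : ℕ) (u : AlgebraicClosure ℚ) ^ _
    rw [show jLoc q g (padicEmbedding (q : ℕ) (u : AlgebraicClosure ℚ))
      = padicEmbedding (q : ℕ) (primeLocalToGlobal q g (u : AlgebraicClosure ℚ)) from
        (padicEmbedding_localGaloisToGlobal (q : ℕ) g _).symm, ← map_pow]
    congr 1
    exact modularCyclotomicCharacter.spec (AlgebraicClosure ℚ) (card_rootsOfUnity_eq_self p)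
      ((primeLocalToGlobal q g) : AlgebraicClosure ℚ ≃+* AlgebraicClosure ℚ)
      (mem_rootsOfUnity' p u |>.mpr hz.pow_eq_one)

theorem smoothChar_loc :
    SmoothChar (primeLocalToGlobal q) ((cycloChar p).comp (primeLocalToGlobal q)) :=
  (exists_cycloField q).choose_spec.smoothChar

variable {q}

theorem local_good {M : Rep (ZMod p) (primeLocalGaloisGroup q)} [FiniteDimensional (ZMod p) M]
    (hM : IsSmooth (primeLocalToGlobal q) M) : Good (smoothChar_loc (p := p) q) M hM :=
  (exists_cycloField q).choose_spec.good hM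

theorem local_eq_zero_of_pair {M : Rep (ZMod p) (primeLocalGaloisGroup q)}
    [FiniteDimensional (ZMod p) M] (hM : IsSmooth (primeLocalToGlobal q) M)
    {y : continuousH1 (primeLocalToGlobal q)
      (M.dualTwist ((cycloChar p).comp (primeLocalToGlobal q)))}
    (hy : ∀ x, pair (smoothChar_loc (p := p) q) M hM x y = 0) : y = 0 :=
  (exists_cycloField q).choose_spec.eq_zero_of_pair hM hy

end FLTAgent.GWEuler
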