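import Mathlib.Algebra.Module.BigOperators
import Mathlib.Algebra.Module.LinearMap.End
import Mathlib.Data.Nat.Choose.Dvd
import Mathlib.Tactic.Abel
import Mathlib.Data.Nat.Periodic
import Mathlib.Data.ZMod.Basic

/-!
# Cup products of periodic cocycles of the integers

For odd `p` the cup product of two cocycles of `ℤ` of period `N` with values killed by `p` is the
coboundary of a cochain of period `p N` (`exists_primitive`).  Used for unramified classes.
-/

set_option autoImplicit false

noncomputable section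

namespace FLTAgent.GWEuler.Periodic

open Finset

variable {p : ℕ} [Fact p.Prime]

section One

variable {X : Type*} [AddCommGroup X] [Module (ZMod p) X] (A : Module.End (ZMod p) X)

omit [Fact (Nat.Prime p)] in
theorem nsmul_eq_zero (a : X) : p • a = 0 := by
  rw [← Nat.cast_smul_eq_nsmul (ZMod p), ZMod.natCast_self, zero_smul]

/-- The cocycle of `ℕ` with value `a` at `1`. -/
def gen (a : X) (n : ℕ) : X := ∑ i ∈ range n, (A ^ i) a

omit [Fact (Nat.Prime p)] in
theorem gen_one (a : X) : gen A a 1 = a := by simp [gen]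

omit [Fact (Nat.Prime p)] in
theorem gen_add (a : X) (n m : ℕ) : gen A a (n + m) = gen A a n + (A ^ n) (gen A a m) := by
  rw [gen, sum_range_add, gen, gen, map_sum]
  congr 1
  refine sum_congr rfl fun i _ => ?_
  rw [pow_add]; rfl

variable {A} {x : ℕ → X}

omit [Fact (Nat.Prime p)] in
theorem cocycle_zero (hx : ∀ n m, x (n + m) = x n + (A ^ n) (x m)) : x 0 = 0 := by
  simpa using hx 0 0

omit [Fact (Nat.Prime p)] in
theorem cocycle_mul (hx : ∀ n m, x (n + m) = x n + (A ^ n) (x m)) {N : ℕ} (hN : A ^ N = 1)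
    (k : ℕ) : x (k * N) = k • x N := by
  induction k with
  | zero => rw [Nat.zero_mul, zero_nsmul, cocycle_zero hx]
  | succ k ih =>
    rw [Nat.succ_mul, hx, ih, Nat.mul_comm, pow_mul, hN, one_pow, succ_nsmul]
    rfl

omit [Fact (Nat.Prime p)] in
theorem cocycle_period (hx : ∀ n m, x (n + m) = x n + (A ^ n) (x m)) {N : ℕ} (hN : A ^ N = 1) :
    Function.Periodic x (p * N) := fun n => by
  rw [hx, cocycle_mul hx hN, nsmul_eq_zero, map_zero, add_zero]

theorem sum_quasi_periodic (f d : ℕ → X) (N : ℕ) (hf : ∀ i, f (i + N) = f i + d i)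
    (hd : ∀ i, d (i + N) = d i) (k : ℕ) :
    ∑ i ∈ range (k * N), f i = k • ∑ i ∈ range N, f i + k.choose 2 • ∑ i ∈ range N, d i := by
  have hshift : ∀ j i, f (j * N + i) = f i + j • d i := fun j => by
    induction j with
    | zero => intro i; simp
    | succ j ih =>
      intro i
      have hdj : ∀ j i, d (j * N + i) = d i := fun j i => by
        induction j with
        | zero => simp
        | succ j ih2 => rw [Nat.succ_mul, Nat.add_right_comm, hd, ih2]
      rw [Nat.succ_mul, Nat.add_right_comm, hf, ih, hdj, succ_nsmul, add_assoc]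
  induction k with
  | zero => simp
  | succ k ih =>
    rw [Nat.succ_mul, sum_range_add, ih, sum_congr rfl fun i _ => hshift k i, sum_add_distrib,
      ← smul_sum, succ_nsmul, Nat.choose_succ_succ, Nat.choose_one_right, add_nsmul]
    abel

end One

variable {X Y C : Type*} [AddCommGroup X] [Module (ZMod p) X] [AddCommGroup Y]
  [Module (ZMod p) Y] [AddCommGroup C] [Module (ZMod p) C]

/-- The cup product of two cocycles is the coboundary of a cochain of period `p N`. -/
theorem exists_primitive (hp2 : p ≠ 2) (β : X →ₗ[ZMod p] Y →ₗ[ZMod p] C) (A : Module.End (ZMod p) X)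
    (B : Module.End (ZMod p) Y) (T : Module.End (ZMod p) C)
    (hβ : ∀ n a b, β ((A ^ n) a) ((B ^ n) b) = (T ^ n) (β a b)) {N : ℕ} (hA : A ^ N = 1)
    (hB : B ^ N = 1) {x : ℕ → X} {y : ℕ → Y} (hx : ∀ n m, x (n + m) = x n + (A ^ n) (x m))
    (hy : ∀ n m, y (n + m) = y n + (B ^ n) (y m)) :
    ∃ c : ℕ → C, Function.Periodic c (p * N) ∧
      ∀ n m, (T ^ n) (c m) - c (n + m) + c n = β (x n) ((B ^ n) (y m)) := by
  let Z : ℕ → ℕ → C := fun n m => β (x n) ((B ^ n) (y m))
  let c : ℕ → C := fun n => -∑ i ∈ range n, Z i 1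
  have hcoc : ∀ n m l, (T ^ n) (Z m l) - Z (n + m) l + Z n (m + l) - Z n m = 0 := fun n m l => by
    simp only [Z]
    rw [← hβ, hx, map_add β, LinearMap.add_apply, hy m l, map_add (B ^ n), map_add (β (x n)),
      pow_add, Module.End.mul_apply]
    abel
  have hid : ∀ n m, (T ^ n) (c m) - c (n + m) + c n = Z n m := fun n m => by
    induction m with
    | zero =>
      simp [c, Z, cocycle_zero hy]
    | succ m ih =>
      have h1 : c (m + 1) = c m - Z m 1 := by
        simp only [c, sum_range_succ]; abel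
      have h2 : c (n + (m + 1)) = c (n + m) - Z (n + m) 1 := by
        rw [← Nat.add_assoc]; simp only [c, sum_range_succ]; abel
      have h3 := hcoc n m 1
      rw [h1, h2, map_sub]
      rw [show (T ^ n) (c m) = Z n m + c (n + m) - c n by rw [← ih]; abel]
      rw [show Z n (m + 1) = Z n m + Z (n + m) 1 - (T ^ n) (Z m 1) by
        rw [← sub_eq_zero, ← h3]; abel]
      abel
  have hcP : c (p * N) = 0 := by
    have hBN : ∀ i, B ^ (i + N) = B ^ i := fun i => by rw [pow_add, hB, mul_one]
    have hAN : ∀ i, A ^ (i + N) = A ^ i := fun i => by rw [pow_add, hA, mul_one]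
    have h := sum_quasi_periodic (fun i => Z i 1) (fun i => β ((A ^ i) (x N)) ((B ^ i) (y 1))) N
      (fun i => by simp only [Z]; rw [hx, hBN, map_add β, LinearMap.add_apply])
      (fun i => by rw [hAN, hBN]) p
    show -∑ i ∈ range (p * N), Z i 1 = 0
    rw [h, nsmul_eq_zero, zero_add]
    obtain ⟨d, hd⟩ := (Fact.out : p.Prime).dvd_choose_self two_ne_zero
      (lt_of_le_of_ne (Fact.out : p.Prime).two_le (Ne.symm hp2))
    rw [hd, mul_nsmul', nsmul_eq_zero (p := p), neg_zero]
  refine ⟨c, fun n => ?_, hid⟩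
  have h := hid n (p * N)
  simp only [Z] at h
  rw [hcP, map_zero, cocycle_mul hy hB, nsmul_eq_zero, map_zero, map_zero, zero_sub] at h
  exact (eq_neg_of_add_eq_zero_right h).trans (neg_neg _) |>.symm

end FLTAgent.GWEuler.Periodic
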