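import Fermat.Agent.GWEuler.Congr
import Fermat.Agent.GWEuler.Archimedean
import Fermat.Agent.GWEuler.LocalEuler.Main

/-!
# The defects of a module and of its dual twist are opposite

`eulerDefect_add_dual`: with exactness in the middle (`MiddleExact`) and the local Euler
characteristic formula, the defects of `M` and of its dual twist add up to zero.
-/

set_option autoImplicit false

noncomputable section

open CategoryTheory groupCohomology Module ExtCitation

namespace FLTAgent.GWEuler

open FLTAgent.LocalDuality

local notation "Γℚ" => AlgebraicClosure ℚ ≃ₐ[ℚ] AlgebraicClosure ℚ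

variable {p : ℕ} [Fact p.Prime]

/-- Localisation of classes of level `S` at a finite prime. -/
def locS (S : Finset Nat.Primes) (q : S) (A : Rep.{0} (ZMod p) Γℚ) :
    continuousH1S S A →ₗ[ZMod p]
      continuousH1 (primeLocalToGlobal q.1) (Rep.res (primeLocalToGlobal q.1) A) :=
  (((LinearMap.proj (R := ZMod p) (φ := fun v => H1 (Rep.res (extArithLoc S v) A))
      (Sum.inr q : extArithIndex S)).comp (locTotal (extArithLoc S) A)).comp
    (continuousH1S S A).subtype).codRestrict _ fun x => by
    obtain ⟨c, hc, h⟩ := (mem_continuousH1S_iff S A x.1).1 x.2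
    show (locTotal (extArithLoc S) A x.1 (Sum.inr q)) ∈ _
    rw [← h]
    have h2 := (locClass S q.1 A c hc).2
    rw [coe_locClass] at h2
    exact h2

/-- All the finite localisations together. -/
def locSTotal (S : Finset Nat.Primes) (A : Rep.{0} (ZMod p) Γℚ) :
    continuousH1S S A →ₗ[ZMod p]
      ∀ q : S, continuousH1 (primeLocalToGlobal q.1) (Rep.res (primeLocalToGlobal q.1) A) :=
  LinearMap.pi fun q => locS S q A

/-- Exactness in the middle: local families orthogonal to the global classes are global. -/
def MiddleExact (R : Reciprocity p) (S : Finset Nat.Primes) (M : Rep.{0} (ZMod p) Γℚ)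
    (hM : SLevel S M) : Prop :=
  ∀ u : ∀ q : S, continuousH1 (primeLocalToGlobal q.1)
      (Rep.res (primeLocalToGlobal q.1) (M.dualTwist (cycloChar p))),
    (∀ x, ∑ q : S, contPairing R M q.1 (hM.smooth_loc_dual q.1) (locS S q M x) (u q) = 0) →
      ∃ y, locSTotal S (M.dualTwist (cycloChar p)) y = u

theorem finrank_ker_locSTotal (hp2 : p ≠ 2) (S : Finset Nat.Primes) (A : Rep.{0} (ZMod p) Γℚ) :
    finrank (ZMod p) (LinearMap.ker (locSTotal S A)) = finrank (ZMod p) (sha₁ S A) := by
  refine LinearEquiv.finrank_eq (LinearEquiv.ofBijective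
    (((continuousH1S S A).subtype.comp (LinearMap.ker (locSTotal S A)).subtype).codRestrict
      (sha₁ S A) fun x => ⟨x.1.2, LinearMap.mem_ker.mpr (funext fun v => ?_)⟩) ⟨?_, ?_⟩)
  · match v with
    | Sum.inl _ => exact h1_archimedean_eq_zero hp2 _ _
    | Sum.inr q => exact congrArg Subtype.val (congrFun (LinearMap.mem_ker.mp x.2) q)
  · exact fun x y h => Subtype.ext (Subtype.ext (congrArg (fun u : sha₁ S A => u.1) h))
  · rintro ⟨x, hx, hx0⟩
    exact ⟨⟨⟨x, hx⟩, LinearMap.mem_ker.mpr (funext fun q =>
      Subtype.ext (congrFun (LinearMap.mem_ker.mp hx0) (Sum.inr q)))⟩, rfl⟩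

/-- The sum of the local pairings over the primes of `S`, as a map into the dual. -/
def locDualMap (R : Reciprocity p) (S : Finset Nat.Primes) (M : Rep.{0} (ZMod p) Γℚ)
    (hM : SLevel S M) :
    (∀ q : S, continuousH1 (primeLocalToGlobal q.1)
        (Rep.res (primeLocalToGlobal q.1) (M.dualTwist (cycloChar p)))) →ₗ[ZMod p]
      Dual (ZMod p)
        (∀ q : S, continuousH1 (primeLocalToGlobal q.1) (Rep.res (primeLocalToGlobal q.1) M)) :=
  ∑ q : S, (LinearMap.proj (R := ZMod p) (φ := fun q : S => continuousH1
      (primeLocalToGlobal q.1) (Rep.res (primeLocalToGlobal q.1) M)) q).dualMap ∘ₗ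
    (contPairing R M q.1 (hM.smooth_loc_dual q.1)).flip ∘ₗ LinearMap.proj q

theorem locDualMap_apply (R : Reciprocity p) (S : Finset Nat.Primes) (M : Rep.{0} (ZMod p) Γℚ)
    (hM : SLevel S M) (v) (w) : locDualMap R S M hM v w =
      ∑ q : S, contPairing R M q.1 (hM.smooth_loc_dual q.1) (w q) (v q) := by
  simp only [locDualMap, LinearMap.sum_apply]
  rfl

theorem locDualMap_injective (R : Reciprocity p) (S : Finset Nat.Primes)
    (M : Rep.{0} (ZMod p) Γℚ) [FiniteDimensional (ZMod p) M] (hM : SLevel S M) :
    Function.Injective (locDualMap R S M hM) := by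
  classical
  exact (injective_iff_map_eq_zero _).mpr fun v hv => funext fun q =>
    eq_zero_of_contPairing R S M q.1 hM fun x => by
      have h := LinearMap.congr_fun hv (Pi.single q x)
      rw [locDualMap_apply, Finset.sum_eq_single q
        (fun w _ hw => by rw [Pi.single_eq_of_ne hw, map_zero, LinearMap.zero_apply])
        (fun hq => absurd (Finset.mem_univ q) hq), Pi.single_eq_same] at h
      exact h

/-- The images of the global classes are orthogonal. -/
theorem map_range_locSTotal_le (R : Reciprocity p) (S : Finset Nat.Primes)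
    (M : Rep.{0} (ZMod p) Γℚ) [FiniteDimensional (ZMod p) M] (hp2 : p ≠ 2) (hpS : pPrime p ∈ S)
    (hM : SLevel S M) :
    (LinearMap.range (locSTotal S (M.dualTwist (cycloChar p)))).map (locDualMap R S M hM)
      ≤ (LinearMap.range (locSTotal S M)).dualAnnihilator := by
  rintro _ ⟨_, ⟨y, rfl⟩, rfl⟩
  rw [Submodule.mem_dualAnnihilator]
  rintro _ ⟨x, rfl⟩
  refine (locDualMap_apply R S M hM _ _).trans ?_
  refine Eq.trans ?_ (totalPairing_eq_zero R S M hp2 hpS hM x.2 y.2)
  refine ((Fintype.sum_sum_type _).trans ?_).symm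
  rw [Finset.sum_eq_zero fun (v : Unit) _ => show locPairing R S M hM (Sum.inl v) _ _ = 0 from
    rfl, zero_add]
  exact Finset.sum_congr rfl fun q _ => locPairing_inr R S M hM q (locS S q M x)
    (locS S q (M.dualTwist (cycloChar p)) y)

/-- The sum of the defects of a module and its dual twist, in terms of the global images. -/
theorem eulerDefect_add_eq {S : Finset Nat.Primes} (hp2 : p ≠ 2) (hpS : pPrime p ∈ S)
    (M : Rep.{0} (ZMod p) Γℚ) [FiniteDimensional (ZMod p) M] (hM : SLevel S M)
    [Module.Finite (ZMod p) (continuousH1S S M)]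
    [Module.Finite (ZMod p) (continuousH1S S (M.dualTwist (cycloChar p)))]
    [Module.Finite (ZMod p)
      (continuousH1S S ((M.dualTwist (cycloChar p)).dualTwist (cycloChar p)))] :
    eulerDefect S M + eulerDefect S (M.dualTwist (cycloChar p))
      = (finrank (ZMod p) (LinearMap.range (locSTotal S M)) : ℤ)
        + finrank (ZMod p) (LinearMap.range (locSTotal S (M.dualTwist (cycloChar p))))
        - (∑ q : S, finrank (ZMod p)
          (continuousH1 (primeLocalToGlobal q.1) (Rep.res (primeLocalToGlobal q.1) M)) : ℕ) := by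
  classical
  set M' := M.dualTwist (cycloChar p)
  have : FiniteDimensional (ZMod p) M' :=
    inferInstanceAs (FiniteDimensional (ZMod p) (Dual (ZMod p) M))
  have d1 := (locSTotal S M).finrank_range_add_finrank_ker
  have d2 := (locSTotal S M').finrank_range_add_finrank_ker
  rw [finrank_ker_locSTotal hp2] at d1 d2
  have d3 : ∑ q : S, finrank (ZMod p)
      (continuousH1 (primeLocalToGlobal q.1) (Rep.res (primeLocalToGlobal q.1) M))
      = ∑ q : S, finrank (ZMod p) (Rep.res (primeLocalToGlobal q.1) M).ρ.invariants
        + ∑ q : S, finrank (ZMod p) (Rep.res (primeLocalToGlobal q.1) M').ρ.invariants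
        + finrank (ZMod p) M := by
    rw [Finset.sum_congr rfl fun (q : S) _ => (localEuler q.1 M hM).2, Finset.sum_add_distrib,
      Finset.sum_add_distrib]
    congr 1
    refine (Finset.sum_coe_sort S fun q => if q = pPrime p then finrank (ZMod p) M else 0).trans ?_
    rw [Finset.sum_ite_eq', if_pos hpS]
  have d5 := finrank_archimedean_add hp2 M
  have d6 := finrank_continuousH1S_congr (S := S) (bidualTwist M) (bidualTwist_equiv M)
    (bidualTwist_bijective M)
  have d7 := finrank_invariants_congr (bidualTwist M) (bidualTwist_equiv M)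
    (bidualTwist_bijective M)
  have hloc : ∀ (A : Rep.{0} (ZMod p) Γℚ), (∑ v : extArithIndex S,
        (finrank (ZMod p) (Rep.res (extArithLoc S v) A).ρ.invariants : ℤ))
      = finrank (ZMod p) (Rep.res archimedeanLoc A).ρ.invariants
        + ((∑ q : S, finrank (ZMod p) (Rep.res (primeLocalToGlobal q.1) A).ρ.invariants : ℕ) : ℤ) :=
    fun A => by
      refine (Fintype.sum_sum_type _).trans ?_
      rw [Fintype.sum_unique, Nat.cast_sum]
      rfl
  unfold eulerDefect unitsDefect
  rw [hloc, hloc]
  simp only [M'] at d1 d2 d3 d5 d6 d7 ⊢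
  omega

/-- **The defects of `M` and of its dual twist are opposite.** -/
theorem eulerDefect_add_dual (R : Reciprocity p) (hp2 : p ≠ 2) (S : Finset Nat.Primes)
    (hpS : pPrime p ∈ S) (M : Rep.{0} (ZMod p) Γℚ) [FiniteDimensional (ZMod p) M]
    (hM : SLevel S M)
    [Module.Finite (ZMod p) (continuousH1S S M)]
    [Module.Finite (ZMod p) (continuousH1S S (M.dualTwist (cycloChar p)))]
    [Module.Finite (ZMod p)
      (continuousH1S S ((M.dualTwist (cycloChar p)).dualTwist (cycloChar p)))]
    (hmid : MiddleExact R S M hM) :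
    eulerDefect S M + eulerDefect S (M.dualTwist (cycloChar p)) = 0 := by
  classical
  set M' := M.dualTwist (cycloChar p)
  have : FiniteDimensional (ZMod p) M' :=
    inferInstanceAs (FiniteDimensional (ZMod p) (Dual (ZMod p) M))
  have : ∀ q : S, Module.Finite (ZMod p) (continuousH1 (primeLocalToGlobal q.1)
      (Rep.res (primeLocalToGlobal q.1) M)) := fun q => (localEuler q.1 M hM).1
  have : ∀ q : S, Module.Finite (ZMod p) (continuousH1 (primeLocalToGlobal q.1)
      (Rep.res (primeLocalToGlobal q.1) M')) :=
    fun q => (localEuler q.1 M' (sLevel_dualTwist hpS hM)).1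
  set b := locDualMap R S M hM
  have hb := locDualMap_apply R S M hM
  have hinj : Function.Injective b := locDualMap_injective R S M hM
  have hdim : finrank (ZMod p)
        (∀ q : S, continuousH1 (primeLocalToGlobal q.1) (Rep.res (primeLocalToGlobal q.1) M'))
      = finrank (ZMod p) (Dual (ZMod p)
        (∀ q : S, continuousH1 (primeLocalToGlobal q.1) (Rep.res (primeLocalToGlobal q.1) M))) := by
    rw [Subspace.dual_finrank_eq, Module.finrank_pi_fintype, Module.finrank_pi_fintype]
    refine Finset.sum_congr rfl fun q _ => ?_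
    rw [(localEuler q.1 M hM).2, (localEuler q.1 M' (sLevel_dualTwist hpS hM)).2,
      ← finrank_res_invariants_congr (bidualTwist M) (bidualTwist_equiv M)
        (bidualTwist_bijective M) (primeLocalToGlobal q.1),
      show finrank (ZMod p) M' = finrank (ZMod p) M from Subspace.dual_finrank_eq]
    simp only [M']
    omega
  have hrange : (LinearMap.range (locSTotal S M')).map b
      = (LinearMap.range (locSTotal S M)).dualAnnihilator := by
    refine le_antisymm (map_range_locSTotal_le R S M hp2 hpS hM) fun φ hφ => ?_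
    obtain ⟨u, rfl⟩ := (LinearMap.injective_iff_surjective_of_finrank_eq_finrank hdim).mp hinj φ
    obtain ⟨y, hy⟩ := hmid u fun x =>
      (hb u _).symm.trans ((Submodule.mem_dualAnnihilator _).mp hφ _ ⟨x, rfl⟩)
    exact ⟨u, ⟨y, hy⟩, rfl⟩
  have d := Subspace.finrank_add_finrank_dualAnnihilator_eq (LinearMap.range (locSTotal S M))
  rw [← hrange, ← (Submodule.equivMapOfInjective b hinj _).finrank_eq,
    Module.finrank_pi_fintype] at d
  rw [eulerDefect_add_eq hp2 hpS M hM, ← d]
  push_cast
  ring

end FLTAgent.GWEuler
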