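import Fermat.Agent.GWEuler.Pairing
import Fermat.Agent.GWEuler.Periodic
import Fermat.Agent.TWPrimes.LocalPlace

/-!
# Unramified classes at an unramified prime

Their number is given by the invariants (`finrank_unrH1`) and they are the annihilators of each
other under the local pairing (`cup_unrH1_eq_zero`, `mem_unrH1_of_orthogonal`).
-/

set_option autoImplicit false

noncomputable section

open CategoryTheory groupCohomology Module ExtCitation
open scoped Pointwise

namespace FLTAgent.GWEuler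

open FLTAgent.Density FLTAgent.LocalDuality

local notation "Γℚ" => AlgebraicClosure ℚ ≃ₐ[ℚ] AlgebraicClosure ℚ

theorem primeLocalPlace_liesOverPrime (q : Nat.Primes) :
    (primeLocalPlace q).LiesOverPrime (q : ℕ) := by
  have : Fact (q : ℕ).Prime := ⟨q.2⟩
  exact TWPrimes.padicPlace_liesOverPrime (q : ℕ)

theorem exists_frobenius_decomp (q : Nat.Primes) :
    ∃ φ : primeLocalGaloisGroup q,
      (primeLocalPlace q).IsFrobeniusAt (primeLocalToGlobal q φ) q := by
  have : Fact (q : ℕ).Prime := ⟨q.2⟩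
  obtain ⟨Φ, hΦ⟩ := exists_isFrobeniusAt _ Fact.out (TWPrimes.padicPlace_liesOverPrime (q : ℕ))
  obtain ⟨φ, hφ⟩ := TWPrimes.exists_toGlobal (q : ℕ) hΦ.mem_decompositionSubgroup
  exact ⟨φ, show (padicPlace (q : ℕ)).IsFrobeniusAt (localGaloisToGlobal (q : ℕ) φ) _ from
    (hφ : localGaloisToGlobal (q : ℕ) φ = Φ) ▸ hΦ⟩

/-- A Frobenius element of the local group. -/
def locFrob (q : Nat.Primes) : primeLocalGaloisGroup q := (exists_frobenius_decomp q).choose

theorem locFrob_spec (q : Nat.Primes) :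
    (primeLocalPlace q).IsFrobeniusAt (primeLocalToGlobal q (locFrob q)) q :=
  (exists_frobenius_decomp q).choose_spec

/-- Local inertia, as a set. -/
def LocInert (q : Nat.Primes) (g : primeLocalGaloisGroup q) : Prop :=
  primeLocalToGlobal q g ∈ (primeLocalPlace q).inertiaSubgroupIn ℚ

/-- At every level the local group is generated by inertia and a Frobenius element. -/
theorem exists_frob_pow_mul (q : Nat.Primes) (F : IntermediateField ℚ (AlgebraicClosure ℚ))
    [FiniteDimensional ℚ F] (g : primeLocalGaloisGroup q) :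
    ∃ (n : ℕ) (u : primeLocalGaloisGroup q), LocInert q u ∧
      (locFrob q ^ n * u)⁻¹ * g ∈ levelSubgroup (primeLocalToGlobal q) F := by
  have : Fact (q : ℕ).Prime := ⟨q.2⟩
  let L := IntermediateField.normalClosure ℚ F (AlgebraicClosure ℚ)
  have : IsGalois ℚ L := IsGalois.normalClosure ..
  obtain ⟨n, s, hs, hL⟩ := TWPrimes.exists_frobenius_pow_mul
    (TWPrimes.padicPlace_liesOverPrime (q : ℕ)) L
    (locFrob_spec q) (localGaloisToGlobal_mem_decompositionSubgroup (q : ℕ) g)
  obtain ⟨u, hu'⟩ : ∃ u : primeLocalGaloisGroup q, primeLocalToGlobal q u = s :=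
    TWPrimes.exists_toGlobal (q : ℕ) (inertiaSubgroupIn_le_decompositionSubgroup _ hs)
  refine ⟨n, u, show primeLocalToGlobal q u ∈ _ by rw [hu']; exact hs, ?_⟩
  rw [mem_levelSubgroup, IntermediateField.mem_fixingSubgroup_iff]
  intro x hx
  rw [map_mul, map_inv, map_mul, map_pow, hu', AlgEquiv.mul_apply, AlgEquiv.aut_inv,
    AlgEquiv.symm_apply_eq]
  exact hL x (IntermediateField.le_normalClosure F hx)

/-- An unramified character of the local group with a prescribed period. -/
theorem exists_degree (q : Nat.Primes) (P : ℕ) (hP : 0 < P) :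
    ∃ deg : primeLocalGaloisGroup q → ℕ,
      (∀ g, deg g < P) ∧ (∀ g h, deg (g * h) ≡ deg g + deg h [MOD P]) ∧
      (∀ n, deg (locFrob q ^ n) ≡ n [MOD P]) ∧ (∀ g, LocInert q g → deg g = 0) ∧
      IsLevelConstant₁ (primeLocalToGlobal q) deg := by
  classical
  have hq : Fact (q : ℕ).Prime := ⟨q.2⟩
  have hq1 : 1 < (q : ℕ) := q.2.one_lt
  obtain ⟨m, hm⟩ : ∃ m : ℕ, m = (q : ℕ) ^ P - 1 := ⟨_, rfl⟩
  have hqP : 1 < (q : ℕ) ^ P := Nat.one_lt_pow hP.ne' hq1
  have hm0 : m ≠ 0 := by omega
  have : NeZero m := ⟨hm0⟩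
  have hqm : ¬ (q : ℕ) ∣ m := fun hd => by
    have h1 : (q : ℕ) ∣ (q : ℕ) ^ P := dvd_pow_self _ hP.ne'
    have h2 := Nat.dvd_sub h1 hd
    rw [hm, Nat.sub_sub_self hqP.le, Nat.dvd_one] at h2
    omega
  obtain ⟨ζ, hζ⟩ := HasEnoughRootsOfUnity.exists_primitiveRoot (AlgebraicClosure ℚ) m
  have : FiniteDimensional ℚ (IntermediateField.adjoin ℚ ({ζ} : Set (AlgebraicClosure ℚ))) :=
    IntermediateField.adjoin.finiteDimensional (Algebra.IsIntegral.isIntegral ζ)
  have hmemF : ∀ {g : primeLocalGaloisGroup q},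
      g ∈ levelSubgroup (primeLocalToGlobal q)
        (IntermediateField.adjoin ℚ ({ζ} : Set (AlgebraicClosure ℚ))) →
      primeLocalToGlobal q g ζ = ζ := fun {g} hg =>
    (IntermediateField.mem_fixingSubgroup_iff _ _).mp hg ζ
      (IntermediateField.mem_adjoin_simple_self ℚ ζ)
  have hfrob : primeLocalToGlobal q (locFrob q) ζ = ζ ^ (q : ℕ) := by
    obtain ⟨-, h⟩ := isFrobeniusAt_iff.mp (locFrob_spec q)
    refine root_eq_of_sub_mem_nonunits (primeLocalPlace_liesOverPrime q) hqm
      (by rw [← map_pow, hζ.pow_eq_one, map_one])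
      (by rw [← pow_mul, Nat.mul_comm, pow_mul, hζ.pow_eq_one, one_pow])
      (h ζ (mem_of_isIntegral _ (IsIntegral.of_pow (Nat.pos_of_ne_zero hm0)
        (hζ.pow_eq_one.symm ▸ isIntegral_one))))
  have hpow : ∀ n, primeLocalToGlobal q (locFrob q ^ n) ζ = ζ ^ (q : ℕ) ^ n := fun n => by
    induction n with
    | zero => simp
    | succ n ih => rw [pow_succ, map_mul, AlgEquiv.mul_apply, hfrob, map_pow, ih, ← pow_mul,
        ← pow_succ]
  have hone : ∀ u, LocInert q u → primeLocalToGlobal q u ζ = ζ := fun u hu =>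
    inertia_fixes_root_of_unity (primeLocalPlace_liesOverPrime q) hu hqm hζ.pow_eq_one
  have hred : ∀ n, ζ ^ (q : ℕ) ^ n = ζ ^ (q : ℕ) ^ (n % P) := fun n => by
    have h1 : (q : ℕ) ^ P ≡ 1 [MOD m] := by
      rw [show (q : ℕ) ^ P = m + 1 by omega]
      exact Nat.add_modEq_left
    have h2 : (q : ℕ) ^ n ≡ (q : ℕ) ^ (n % P) [MOD m] := by
      conv_lhs => rw [← Nat.div_add_mod n P, pow_add ((q : ℕ)), pow_mul]
      simpa using (h1.pow (n / P)).mul_right ((q : ℕ) ^ (n % P))
    rw [(hζ.isOfFinOrder hm0).pow_eq_pow_iff_modEq, ← hζ.eq_orderOf]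
    exact h2
  have hex : ∀ g, ∃ n, n < P ∧ primeLocalToGlobal q g ζ = ζ ^ (q : ℕ) ^ n := fun g => by
    obtain ⟨n, u, hu, h⟩ := exists_frob_pow_mul q
      (IntermediateField.adjoin ℚ ({ζ} : Set (AlgebraicClosure ℚ))) g
    refine ⟨n % P, Nat.mod_lt _ hP, ?_⟩
    have hg : g = locFrob q ^ n * u * ((locFrob q ^ n * u)⁻¹ * g) := by group
    conv_lhs => rw [hg]
    rw [map_mul, map_mul, AlgEquiv.mul_apply, AlgEquiv.mul_apply, hmemF h, hone u hu, hpow, hred]
  choose deg hdeg hdegζ using hex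
  have huniq : ∀ a b, a < P → b < P → ζ ^ (q : ℕ) ^ a = ζ ^ (q : ℕ) ^ b → a = b := by
    intro a b ha hb h
    have hle : ∀ c, c < P → (q : ℕ) ^ c ≤ m := fun c hc => by
      have : (q : ℕ) ^ c < (q : ℕ) ^ P := Nat.pow_lt_pow_right hq1 hc
      omega
    have h' := ((hζ.isOfFinOrder hm0).pow_eq_pow_iff_modEq.mp
      (show ζ ^ (q : ℕ) ^ a = ζ ^ (q : ℕ) ^ b from h))
    rw [← hζ.eq_orderOf] at h'
    rcases Nat.lt_or_ge ((q : ℕ) ^ a) m with hA | hA
    · rcases Nat.lt_or_ge ((q : ℕ) ^ b) m with hB | hB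
      · exact Nat.pow_right_injective hq1 (h'.eq_of_lt_of_lt hA hB)
      · have hBm : (q : ℕ) ^ b = m := le_antisymm (hle b hb) hB
        exfalso
        have : (q : ℕ) ^ a % m = (q : ℕ) ^ b % m := h'
        rw [hBm, Nat.mod_self, Nat.mod_eq_of_lt hA] at this
        exact (pow_pos q.2.pos a).ne' this
    · have hAm : (q : ℕ) ^ a = m := le_antisymm (hle a ha) hA
      have : (q : ℕ) ^ a % m = (q : ℕ) ^ b % m := h'
      rw [hAm, Nat.mod_self] at this
      have hBm : (q : ℕ) ^ b = m := le_antisymm (hle b hb)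
        (Nat.le_of_dvd (pow_pos q.2.pos b) (Nat.dvd_of_mod_eq_zero this.symm))
      exact Nat.pow_right_injective hq1 (hAm.trans hBm.symm)
  refine ⟨deg, hdeg, fun g h => ?_, fun n => ?_, fun u hu => ?_,
    ⟨IntermediateField.adjoin ℚ ({ζ} : Set (AlgebraicClosure ℚ)), inferInstance,
      fun g s hs => huniq _ _ (hdeg _) (hdeg _) ?_⟩⟩
  · have h1 : primeLocalToGlobal q (g * h) ζ = ζ ^ (q : ℕ) ^ ((deg g + deg h) % P) := by
      rw [map_mul, AlgEquiv.mul_apply, hdegζ h, map_pow, hdegζ g, ← pow_mul, ← pow_add, ← hred]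
    exact huniq _ _ (hdeg _) (Nat.mod_lt _ hP) ((hdegζ _).symm.trans h1) ▸ Nat.mod_modEq _ _
  · exact huniq _ _ (hdeg _) (Nat.mod_lt _ hP) ((hdegζ _).symm.trans ((hpow n).trans (hred n))) ▸
      Nat.mod_modEq _ _
  · exact huniq _ _ (hdeg _) hP ((hdegζ _).symm.trans (by rw [hone u hu, pow_zero, pow_one]))
  · rw [← hdegζ, ← hdegζ, map_mul, AlgEquiv.mul_apply, hmemF hs]

variable {p : ℕ} [Fact p.Prime] {q : Nat.Primes} {M : Rep.{0} (ZMod p) (primeLocalGaloisGroup q)}

/-- The module is unramified. -/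
def InertTrivial (q : Nat.Primes) (M : Rep.{0} (ZMod p) (primeLocalGaloisGroup q)) : Prop :=
  ∀ u, LocInert q u → M.ρ u = 1

/-- The classes of cocycles vanishing on inertia. -/
def unrH1 (q : Nat.Primes) (M : Rep.{0} (ZMod p) (primeLocalGaloisGroup q)) :
    Submodule (ZMod p) (continuousH1 (primeLocalToGlobal q) M) :=
  Submodule.map (cls₁ (primeLocalToGlobal q) M)
    { carrier := {c | ∀ u, LocInert q u → (c.1 : primeLocalGaloisGroup q → M) u = 0}
      add_mem' := fun {a b} ha hb u hu => by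
        show (a.1 : primeLocalGaloisGroup q → M) u + (b.1 : primeLocalGaloisGroup q → M) u = 0
        rw [ha u hu, hb u hu, add_zero]
      zero_mem' := fun _ _ => rfl
      smul_mem' := fun a c hc u hu => by
        show a • (c.1 : primeLocalGaloisGroup q → M) u = 0
        rw [hc u hu, smul_zero] }

theorem eq_zero_of_inert_of_cls (hI : InertTrivial q M)
    {c : levelCocycles₁ (primeLocalToGlobal q) M}
    (hc : cls₁ (primeLocalToGlobal q) M c ∈ unrH1 q M) {u} (hu : LocInert q u) :
    (c.1 : primeLocalGaloisGroup q → M) u = 0 := by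
  obtain ⟨c', hc', h⟩ := Submodule.mem_map.mp hc
  rw [← sub_eq_zero, ← map_sub] at h
  obtain ⟨a, ha⟩ := cls₁_eq_zero_iff.1 h
  have := congrFun ha u
  rw [d₀₁_hom_apply, hI u hu, Module.End.one_apply, sub_self] at this
  have h2 : (0 : M) = (c'.1 : primeLocalGaloisGroup q → M) u
      - (c.1 : primeLocalGaloisGroup q → M) u := this
  rw [hc' u hu, zero_sub, zero_eq_neg] at h2
  exact h2

/-- A cocycle killing inertia is determined by its values on the powers of Frobenius. -/
theorem apply_eq_of_inert (hI : InertTrivial q M) (c : levelCocycles₁ (primeLocalToGlobal q) M)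
    (hc : ∀ u, LocInert q u → (c.1 : primeLocalGaloisGroup q → M) u = 0)
    (hsm : IsSmooth (primeLocalToGlobal q) M) :
    ∃ F : IntermediateField ℚ (AlgebraicClosure ℚ), FiniteDimensional ℚ F ∧
      ∀ g n u, LocInert q u → (locFrob q ^ n * u)⁻¹ * g ∈ levelSubgroup (primeLocalToGlobal q) F →
        (c.1 : primeLocalGaloisGroup q → M) g = (c.1 : primeLocalGaloisGroup q → M) (locFrob q ^ n)
          ∧ M.ρ g = M.ρ (locFrob q ^ n) := by
  obtain ⟨F₁, hF₁, h₁⟩ := (zl c)
  obtain ⟨F₂, hF₂, h₂⟩ := hsm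
  have := hF₁; have := hF₂
  refine ⟨F₁ ⊔ F₂, inferInstance, fun g n u hu h => ?_⟩
  have hg : g = locFrob q ^ n * u * ((locFrob q ^ n * u)⁻¹ * g) := by group
  constructor
  · conv_lhs => rw [hg]
    rw [h₁ _ _ (levelSubgroup_anti _ le_sup_left h), (mem_cocycles₁_iff _).mp (zc c), hc u hu,
      map_zero, zero_add]
  · conv_lhs => rw [hg]
    rw [map_mul, map_mul, hI u hu, h₂ _ (levelSubgroup_anti _ le_sup_right h), mul_one, mul_one]

theorem cocycle_frob_pow (c : levelCocycles₁ (primeLocalToGlobal q) M) (n m : ℕ) :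
    (c.1 : primeLocalGaloisGroup q → M) (locFrob q ^ (n + m))
      = (c.1 : primeLocalGaloisGroup q → M) (locFrob q ^ n)
        + (M.ρ (locFrob q) ^ n) ((c.1 : primeLocalGaloisGroup q → M) (locFrob q ^ m)) := by
  rw [pow_add, (mem_cocycles₁_iff _).mp (zc c), map_pow, add_comm]

/-- The period of Frobenius on a finite module. -/
theorem exists_period (M : Rep.{0} (ZMod p) (primeLocalGaloisGroup q))
    [FiniteDimensional (ZMod p) M] :
    ∃ N, 0 < N ∧ M.ρ (locFrob q) ^ N = 1 := by
  have : Finite (Module.End (ZMod p) M) := Module.finite_of_finite (ZMod p)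
  have hu : IsUnit (M.ρ (locFrob q)) := (Group.isUnit (locFrob q)).map M.ρ
  obtain ⟨u, hu⟩ := hu
  refine ⟨orderOf u, orderOf_pos u, ?_⟩
  rw [← hu, ← Units.val_pow_eq_pow_val, pow_orderOf_eq_one, Units.val_one]

/-- `M/(φ − 1)M` has the dimension of the invariants. -/
theorem finrank_coker_frob (hI : InertTrivial q M) (hsm : IsSmooth (primeLocalToGlobal q) M)
    [FiniteDimensional (ZMod p) M] :
    finrank (ZMod p) (M ⧸ LinearMap.range (M.ρ (locFrob q) - 1))
      = finrank (ZMod p) M.ρ.invariants := by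
  set T : M →ₗ[ZMod p] M := M.ρ (locFrob q) - 1
  have h1 := (LinearMap.range T).finrank_quotient_add_finrank
  have h2 := T.finrank_range_add_finrank_ker
  have h3 : LinearMap.ker T = M.ρ.invariants := by
    ext a
    refine ⟨fun ha g => ?_, fun ha => ?_⟩
    · have ha' : M.ρ (locFrob q) a = a := sub_eq_zero.mp (LinearMap.mem_ker.mp ha)
      obtain ⟨F, hF, h⟩ := hsm
      have := hF
      obtain ⟨n, u, hu, hg⟩ := exists_frob_pow_mul q F g
      have hg' : g = locFrob q ^ n * u * ((locFrob q ^ n * u)⁻¹ * g) := by group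
      rw [hg', map_mul, map_mul, hI u hu, h _ hg, mul_one, mul_one, map_pow]
      clear hg hg'
      induction n with
      | zero => rfl
      | succ n ih => rw [pow_succ, Module.End.mul_apply, ha', ih]
    · exact LinearMap.mem_ker.mpr (sub_eq_zero.mpr (ha (locFrob q)))
  rw [h3] at h2
  omega

/-- **The unramified classes are as many as the invariants.** -/
theorem finrank_unrH1 (hI : InertTrivial q M) (hsm : IsSmooth (primeLocalToGlobal q) M)
    [FiniteDimensional (ZMod p) M] :
    Module.Finite (ZMod p) (unrH1 q M) ∧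
      finrank (ZMod p) (unrH1 q M) = finrank (ZMod p) M.ρ.invariants := by
  classical
  have : FiniteDimensional (ZMod p) M := inferInstance
  set V := M ⧸ LinearMap.range (M.ρ (locFrob q) - 1)
  obtain ⟨N, hN, hMN⟩ := exists_period M
  -- the class with a given value at Frobenius
  obtain ⟨deg, -, hadd, hfrob, hinert, hlev⟩ :=
    exists_degree q (p * N) (Nat.mul_pos (Fact.out : p.Prime).pos hN)
  have hcongr : ∀ (a : M) (n m : ℕ), n ≡ m [MOD p * N] →
      Periodic.gen (M.ρ (locFrob q)) a n = Periodic.gen (M.ρ (locFrob q)) a m := fun a n m h => by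
    have hper := Periodic.cocycle_period (Periodic.gen_add (M.ρ (locFrob q)) a) hMN
    rw [← hper.map_mod_nat n, ← hper.map_mod_nat m, h]
  have hρdeg : ∀ g, M.ρ g = M.ρ (locFrob q) ^ deg g := fun g => by
    obtain ⟨F, hF, h⟩ := hsm
    obtain ⟨F', hF', h'⟩ := hlev
    have := hF; have := hF'
    obtain ⟨n, u, hu, hg⟩ := exists_frob_pow_mul q (F ⊔ F') g
    have hg' : g = locFrob q ^ n * u * ((locFrob q ^ n * u)⁻¹ * g) := by group
    have hd : deg g ≡ n [MOD p * N] := by
      rw [hg', h' _ _ (levelSubgroup_anti _ le_sup_right hg)]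
      refine (hadd _ _).trans ?_
      rw [hinert u hu, Nat.add_zero]
      exact hfrob n
    have hmod : ∀ n, M.ρ (locFrob q) ^ n = M.ρ (locFrob q) ^ (n % (p * N)) := fun n =>
      pow_eq_pow_mod n (by rw [Nat.mul_comm, pow_mul, hMN, one_pow])
    conv_lhs => rw [hg', map_mul, map_mul, hI u hu, h _ (levelSubgroup_anti _ le_sup_left hg),
      mul_one, mul_one, map_pow, hmod n, ← show deg g % (p * N) = n % (p * N) from hd, ← hmod]
  let lift : M → levelCocycles₁ (primeLocalToGlobal q) M := fun a =>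
    mkZ₁ (fun g => Periodic.gen (M.ρ (locFrob q)) a (deg g))
      ((mem_cocycles₁_iff _).mpr fun g h => by
        rw [hcongr a _ _ (hadd g h), Periodic.gen_add, hρdeg g, add_comm])
      (hlev.comp (Periodic.gen (M.ρ (locFrob q)) a))
  have hlift : ∀ a, cls₁ (primeLocalToGlobal q) M (lift a) ∈ unrH1 q M := fun a =>
    ⟨lift a, fun u hu => by
      show Periodic.gen _ a (deg u) = 0
      rw [hinert u hu]
      exact Finset.sum_range_zero _, rfl⟩
  have hliftφ : ∀ a, ((lift a).1 : primeLocalGaloisGroup q → M) (locFrob q) = a := fun a => by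
    show Periodic.gen _ a (deg (locFrob q)) = a
    rw [hcongr a _ 1 (by simpa using hfrob 1), Periodic.gen_one]
  -- the value at Frobenius
  let C : Submodule (ZMod p) (levelCocycles₁ (primeLocalToGlobal q) M) :=
    Submodule.comap (cls₁ (primeLocalToGlobal q) M) (unrH1 q M)
  let ev : C →ₗ[ZMod p] V :=
    { toFun := fun c => Submodule.Quotient.mk ((c.1.1 : primeLocalGaloisGroup q → M) (locFrob q))
      map_add' := fun _ _ => rfl
      map_smul' := fun _ _ => rfl }
  let π : C →ₗ[ZMod p] unrH1 q M :=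
    ((cls₁ (primeLocalToGlobal q) M).comp C.subtype).codRestrict _ fun c => c.2
  have hπ : Function.Surjective π := fun ⟨x, hx⟩ => by
    obtain ⟨c, rfl⟩ := cls₁_surjective x
    exact ⟨⟨c, hx⟩, rfl⟩
  have hev : Function.Surjective ev := fun v => by
    obtain ⟨a, rfl⟩ := Submodule.Quotient.mk_surjective _ v
    exact ⟨⟨lift a, hlift a⟩, congrArg Submodule.Quotient.mk (hliftφ a)⟩
  have hker : LinearMap.ker π = LinearMap.ker ev := by
    ext c
    rw [LinearMap.mem_ker, LinearMap.mem_ker, Subtype.ext_iff]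
    show cls₁ (primeLocalToGlobal q) M c.1 = 0 ↔ Submodule.Quotient.mk _ = 0
    rw [cls₁_eq_zero_iff, Submodule.Quotient.mk_eq_zero, LinearMap.mem_range]
    constructor
    · rintro ⟨a, ha⟩
      exact ⟨a, congrFun ha (locFrob q)⟩
    · rintro ⟨a, ha⟩
      refine ⟨a, funext fun g => ?_⟩
      obtain ⟨F, hF, h⟩ := apply_eq_of_inert hI c.1
        (fun u hu => eq_zero_of_inert_of_cls hI c.2 hu) hsm
      have := hF
      obtain ⟨n, u, hu, hg⟩ := exists_frob_pow_mul q F g
      obtain ⟨hc, hρ⟩ := h g n u hu hg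
      rw [d₀₁_hom_apply, hρ, hc]
      clear hc hρ hg
      induction n with
      | zero =>
        rw [pow_zero, map_one, Module.End.one_apply, sub_self]
        simp
      | succ n ih =>
        have h1 : M.ρ (locFrob q) a - a
            = (c.1.1 : primeLocalGaloisGroup q → M) (locFrob q ^ 1) := by
          rw [pow_one]; exact ha
        rw [cocycle_frob_pow c.1 n 1, ← ih, ← h1, map_sub, ← map_pow, ← Module.End.mul_apply,
          ← map_mul, pow_succ]
        abel
  have e1 := π.quotKerEquivOfSurjective hπ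
  have e2 := ev.quotKerEquivOfSurjective hev
  have e : unrH1 q M ≃ₗ[ZMod p] V :=
    e1.symm.trans ((Submodule.quotEquivOfEq _ _ hker).trans e2)
  have : Module.Finite (ZMod p) (unrH1 q M) := Module.Finite.equiv e.symm
  exact ⟨inferInstance, e.finrank_eq.trans (finrank_coker_frob hI hsm)⟩

/-- The cup product of two unramified classes is zero. -/
theorem cup_unrH1_eq_zero (hp2 : p ≠ 2) {A B C : Rep.{0} (ZMod p) (primeLocalGaloisGroup q)}
    [FiniteDimensional (ZMod p) A] [FiniteDimensional (ZMod p) B]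
    {β : A →ₗ[ZMod p] B →ₗ[ZMod p] C} (hβ : IsEquivariantBilin β)
    (hA : InertTrivial q A) (hB : InertTrivial q B) (hC : InertTrivial q C)
    (hsA : IsSmooth (primeLocalToGlobal q) A) (hsB : IsSmooth (primeLocalToGlobal q) B)
    (hsC : IsSmooth (primeLocalToGlobal q) C) {x : continuousH1 (primeLocalToGlobal q) A}
    (hx : x ∈ unrH1 q A) {y : continuousH1 (primeLocalToGlobal q) B} (hy : y ∈ unrH1 q B) :
    cup (primeLocalToGlobal q) hβ hsB x y = 0 := by
  obtain ⟨a, ha, rfl⟩ := Submodule.mem_map.mp hx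
  obtain ⟨b, hb, rfl⟩ := Submodule.mem_map.mp hy
  obtain ⟨NA, hNA, hAN⟩ := exists_period A
  obtain ⟨NB, hNB, hBN⟩ := exists_period B
  set N := NA * NB
  have hA' : A.ρ (locFrob q) ^ N = 1 := by rw [pow_mul, hAN, one_pow]
  have hB' : B.ρ (locFrob q) ^ N = 1 := by
    rw [show N = NB * NA from Nat.mul_comm _ _, pow_mul, hBN, one_pow]
  obtain ⟨c, hper, hc⟩ := Periodic.exists_primitive hp2 β (A.ρ (locFrob q)) (B.ρ (locFrob q))
    (C.ρ (locFrob q)) (fun n a b => by rw [← map_pow, ← map_pow, ← map_pow]; exact hβ _ a b)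
    hA' hB' (x := fun n => (a.1 : primeLocalGaloisGroup q → A) (locFrob q ^ n))
    (y := fun n => (b.1 : primeLocalGaloisGroup q → B) (locFrob q ^ n))
    (cocycle_frob_pow a) (cocycle_frob_pow b)
  obtain ⟨deg, -, hadd, hfrob, hinert, hlev⟩ :=
    exists_degree q (p * N) (Nat.mul_pos (Fact.out : p.Prime).pos (Nat.mul_pos hNA hNB))
  rw [cup_cls, cupZ, cls₂_eq_zero_iff]
  refine ⟨fun g => c (deg g), hlev.comp c, funext fun gh => ?_⟩
  obtain ⟨g, h⟩ := gh
  obtain ⟨Fa, hFa, ha'⟩ := apply_eq_of_inert hA a ha hsA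
  obtain ⟨Fb, hFb, hb'⟩ := apply_eq_of_inert hB b hb hsB
  obtain ⟨Fd, hFd, hd'⟩ := hlev
  obtain ⟨FC, hFC, hC'⟩ := hsC
  have := hFa; have := hFb; have := hFd; have := hFC
  set F := Fa ⊔ Fb ⊔ (Fd ⊔ FC)
  have key : ∀ g, ∃ n, (a.1 : primeLocalGaloisGroup q → A) g
        = (a.1 : primeLocalGaloisGroup q → A) (locFrob q ^ n) ∧
      (b.1 : primeLocalGaloisGroup q → B) g
        = (b.1 : primeLocalGaloisGroup q → B) (locFrob q ^ n) ∧
      B.ρ g = B.ρ (locFrob q) ^ n ∧ C.ρ g = C.ρ (locFrob q) ^ n ∧ deg g ≡ n [MOD p * N] :=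
        fun g => by
    obtain ⟨n, u, hu, hg⟩ := exists_frob_pow_mul q F g
    have h1 := ha' g n u hu (levelSubgroup_anti _ (le_sup_of_le_left le_sup_left) hg)
    have h2 := hb' g n u hu (levelSubgroup_anti _ (le_sup_of_le_left le_sup_right) hg)
    have hg' : g = locFrob q ^ n * u * ((locFrob q ^ n * u)⁻¹ * g) := by group
    refine ⟨n, h1.1, h2.1, h2.2.trans (map_pow _ _ _), ?_, ?_⟩
    · conv_lhs => rw [hg', map_mul, map_mul, hC u hu,
        hC' _ (levelSubgroup_anti _ (le_sup_of_le_right le_sup_right) hg),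
          mul_one, mul_one, map_pow]
    · rw [hg', hd' _ _ (levelSubgroup_anti _ (le_sup_of_le_right le_sup_left) hg)]
      refine (hadd _ _).trans ?_
      rw [hinert u hu, Nat.add_zero]
      exact hfrob n
  obtain ⟨n, hna, -, hnB, hnC, hnd⟩ := key g
  obtain ⟨m, -, hmb, -, -, hmd⟩ := key h
  have hcc : ∀ i j, i ≡ j [MOD p * N] → c i = c j := fun i j hij => by
    rw [← hper.map_mod_nat i, ← hper.map_mod_nat j, hij]
  rw [d₁₂_apply]
  show _ = β ((a.1 : primeLocalGaloisGroup q → A) g)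
    (B.ρ g ((b.1 : primeLocalGaloisGroup q → B) h))
  rw [hnC, hcc _ _ hnd, hcc _ _ hmd, hcc _ _ ((hadd g h).trans (hnd.add hmd)), hna, hmb, hnB]
  exact hc n m

/-! ## Global modules at a prime outside the level -/

section Global

variable {S : Finset Nat.Primes}

theorem inertTrivial_loc {M : Rep.{0} (ZMod p) Γℚ} (hM : SLevel S M) (hq : q ∉ S) :
    InertTrivial q (Rep.res (primeLocalToGlobal q) M) := by
  obtain ⟨F, hF, hs⟩ := hM
  exact fun u hu => hs _ (hF.2 q hq _ (primeLocalPlace_liesOverPrime q) hu)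

theorem inertTrivial_cyclo (hpS : pPrime p ∈ S) (hq : q ∉ S) :
    InertTrivial q (Rep.res (primeLocalToGlobal q) (ofChar (cycloChar p))) := fun u hu =>
  LinearMap.ext fun c => by
    show (cycloChar p (primeLocalToGlobal q u) : ZMod p) * c = c
    rw [cycloChar_eq_one_of_inertia (fun h => hq (by rw [h]; exact hpS))
      (primeLocalPlace_liesOverPrime q) hu, Units.val_one, one_mul]

/-- **A class orthogonal to the unramified classes is unramified.** -/
theorem mem_unrH1_of_orthogonal (R : Reciprocity p) (hp2 : p ≠ 2) (M : Rep.{0} (ZMod p) Γℚ)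
    [FiniteDimensional (ZMod p) M] (hpS : pPrime p ∈ S) (hM : SLevel S M) (hq : q ∉ S)
    [hfin : Module.Finite (ZMod p)
      (continuousH1 (primeLocalToGlobal q) (Rep.res (primeLocalToGlobal q) M))]
    (heul : finrank (ZMod p)
        (continuousH1 (primeLocalToGlobal q) (Rep.res (primeLocalToGlobal q) M))
      ≤ finrank (ZMod p) (Rep.res (primeLocalToGlobal q) M).ρ.invariants
        + finrank (ZMod p)
            (Rep.res (primeLocalToGlobal q) (M.dualTwist (cycloChar p))).ρ.invariants)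
    {y : continuousH1 (primeLocalToGlobal q)
      (Rep.res (primeLocalToGlobal q) (M.dualTwist (cycloChar p)))}
    (hy : ∀ x ∈ unrH1 q (Rep.res (primeLocalToGlobal q) M),
      contPairing R M q (hM.smooth_loc_dual q) x y = 0) :
    y ∈ unrH1 q (Rep.res (primeLocalToGlobal q) (M.dualTwist (cycloChar p))) := by
  set M' := M.dualTwist (cycloChar p)
  have : FiniteDimensional (ZMod p) M' :=
    inferInstanceAs (FiniteDimensional (ZMod p) (Dual (ZMod p) M))
  have : FiniteDimensional (ZMod p) (Rep.res (primeLocalToGlobal q) M) :=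
    inferInstanceAs (FiniteDimensional (ZMod p) M)
  have : FiniteDimensional (ZMod p) (Rep.res (primeLocalToGlobal q) M') :=
    inferInstanceAs (FiniteDimensional (ZMod p) M')
  have hIM := inertTrivial_loc (q := q) hM hq
  have hIM' := inertTrivial_loc (q := q) (sLevel_dualTwist hpS hM) hq
  set U := unrH1 q (Rep.res (primeLocalToGlobal q) M)
  set U' := unrH1 q (Rep.res (primeLocalToGlobal q) M')
  obtain ⟨-, hU⟩ := finrank_unrH1 hIM (hM.smooth_loc q)
  obtain ⟨hU'f, hU'⟩ := finrank_unrH1 hIM' (hM.smooth_loc_dual q)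
  let Φ := (contPairing R M q (hM.smooth_loc_dual q)).flip
  have hΦ : Function.Injective Φ := (injective_iff_map_eq_zero Φ).mpr fun z hz =>
    eq_zero_of_contPairing R S M q hM fun x => LinearMap.congr_fun hz x
  have : Module.Finite (ZMod p) (continuousH1 (primeLocalToGlobal q)
      (Rep.res (primeLocalToGlobal q) M')) := Module.Finite.of_injective Φ hΦ
  let O := LinearMap.ker (U.subtype.dualMap ∘ₗ Φ)
  have hsC : IsSmooth (primeLocalToGlobal q)
      (Rep.res (primeLocalToGlobal q) (ofChar (cycloChar p))) := by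
    obtain ⟨F, hF, h⟩ := smoothChar_loc (p := p) q
    exact ⟨F, hF, fun s hs => LinearMap.ext fun c => by
      show (cycloChar p (primeLocalToGlobal q s) : ZMod p) * c = c
      rw [show cycloChar p (primeLocalToGlobal q s) = 1 from h s hs, Units.val_one, one_mul]⟩
  have hle : U' ≤ O := fun z hz => LinearMap.mem_ker.mpr (LinearMap.ext fun x =>
    (congrArg (R.inv q) (cup_unrH1_eq_zero hp2 (isEquivariantBilin_loc M q) hIM hIM'
      (inertTrivial_cyclo hpS hq) (hM.smooth_loc q) (hM.smooth_loc_dual q) hsC x.2 hz)).trans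
      (map_zero _))
  have hO : finrank (ZMod p) O ≤ finrank (ZMod p) U' := by
    have h1 : O.map Φ ≤ U.dualAnnihilator := by
      rintro _ ⟨z, hz, rfl⟩
      rw [Submodule.mem_dualAnnihilator]
      exact fun x hx => LinearMap.congr_fun (LinearMap.mem_ker.mp hz) ⟨x, hx⟩
    have h2 := Submodule.finrank_mono h1
    rw [LinearEquiv.finrank_eq (Submodule.equivMapOfInjective Φ hΦ O).symm] at h2
    have h3 := Subspace.finrank_add_finrank_dualAnnihilator_eq U
    have h4 : finrank (ZMod p) U + finrank (ZMod p) U' =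
        finrank (ZMod p) (Rep.res (primeLocalToGlobal q) M).ρ.invariants
        + finrank (ZMod p) (Rep.res (primeLocalToGlobal q) M').ρ.invariants := by rw [hU, hU']
    exact Nat.le_of_add_le_add_left
      ((Nat.add_le_add_left h2 (finrank (ZMod p) U)).trans
        ((le_of_eq h3).trans (heul.trans (le_of_eq h4.symm))))
  rw [Submodule.eq_of_le_of_finrank_le hle hO]
  exact LinearMap.mem_ker.mpr (LinearMap.ext fun x => hy x.1 x.2)

end Global

end FLTAgent.GWEuler
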